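import Mathlib

/-!
# Transport of points of a Weierstrass curve under a change of variables

For a field `F`, a Weierstrass curve `W` over `F` and a change of variables `C`, the map
`(x, y) ↦ (u² x + r, u³ y + u² s x + t)` is an isomorphism of groups from the points of `C • W`
to the points of `W`.
-/

set_option autoImplicit false

namespace Fermat.Agent.S51.PointMap

open WeierstrassCurve WeierstrassCurve.Affine

variable {F : Type*} [Field F] (W : WeierstrassCurve F) (C : VariableChange F)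

/-- The `X`-coordinate of the image of a point under a change of variables. -/
def vcX (x : F) : F := (C.u : F) ^ 2 * x + C.r

/-- The `Y`-coordinate of the image of a point under a change of variables. -/
def vcY (x y : F) : F := (C.u : F) ^ 3 * y + (C.u : F) ^ 2 * C.s * x + C.t

theorem u_ne_zero : (C.u : F) ≠ 0 := C.u.ne_zero

theorem val_inv_u : ((C.u⁻¹ : Fˣ) : F) = (C.u : F)⁻¹ := Units.val_inv_eq_inv_val C.u

theorem vcX_injective : Function.Injective (vcX C) := by
  intro x x' h
  simp only [vcX] at h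
  have hu := u_ne_zero C
  have h2 : (C.u : F) ^ 2 * x = (C.u : F) ^ 2 * x' := by linear_combination h
  exact mul_left_cancel₀ (pow_ne_zero 2 hu) h2

theorem vcY_injective (x : F) : Function.Injective (vcY C x) := by
  intro y y' h
  simp only [vcY] at h
  have hu := u_ne_zero C
  have h2 : (C.u : F) ^ 3 * y = (C.u : F) ^ 3 * y' := by linear_combination h
  exact mul_left_cancel₀ (pow_ne_zero 3 hu) h2

/-- The Weierstrass polynomial transforms by the factor `u⁶`. -/
theorem polynomial_vc (x y : F) :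
    (vcY C x y) ^ 2 + W.a₁ * (vcX C x) * (vcY C x y) + W.a₃ * (vcY C x y) -
      ((vcX C x) ^ 3 + W.a₂ * (vcX C x) ^ 2 + W.a₄ * (vcX C x) + W.a₆) =
    (C.u : F) ^ 6 * (y ^ 2 + (C • W).a₁ * x * y + (C • W).a₃ * y -
      (x ^ 3 + (C • W).a₂ * x ^ 2 + (C • W).a₄ * x + (C • W).a₆)) := by
  have hu := u_ne_zero C
  simp only [vcX, vcY, variableChange_a₁, variableChange_a₂, variableChange_a₃,
    variableChange_a₄, variableChange_a₆, val_inv_u]
  field_simp
  ring

theorem polynomialY_vc (x y : F) :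
    2 * (vcY C x y) + W.a₁ * (vcX C x) + W.a₃ =
      (C.u : F) ^ 3 * (2 * y + (C • W).a₁ * x + (C • W).a₃) := by
  have hu := u_ne_zero C
  simp only [vcX, vcY, variableChange_a₁, variableChange_a₃, val_inv_u]
  field_simp
  ring

theorem polynomialX_vc (x y : F) :
    W.a₁ * (vcY C x y) - (3 * (vcX C x) ^ 2 + 2 * W.a₂ * (vcX C x) + W.a₄) =
      (C.u : F) ^ 4 * ((C • W).a₁ * y - (3 * x ^ 2 + 2 * (C • W).a₂ * x + (C • W).a₄)) -
        C.s * ((C.u : F) ^ 3 * (2 * y + (C • W).a₁ * x + (C • W).a₃)) := by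
  have hu := u_ne_zero C
  simp only [vcX, vcY, variableChange_a₁, variableChange_a₂, variableChange_a₃,
    variableChange_a₄, val_inv_u]
  field_simp
  ring

theorem equation_vc (x y : F) :
    (C • W).toAffine.Equation x y ↔ W.toAffine.Equation (vcX C x) (vcY C x y) := by
  have hu := u_ne_zero C
  rw [equation_iff', equation_iff', polynomial_vc]
  constructor
  · intro h
    rw [h, mul_zero]
  · intro h
    rcases mul_eq_zero.mp h with h | h
    · exact absurd h (pow_ne_zero 6 hu)
    · exact h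

theorem nonsingular_vc (x y : F) :
    (C • W).toAffine.Nonsingular x y ↔ W.toAffine.Nonsingular (vcX C x) (vcY C x y) := by
  have hu := u_ne_zero C
  rw [nonsingular_iff', nonsingular_iff', ← equation_vc, polynomialX_vc, polynomialY_vc]
  refine and_congr_right fun _ => ?_
  set A := (C • W).a₁ * y - (3 * x ^ 2 + 2 * (C • W).a₂ * x + (C • W).a₄) with hA
  set B := 2 * y + (C • W).a₁ * x + (C • W).a₃ with hB
  have hu3 : (C.u : F) ^ 3 ≠ 0 := pow_ne_zero 3 hu
  have hu4 : (C.u : F) ^ 4 ≠ 0 := pow_ne_zero 4 hu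
  constructor
  · rintro (h | h)
    · by_cases hB0 : B = 0
      · left
        rw [hB0, mul_zero, mul_zero, sub_zero]
        exact mul_ne_zero hu4 h
      · right
        exact mul_ne_zero hu3 hB0
    · right
      exact mul_ne_zero hu3 h
  · rintro (h | h)
    · by_cases hB0 : B = 0
      · left
        rw [hB0, mul_zero, mul_zero, sub_zero] at h
        exact right_ne_zero_of_mul h
      · right
        exact hB0
    · right
      exact right_ne_zero_of_mul h

theorem negY_vc (x y : F) :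
    W.toAffine.negY (vcX C x) (vcY C x y) = vcY C x ((C • W).toAffine.negY x y) := by
  have hu := u_ne_zero C
  simp only [negY, vcX, vcY, variableChange_a₁, variableChange_a₃, val_inv_u]
  field_simp
  ring

theorem addX_vc (x₁ x₂ ℓ : F) :
    W.toAffine.addX (vcX C x₁) (vcX C x₂) ((C.u : F) * ℓ + C.s) =
      vcX C ((C • W).toAffine.addX x₁ x₂ ℓ) := by
  have hu := u_ne_zero C
  simp only [addX, vcX, variableChange_a₁, variableChange_a₂, val_inv_u]
  field_simp
  ring

theorem negAddY_vc (x₁ x₂ y₁ ℓ : F) :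
    W.toAffine.negAddY (vcX C x₁) (vcX C x₂) (vcY C x₁ y₁) ((C.u : F) * ℓ + C.s) =
      vcY C ((C • W).toAffine.addX x₁ x₂ ℓ) ((C • W).toAffine.negAddY x₁ x₂ y₁ ℓ) := by
  rw [negAddY, addX_vc, negAddY]
  simp only [vcX, vcY]
  ring

theorem addY_vc (x₁ x₂ y₁ ℓ : F) :
    W.toAffine.addY (vcX C x₁) (vcX C x₂) (vcY C x₁ y₁) ((C.u : F) * ℓ + C.s) =
      vcY C ((C • W).toAffine.addX x₁ x₂ ℓ) ((C • W).toAffine.addY x₁ x₂ y₁ ℓ) := by
  rw [addY, negAddY_vc, addX_vc, negY_vc, addY]

variable [DecidableEq F]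

theorem slope_vc {x₁ x₂ y₁ y₂ : F} (h₁ : (C • W).toAffine.Equation x₁ y₁)
    (h₂ : (C • W).toAffine.Equation x₂ y₂)
    (hxy : ¬(x₁ = x₂ ∧ y₁ = (C • W).toAffine.negY x₂ y₂)) :
    W.toAffine.slope (vcX C x₁) (vcX C x₂) (vcY C x₁ y₁) (vcY C x₂ y₂) =
      (C.u : F) * (C • W).toAffine.slope x₁ x₂ y₁ y₂ + C.s := by
  have hu := u_ne_zero C
  by_cases hx : x₁ = x₂
  · have hy : y₁ ≠ (C • W).toAffine.negY x₂ y₂ := fun h => hxy ⟨hx, h⟩
    have hy12 : y₁ = y₂ := Y_eq_of_Y_ne h₁ h₂ hx hy
    subst hx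
    subst hy12
    have hy' : vcY C x₁ y₁ ≠ W.toAffine.negY (vcX C x₁) (vcY C x₁ y₁) := by
      rw [negY_vc]
      exact fun h => hy (vcY_injective C x₁ h)
    rw [slope_of_Y_ne rfl hy', slope_of_Y_ne rfl hy]
    have hd : y₁ - (C • W).toAffine.negY x₁ y₁ ≠ 0 := sub_ne_zero.mpr hy
    have hd' : vcY C x₁ y₁ - W.toAffine.negY (vcX C x₁) (vcY C x₁ y₁) ≠ 0 := sub_ne_zero.mpr hy'
    have e1 : vcY C x₁ y₁ - W.toAffine.negY (vcX C x₁) (vcY C x₁ y₁) =
        (C.u : F) ^ 3 * (y₁ - (C • W).toAffine.negY x₁ y₁) := by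
      have := polynomialY_vc W C x₁ y₁
      simp only [negY]
      linear_combination this
    have e2 := polynomialX_vc W C x₁ y₁
    have e3 : y₁ - (C • W).toAffine.negY x₁ y₁ = 2 * y₁ + (C • W).a₁ * x₁ + (C • W).a₃ := by
      simp only [negY]
      ring
    rw [e1, e3]
    rw [e3] at hd
    have hu3 : (C.u : F) ^ 3 ≠ 0 := pow_ne_zero 3 hu
    rw [div_eq_iff (mul_ne_zero hu3 hd)]
    have e4 : ∀ N D : F, D ≠ 0 → ((C.u : F) * (N / D) + C.s) * ((C.u : F) ^ 3 * D) =
        (C.u : F) ^ 4 * N + C.s * ((C.u : F) ^ 3 * D) := by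
      intro N D hD
      field_simp
    rw [e4 _ _ hd]
    linear_combination -e2
  · have hx' : vcX C x₁ ≠ vcX C x₂ := fun h => hx (vcX_injective C h)
    rw [slope_of_X_ne hx', slope_of_X_ne hx]
    have hd : x₁ - x₂ ≠ 0 := sub_ne_zero.mpr hx
    have hd' : vcX C x₁ - vcX C x₂ ≠ 0 := sub_ne_zero.mpr hx'
    rw [div_eq_iff hd']
    simp only [vcX, vcY]
    field_simp
    ring

/-- The map on points induced by a change of variables. -/
def pointMap : (C • W).toAffine.Point → W.toAffine.Point
  | .zero => .zero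
  | .some x y h => .some (vcX C x) (vcY C x y) ((nonsingular_vc W C x y).mp h)

omit [DecidableEq F] in
@[simp]
theorem pointMap_zero : pointMap W C 0 = 0 := rfl

omit [DecidableEq F] in
theorem pointMap_some {x y : F} (h : (C • W).toAffine.Nonsingular x y) :
    pointMap W C (.some x y h) = .some (vcX C x) (vcY C x y) ((nonsingular_vc W C x y).mp h) :=
  rfl

theorem pointMap_add (P Q : (C • W).toAffine.Point) :
    pointMap W C (P + Q) = pointMap W C P + pointMap W C Q := by
  rcases P with _ | ⟨x₁, y₁, h₁⟩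
  · show pointMap W C (0 + Q) = 0 + pointMap W C Q
    rw [zero_add, zero_add]
  rcases Q with _ | ⟨x₂, y₂, h₂⟩
  · show pointMap W C (_ + 0) = _ + 0
    rw [add_zero, add_zero]
  by_cases hxy : x₁ = x₂ ∧ y₁ = (C • W).toAffine.negY x₂ y₂
  · rw [Point.add_of_Y_eq hxy.1 hxy.2, pointMap_some, pointMap_some,
      Point.add_of_Y_eq (congrArg _ hxy.1) (by rw [negY_vc, hxy.2, hxy.1])]
    rfl
  · have hxy' : ¬(vcX C x₁ = vcX C x₂ ∧
        vcY C x₁ y₁ = W.toAffine.negY (vcX C x₂) (vcY C x₂ y₂)) := by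
      rintro ⟨hx, hy⟩
      have hx' := vcX_injective C hx
      subst hx'
      rw [negY_vc] at hy
      exact hxy ⟨rfl, vcY_injective C x₁ hy⟩
    rw [Point.add_some hxy, pointMap_some, pointMap_some, pointMap_some, Point.add_some hxy']
    simp only [Point.some.injEq]
    rw [slope_vc W C h₁.1 h₂.1 hxy]
    exact ⟨(addX_vc W C x₁ x₂ _).symm, (addY_vc W C x₁ x₂ y₁ _).symm⟩

omit [DecidableEq F] in
theorem pointMap_injective : Function.Injective (pointMap W C) := by
  rintro (_ | ⟨x₁, y₁, h₁⟩) (_ | ⟨x₂, y₂, h₂⟩) h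
  · rfl
  · exact absurd h (by simp [pointMap])
  · exact absurd h (by simp [pointMap])
  · simp only [pointMap, Point.some.injEq] at h
    obtain ⟨hx, hy⟩ := h
    have hx' := vcX_injective C hx
    subst hx'
    have hy' := vcY_injective C x₁ hy
    subst hy'
    rfl

omit [DecidableEq F] in
theorem pointMap_surjective : Function.Surjective (pointMap W C) := by
  have hu := u_ne_zero C
  rintro (_ | ⟨X, Y, h⟩)
  · exact ⟨0, rfl⟩
  · set x : F := (X - C.r) / (C.u : F) ^ 2 with hx
    set y : F := (Y - (C.u : F) ^ 2 * C.s * x - C.t) / (C.u : F) ^ 3 with hy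
    have hX : vcX C x = X := by
      simp only [vcX, hx]
      field_simp
      ring
    have hY : vcY C x y = Y := by
      simp only [vcY, hy]
      field_simp
      ring
    have h' : (C • W).toAffine.Nonsingular x y := by
      rw [nonsingular_vc, hX, hY]
      exact h
    refine ⟨.some x y h', ?_⟩
    simp only [pointMap, Point.some.injEq]
    exact ⟨hX, hY⟩

/-- The additive equivalence between the points of `C • W` and the points of `W`. -/
noncomputable def pointEquiv : (C • W).toAffine.Point ≃+ W.toAffine.Point :=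
  AddEquiv.ofBijective
    (⟨⟨pointMap W C, rfl⟩, pointMap_add W C⟩ : (C • W).toAffine.Point →+ W.toAffine.Point)
    ⟨pointMap_injective W C, pointMap_surjective W C⟩

@[simp]
theorem pointEquiv_apply (P : (C • W).toAffine.Point) : pointEquiv W C P = pointMap W C P := rfl

theorem pointEquiv_some {x y : F} (h : (C • W).toAffine.Nonsingular x y) :
    pointEquiv W C (.some x y h) =
      .some (vcX C x) (vcY C x y) ((nonsingular_vc W C x y).mp h) := rfl

theorem pointEquiv_zero : pointEquiv W C 0 = 0 := rfl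

theorem pointEquiv_nsmul_eq_zero_iff (n : ℕ) (P : (C • W).toAffine.Point) :
    n • pointEquiv W C P = 0 ↔ n • P = 0 := by
  rw [← map_nsmul, map_eq_zero_iff _ (pointEquiv W C).injective]

end Fermat.Agent.S51.PointMap
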