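import Mathlib
import Fermat.Prelude.Def_FLTPrelim_GaloisRep

/-!
# Galois-stable lines in the `p`-torsion of a Weierstrass curve

If the `p`-torsion of a Weierstrass curve has less than `p³` elements, then a Galois-stable
submodule which is neither `⊥` nor `⊤` is generated by a nonzero point `P`, and every Galois
conjugate of `P` is a multiple `m • P` with `0 < m < p`.
-/

set_option autoImplicit false

namespace Fermat.Agent.S51.GalLine

open WeierstrassCurve WeierstrassCurve.Affine WeierstrassCurve.Affine.Point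

section LinAlg

variable {p : ℕ} [Fact p.Prime] {V : Type*} [AddCommGroup V] [Module (ZMod p) V]

/-- In a vector space over `ZMod p` with less than `p³` elements, a subspace which is neither
`⊥` nor `⊤` is a line. -/
theorem exists_generator [Finite V] (hcard : Nat.card V < p ^ 3) (N : Submodule (ZMod p) V)
    (h0 : N ≠ ⊥) (h1 : N ≠ ⊤) :
    ∃ P ∈ N, P ≠ 0 ∧ ∀ Q ∈ N, ∃ c : ZMod p, c • P = Q := by
  have hp : p.Prime := Fact.out
  have : Module.Finite (ZMod p) V := Module.Finite.of_finite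
  have hV : Nat.card V = p ^ Module.finrank (ZMod p) V := by
    rw [Module.natCard_eq_pow_finrank (K := ZMod p) (V := V), Nat.card_eq_fintype_card,
      ZMod.card]
  have hr : Module.finrank (ZMod p) V < 3 := by
    rw [hV] at hcard
    exact (Nat.pow_lt_pow_iff_right hp.one_lt).mp hcard
  have hlt : Module.finrank (ZMod p) N < Module.finrank (ZMod p) V := Submodule.finrank_lt h1
  have hpos : 1 ≤ Module.finrank (ZMod p) N := Submodule.one_le_finrank_iff.mpr h0
  have hone : Module.finrank (ZMod p) N = 1 := by omega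
  obtain ⟨P, hPN, hP0⟩ := (Submodule.ne_bot_iff N).mp h0
  refine ⟨P, hPN, hP0, fun Q hQ => ?_⟩
  have hP0' : (⟨P, hPN⟩ : N) ≠ 0 := fun h => hP0 (congrArg Subtype.val h)
  obtain ⟨c, hc⟩ := (finrank_eq_one_iff_of_nonzero' (⟨P, hPN⟩ : N) hP0').mp hone ⟨Q, hQ⟩
  exact ⟨c, congrArg Subtype.val hc⟩

end LinAlg

section Galois

universe r s v

variable {R : Type r} {S : Type s} {K : Type v} [CommRing R] [CommRing S] [Field K]
  [DecidableEq K] {W' : Affine R} [Algebra R S] [Algebra R K] [Algebra S K]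
  [IsScalarTower R S K]

theorem mem_torsionBy_iff_nsmul (n : ℕ) (P : (W'⁄K).Point) :
    P ∈ Submodule.torsionBy ℤ (W'⁄K).Point n ↔ n • P = 0 := by
  rw [Submodule.mem_torsionBy_iff, natCast_zsmul]

theorem coe_galois_smul {n : ℕ} (σ : K ≃ₐ[S] K)
    (P : Submodule.torsionBy ℤ (W'⁄K).Point n) :
    ((σ • P : Submodule.torsionBy ℤ (W'⁄K).Point n) : (W'⁄K).Point) = σ • (P : (W'⁄K).Point) :=
  rfl

theorem galois_smul_some (σ : K ≃ₐ[S] K) {x y : K} (h : (W'⁄K).Nonsingular x y) :
    ∃ h' : (W'⁄K).Nonsingular (σ x) (σ y),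
      σ • (Point.some x y h : (W'⁄K).Point) = Point.some (σ x) (σ y) h' :=
  ⟨_, Point.map_some (W' := W') σ.toAlgHom h⟩

theorem galois_smul_eq_zero_iff (σ : K ≃ₐ[S] K) (P : (W'⁄K).Point) : σ • P = 0 ↔ P = 0 := by
  constructor
  · intro h
    have h2 : σ⁻¹ • (σ • P) = σ⁻¹ • (0 : (W'⁄K).Point) := by rw [h]
    rwa [smul_zero, ← mul_smul, inv_mul_cancel, one_smul] at h2
  · rintro rfl
    exact smul_zero σ

theorem zmod_smul_coe {n : ℕ} [NeZero n] (c : ZMod n)
    (P : Submodule.torsionBy ℤ (W'⁄K).Point n) :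
    ((c • P : Submodule.torsionBy ℤ (W'⁄K).Point n) : (W'⁄K).Point) =
      c.val • (P : (W'⁄K).Point) := by
  have h1 : c • P = c.val • P := by
    conv_lhs => rw [← ZMod.natCast_zmod_val c]
    exact Nat.cast_smul_eq_nsmul (ZMod n) c.val P
  rw [h1]
  exact AddSubmonoidClass.coe_nsmul P c.val

/-- A Galois-stable submodule of the `p`-torsion, neither `⊥` nor `⊤`, is generated by a point
all of whose conjugates are nonzero multiples of it (when the `p`-torsion has less than `p³`
elements). -/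
theorem exists_point_of_stable {p : ℕ} [Fact p.Prime]
    (hfin : {P : (W'⁄K).Point | p • P = 0}.Finite)
    (hcard : {P : (W'⁄K).Point | p • P = 0}.ncard < p ^ 3)
    (N : Submodule (ZMod p) (Submodule.torsionBy ℤ (W'⁄K).Point p))
    (hN : IsGaloisStable S N) (h0 : N ≠ ⊥) (h1 : N ≠ ⊤) :
    ∃ P : (W'⁄K).Point, P ≠ 0 ∧ p • P = 0 ∧
      ∀ σ : K ≃ₐ[S] K, ∃ m : ℕ, 0 < m ∧ m < p ∧ σ • P = m • P := by
  have hp : p.Prime := Fact.out
  have hset : ((Submodule.torsionBy ℤ (W'⁄K).Point p : Submodule ℤ (W'⁄K).Point) :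
      Set (W'⁄K).Point) = {P : (W'⁄K).Point | p • P = 0} := by
    ext P
    exact mem_torsionBy_iff_nsmul p P
  have : Finite (Submodule.torsionBy ℤ (W'⁄K).Point p) := by
    have : Finite ((Submodule.torsionBy ℤ (W'⁄K).Point p : Submodule ℤ (W'⁄K).Point) :
        Set (W'⁄K).Point) := by
      rw [hset]
      exact hfin.to_subtype
    exact this
  have hcard' : Nat.card (Submodule.torsionBy ℤ (W'⁄K).Point p) < p ^ 3 := by
    have : Nat.card (Submodule.torsionBy ℤ (W'⁄K).Point p) =
        {P : (W'⁄K).Point | p • P = 0}.ncard := by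
      rw [← hset]
      rfl
    rw [this]
    exact hcard
  obtain ⟨P, hPN, hP0, hgen⟩ := exists_generator hcard' N h0 h1
  refine ⟨(P : (W'⁄K).Point), fun h => hP0 (Subtype.ext h),
    (mem_torsionBy_iff_nsmul p _).mp P.2, fun σ => ?_⟩
  obtain ⟨c, hc⟩ := hgen (σ • P) (hN σ P hPN)
  have : NeZero p := ⟨hp.ne_zero⟩
  refine ⟨c.val, ?_, ZMod.val_lt c, ?_⟩
  · rcases Nat.eq_zero_or_pos c.val with h | h
    · exfalso
      have hc0 : c = 0 := (ZMod.val_eq_zero c).mp h
      rw [hc0, zero_smul] at hc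
      have h2 : σ • (P : (W'⁄K).Point) = 0 := by
        rw [← coe_galois_smul, ← hc]
        rfl
      exact hP0 (Subtype.ext ((galois_smul_eq_zero_iff σ _).mp h2))
    · exact h
  · rw [← coe_galois_smul, ← hc, zmod_smul_coe]

end Galois

end Fermat.Agent.S51.GalLine
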