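import Mathlib

/-!
# S51: Galois-fixed elements of `ℚ̄` are rational

Note: the `ℚ`-algebra structure on `AlgebraicClosure ℚ` found by instance search is
`DivisionRing.toRatAlgebra` (this is the one used in the frozen statement).
-/

namespace Fermat.Agent.S51.Fixed

theorem isAlgClosure_rat : IsAlgClosure ℚ (AlgebraicClosure ℚ) := by
  have h : (DivisionRing.toRatAlgebra : Algebra ℚ (AlgebraicClosure ℚ))
      = AlgebraicClosure.instAlgebra ℚ := Subsingleton.elim _ _
  rw [h]
  infer_instance

theorem isGalois_algebraicClosure_rat : IsGalois ℚ (AlgebraicClosure ℚ) :=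
  have := isAlgClosure_rat
  IsAlgClosure.isGalois ℚ (AlgebraicClosure ℚ)

theorem mem_range_of_fixed (x : AlgebraicClosure ℚ)
    (h : ∀ σ : AlgebraicClosure ℚ ≃ₐ[ℚ] AlgebraicClosure ℚ, σ x = x) :
    ∃ q : ℚ, algebraMap ℚ (AlgebraicClosure ℚ) q = x := by
  have hG := isGalois_algebraicClosure_rat
  exact (InfiniteGalois.mem_range_algebraMap_iff_fixed (k := ℚ) (K := AlgebraicClosure ℚ) x).mpr h

end Fermat.Agent.S51.Fixed
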