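import Mathlib

/-!
# Rational points of `y² = x (x + 9) (x - 16)` (a model of `X₀(15)`)

We show that the only rational points of `y² = x (x + 9) (x - 16)` have
`x ∈ {0, -9, 16, 36, -4}`.  The proof is a complete 2-descent on the 2-isogenous curve
`y² = x (x - 1) (x - 81)`, on which every rational point has `y = 0`.
-/

set_option autoImplicit false

namespace Fermat.Agent.S51.Descent

/-! ### Products of two integers which are squares -/

/-- If `A * B` is a square, `A, B ≠ 0`, then `A` and `B` are, up to a common sign, `gcd A B`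
times a square. -/
theorem exists_sq_of_mul_eq_sq {A B k : ℤ} (hA : A ≠ 0) (hB : B ≠ 0) (h : A * B = k ^ 2) :
    ∃ s α β : ℤ, (s = 1 ∨ s = -1) ∧ A = s * (Int.gcd A B) * α ^ 2 ∧
      B = s * (Int.gcd A B) * β ^ 2 := by
  have hg : 0 < Int.gcd A B := Int.gcd_pos_of_ne_zero_left _ hA
  obtain ⟨A', B', hcop, hA', hB'⟩ := Int.exists_gcd_one hg
  set g : ℤ := (Int.gcd A B : ℤ) with hgdef
  have hg0 : g ≠ 0 := by
    have : (0 : ℤ) < g := Int.natCast_pos.mpr hg
    exact this.ne'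
  have hA'0 : A' ≠ 0 := by
    rintro rfl
    exact hA (by rw [hA']; simp)
  have hB'0 : B' ≠ 0 := by
    rintro rfl
    exact hB (by rw [hB']; simp)
  -- `g ∣ k`
  have hgk : g ∣ k := by
    rw [← Int.pow_dvd_pow_iff two_ne_zero, ← h]
    refine ⟨A' * B', ?_⟩
    rw [hA', hB']
    ring
  obtain ⟨k', rfl⟩ := hgk
  have h' : A' * B' = k' ^ 2 := by
    have h1 : g ^ 2 * (A' * B') = g ^ 2 * k' ^ 2 := by
      have : A * B = g ^ 2 * (A' * B') := by
        rw [hA', hB']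
        ring
      rw [← this, h]
      ring
    exact mul_left_cancel₀ (pow_ne_zero 2 hg0) h1
  obtain ⟨α, hα⟩ := Int.sq_of_gcd_eq_one hcop h'
  have hcop' : Int.gcd B' A' = 1 := by rwa [Int.gcd_comm]
  obtain ⟨β, hβ⟩ := Int.sq_of_gcd_eq_one hcop' (by rw [mul_comm]; exact h')
  have hprod : 0 < A' * B' := by
    rw [h']
    have : k' ≠ 0 := by
      rintro rfl
      have : A' * B' = 0 := by rw [h']; ring
      rcases mul_eq_zero.mp this with h0 | h0
      · exact hA'0 h0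
      · exact hB'0 h0
    positivity
  have hα0 : α ≠ 0 := by
    rintro rfl
    rcases hα with hα | hα <;> exact hA'0 (by rw [hα]; ring)
  have hβ0 : β ≠ 0 := by
    rintro rfl
    rcases hβ with hβ | hβ <;> exact hB'0 (by rw [hβ]; ring)
  have hα2 : 0 < α ^ 2 := by positivity
  have hβ2 : 0 < β ^ 2 := by positivity
  rcases hα with hα | hα <;> rcases hβ with hβ | hβ
  · exact ⟨1, α, β, Or.inl rfl, by rw [hA', hα]; ring, by rw [hB', hβ]; ring⟩
  · exfalso
    rw [hα, hβ] at hprod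
    nlinarith
  · exfalso
    rw [hα, hβ] at hprod
    nlinarith
  · exact ⟨-1, α, β, Or.inr rfl, by rw [hA', hα]; ring, by rw [hB', hβ]; ring⟩

/-! ### The Selmer computation for `y² = x (x - 1) (x - 81)` (integer form) -/

theorem zmod3_key : ∀ e α β : ZMod 3, e ≠ 0 → -(e ^ 2) * α ^ 2 = β ^ 2 → α = 0 ∧ β = 0 := by
  decide

theorem isCoprime_sub_sq {p e : ℤ} (h : IsCoprime p e) : IsCoprime p (p - e ^ 2) := by
  have h1 : IsCoprime p (-(e ^ 2)) := (h.pow_right).neg_right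
  have h2 := h1.add_mul_left_right 1
  have : -(e ^ 2) + p * 1 = p - e ^ 2 := by ring
  rwa [this] at h2

theorem not_three_dvd_of_isCoprime {p e : ℤ} (h : IsCoprime p e) (h3 : (3 : ℤ) ∣ p) :
    ((e : ℤ) : ZMod 3) ≠ 0 := by
  intro h0
  have h3e : (3 : ℤ) ∣ e := by
    have := (ZMod.intCast_zmod_eq_zero_iff_dvd e 3).mp h0
    exact_mod_cast this
  have hu : IsUnit (3 : ℤ) := h.isUnit_of_dvd' h3 h3e
  rw [Int.isUnit_iff] at hu
  omega

/-- First step of the Selmer computation: the numerator of `x` is a square. -/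
theorem num_isSquare {p e n : ℤ} (hp : 0 < p) (hcop : IsCoprime p e) (hn : n ≠ 0)
    (h : p * ((p - e ^ 2) * (p - 81 * e ^ 2)) = n ^ 2) :
    ∃ a k : ℤ, p = a ^ 2 ∧ (p - e ^ 2) * (p - 81 * e ^ 2) = k ^ 2 := by
  set M : ℤ := (p - e ^ 2) * (p - 81 * e ^ 2) with hM
  have hM0 : M ≠ 0 := by
    rintro h0
    rw [h0, mul_zero] at h
    exact hn (by
      have : n ^ 2 = 0 := h.symm
      exact pow_eq_zero_iff (two_ne_zero) |>.mp this)
  obtain ⟨s, α, β, hs, hpα, hMβ⟩ := exists_sq_of_mul_eq_sq hp.ne' hM0 h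
  have hgpos : 0 < Int.gcd p M := Int.gcd_pos_of_ne_zero_left _ hp.ne'
  set g : ℕ := Int.gcd p M with hg
  have hgp : (g : ℤ) ∣ p := Int.gcd_dvd_left ..
  have hgM : (g : ℤ) ∣ M := Int.gcd_dvd_right ..
  -- the sign is `+`
  have hs1 : s = 1 := by
    rcases hs with rfl | rfl
    · rfl
    · exfalso
      have h1 : (0 : ℤ) < g := Int.natCast_pos.mpr hgpos
      have h2 : 0 ≤ α ^ 2 := sq_nonneg α
      have : p ≤ 0 := by
        rw [hpα]
        nlinarith
      omega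
  subst hs1
  rw [one_mul] at hpα hMβ
  -- `g ∣ 81`
  have hg81 : g ∣ 81 := by
    have hcg : IsCoprime (g : ℤ) (p - e ^ 2) :=
      IsCoprime.of_isCoprime_of_dvd_left (isCoprime_sub_sq hcop) hgp
    have h1 : (g : ℤ) ∣ p - 81 * e ^ 2 := hcg.dvd_of_dvd_mul_left hgM
    have h2 : (g : ℤ) ∣ 81 * e ^ 2 := by
      have := dvd_sub hgp h1
      have e1 : p - (p - 81 * e ^ 2) = 81 * e ^ 2 := by ring
      rwa [e1] at this
    have hce : IsCoprime (g : ℤ) (e ^ 2) :=
      (IsCoprime.of_isCoprime_of_dvd_left hcop hgp).pow_right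
    have h3 : (g : ℤ) ∣ 81 := hce.dvd_of_dvd_mul_right h2
    exact_mod_cast h3
  have h81 : (81 : ℕ) = 3 ^ 4 := by norm_num
  rw [h81] at hg81
  obtain ⟨i, hi, hgi⟩ := (Nat.dvd_prime_pow Nat.prime_three).mp hg81
  have he3 : ∀ (h3 : (3 : ℤ) ∣ p), ((e : ℤ) : ZMod 3) ≠ 0 :=
    fun h3 => not_three_dvd_of_isCoprime hcop h3
  have h3z : ((3 : ℤ) : ZMod 3) = 0 := by decide
  interval_cases i
  · -- g = 1
    refine ⟨α, β, ?_, ?_⟩
    · rw [hpα, hgi]; simp
    · rw [hMβ, hgi]; simp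
  · -- g = 3
    exfalso
    have hp3 : p = 3 * α ^ 2 := by rw [hpα, hgi]; norm_num
    have hM3 : M = 3 * β ^ 2 := by rw [hMβ, hgi]; norm_num
    have key : (3 * α ^ 2 - e ^ 2) * (α ^ 2 - 27 * e ^ 2) = β ^ 2 := by
      have : 3 * ((3 * α ^ 2 - e ^ 2) * (α ^ 2 - 27 * e ^ 2)) = 3 * β ^ 2 := by
        rw [← hM3, hM, hp3]; ring
      exact mul_left_cancel₀ (by norm_num) this
    have hz := congrArg (Int.cast : ℤ → ZMod 3) key
    push_cast at hz
    have h3' : (3 : ZMod 3) = 0 := by decide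
    have h27' : (27 : ZMod 3) = 0 := by decide
    rw [h3', h27'] at hz
    have hz' : -((e : ZMod 3) ^ 2) * (α : ZMod 3) ^ 2 = (β : ZMod 3) ^ 2 := by
      rw [← hz]; ring
    obtain ⟨hα0, hβ0⟩ := zmod3_key _ _ _ (he3 ⟨α ^ 2, hp3⟩) hz'
    have hα3 : (3 : ℤ) ∣ α := by
      have := (ZMod.intCast_zmod_eq_zero_iff_dvd α 3).mp hα0
      exact_mod_cast this
    have hβ3 : (3 : ℤ) ∣ β := by
      have := (ZMod.intCast_zmod_eq_zero_iff_dvd β 3).mp hβ0
      exact_mod_cast this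
    obtain ⟨α', rfl⟩ := hα3
    obtain ⟨β', rfl⟩ := hβ3
    have h27p : (27 : ℤ) ∣ p := ⟨α' ^ 2, by rw [hp3]; ring⟩
    have h27M : (27 : ℤ) ∣ M := ⟨β' ^ 2, by rw [hM3]; ring⟩
    have : (27 : ℤ) ∣ (g : ℤ) := Int.dvd_coe_gcd h27p h27M
    rw [hgi] at this
    norm_num at this
  · -- g = 9
    refine ⟨3 * α, 3 * β, ?_, ?_⟩
    · rw [hpα, hgi]; push_cast; ring
    · rw [hMβ, hgi]; push_cast; ring
  · -- g = 27
    exfalso
    have hp3 : p = 27 * α ^ 2 := by rw [hpα, hgi]; norm_num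
    have hM3 : M = 27 * β ^ 2 := by rw [hMβ, hgi]; norm_num
    have key : (27 * α ^ 2 - e ^ 2) * (α ^ 2 - 3 * e ^ 2) = β ^ 2 := by
      have : 27 * ((27 * α ^ 2 - e ^ 2) * (α ^ 2 - 3 * e ^ 2)) = 27 * β ^ 2 := by
        rw [← hM3, hM, hp3]; ring
      exact mul_left_cancel₀ (by norm_num) this
    have hz := congrArg (Int.cast : ℤ → ZMod 3) key
    push_cast at hz
    have h3' : (3 : ZMod 3) = 0 := by decide
    have h27' : (27 : ZMod 3) = 0 := by decide
    rw [h3', h27'] at hz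
    have hz' : -((e : ZMod 3) ^ 2) * (α : ZMod 3) ^ 2 = (β : ZMod 3) ^ 2 := by
      rw [← hz]; ring
    obtain ⟨hα0, hβ0⟩ := zmod3_key _ _ _ (he3 ⟨9 * α ^ 2, by rw [hp3]; ring⟩) hz'
    have hα3 : (3 : ℤ) ∣ α := by
      have := (ZMod.intCast_zmod_eq_zero_iff_dvd α 3).mp hα0
      exact_mod_cast this
    have hβ3 : (3 : ℤ) ∣ β := by
      have := (ZMod.intCast_zmod_eq_zero_iff_dvd β 3).mp hβ0
      exact_mod_cast this
    obtain ⟨α', rfl⟩ := hα3
    obtain ⟨β', rfl⟩ := hβ3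
    have h27p : (243 : ℤ) ∣ p := ⟨α' ^ 2, by rw [hp3]; ring⟩
    have h27M : (243 : ℤ) ∣ M := ⟨β' ^ 2, by rw [hM3]; ring⟩
    have : (243 : ℤ) ∣ (g : ℤ) := Int.dvd_coe_gcd h27p h27M
    rw [hgi] at this
    norm_num at this
  · -- g = 81
    refine ⟨9 * α, 9 * β, ?_, ?_⟩
    · rw [hpα, hgi]; push_cast; ring
    · rw [hMβ, hgi]; push_cast; ring

theorem sq_emod_eight_of_odd {a : ℤ} (ha : a % 2 = 1) : a ^ 2 % 8 = 1 := by
  have h : a % 8 = 1 ∨ a % 8 = 3 ∨ a % 8 = 5 ∨ a % 8 = 7 := by omega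
  rcases h with h | h | h | h <;> simp [pow_two, Int.mul_emod, h]

theorem sq_emod_four (a : ℤ) : a ^ 2 % 4 = 0 ∨ a ^ 2 % 4 = 1 := by
  have h : a % 4 = 0 ∨ a % 4 = 1 ∨ a % 4 = 2 ∨ a % 4 = 3 := by omega
  rcases h with h | h | h | h <;> simp [pow_two, Int.mul_emod, h]

theorem sq_emod_two (a : ℤ) : a ^ 2 % 2 = a % 2 := by
  have h : a % 2 = 0 ∨ a % 2 = 1 := by omega
  rcases h with h | h <;> simp [pow_two, Int.mul_emod, h]

theorem odd_of_isCoprime_of_even_sub {a e : ℤ} (hcop : IsCoprime a e)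
    (h2 : (2 : ℤ) ∣ a ^ 2 - e ^ 2) : a % 2 = 1 ∧ e % 2 = 1 := by
  have ha := sq_emod_two a
  have he := sq_emod_two e
  have hae : a % 2 = e % 2 := by omega
  by_contra hcon
  have ha0 : a % 2 = 0 := by omega
  have he0 : e % 2 = 0 := by omega
  have hu : IsUnit (2 : ℤ) :=
    hcop.isUnit_of_dvd' (Int.dvd_of_emod_eq_zero ha0) (Int.dvd_of_emod_eq_zero he0)
  rw [Int.isUnit_iff] at hu
  omega

/-- Second step of the Selmer computation: the class of `(x - 1, x - 81)`. -/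
theorem class_of_sq {a e k : ℤ} (hcop : IsCoprime a e) (hk : k ≠ 0)
    (h : (a ^ 2 - e ^ 2) * (a ^ 2 - 81 * e ^ 2) = k ^ 2) :
    ∃ d b c : ℤ, (d = 1 ∨ d = -1 ∨ d = 5 ∨ d = -5) ∧ d * (a ^ 2 - e ^ 2) = b ^ 2 ∧
      d * (a ^ 2 - 81 * e ^ 2) = c ^ 2 := by
  set B : ℤ := a ^ 2 - e ^ 2 with hB
  set C : ℤ := a ^ 2 - 81 * e ^ 2 with hC
  have hk2 : k ^ 2 ≠ 0 := pow_ne_zero 2 hk
  have hB0 : B ≠ 0 := by
    rintro h0
    rw [h0, zero_mul] at h
    exact hk2 h.symm
  have hC0 : C ≠ 0 := by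
    rintro h0
    rw [h0, mul_zero] at h
    exact hk2 h.symm
  obtain ⟨s, β, γ, hs, hBβ, hCγ⟩ := exists_sq_of_mul_eq_sq hB0 hC0 h
  set g : ℕ := Int.gcd B C with hg
  have hgB : (g : ℤ) ∣ B := Int.gcd_dvd_left ..
  have hgC : (g : ℤ) ∣ C := Int.gcd_dvd_right ..
  have hBC : B - C = 80 * e ^ 2 := by rw [hB, hC]; ring
  -- `g ∣ 80`
  have hg80 : g ∣ 80 := by
    have h1 : (g : ℤ) ∣ 80 * e ^ 2 := by
      rw [← hBC]
      exact dvd_sub hgB hgC
    have hBe : IsCoprime B e := by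
      have h1 : IsCoprime (a ^ 2) e := hcop.pow_left
      have h2 := h1.add_mul_right_left (-e)
      have : a ^ 2 + -e * e = B := by rw [hB]; ring
      rwa [this] at h2
    have hce : IsCoprime (g : ℤ) (e ^ 2) :=
      (IsCoprime.of_isCoprime_of_dvd_left hBe hgB).pow_right
    have h3 : (g : ℤ) ∣ 80 := hce.dvd_of_dvd_mul_right h1
    exact_mod_cast h3
  have hmem : g ∈ Nat.divisors 80 := Nat.mem_divisors.mpr ⟨hg80, by norm_num⟩
  have hdiv : Nat.divisors 80 = {1, 2, 4, 5, 8, 10, 16, 20, 40, 80} := by decide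
  rw [hdiv] at hmem
  simp only [Finset.mem_insert, Finset.mem_singleton] at hmem
  have hss : s * s = 1 := by rcases hs with rfl | rfl <;> norm_num
  -- parity facts when `g` is even
  have hodd : (2 : ℤ) ∣ (g : ℤ) → a % 2 = 1 ∧ e % 2 = 1 := fun h2 =>
    odd_of_isCoprime_of_even_sub hcop (h2.trans hgB)
  have h8 : (2 : ℤ) ∣ (g : ℤ) → (8 : ℤ) ∣ (g : ℤ) := by
    intro h2
    obtain ⟨ha, he⟩ := hodd h2
    have ha8 := sq_emod_eight_of_odd ha
    have he8 := sq_emod_eight_of_odd he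
    have hB8 : (8 : ℤ) ∣ B := by
      apply Int.dvd_of_emod_eq_zero
      rw [hB]; omega
    have hC8 : (8 : ℤ) ∣ C := by
      apply Int.dvd_of_emod_eq_zero
      rw [hC]; omega
    exact Int.dvd_coe_gcd hB8 hC8
  -- the bad case `8 ∣ g`, `16 ∤ g`
  have hbad : ∀ g₀ : ℤ, (g₀ = 1 ∨ g₀ = 5) → (g : ℤ) = 8 * g₀ → False := by
    intro g₀ hg₀ hgg
    have h2 : (2 : ℤ) ∣ (g : ℤ) := ⟨4 * g₀, by rw [hgg]; ring⟩
    obtain ⟨ha, he⟩ := hodd h2
    have he8 := sq_emod_eight_of_odd he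
    have hβ4 := sq_emod_four β
    have hγ4 := sq_emod_four γ
    have hkey : s * g₀ * (β ^ 2 - γ ^ 2) = 10 * e ^ 2 := by
      have : 8 * (s * g₀ * (β ^ 2 - γ ^ 2)) = 8 * (10 * e ^ 2) := by
        have e1 : B - C = s * (8 * g₀) * β ^ 2 - s * (8 * g₀) * γ ^ 2 := by
          rw [← hgg]
          nth_rewrite 1 [hBβ, hCγ]
          rfl
        rw [hBC] at e1
        linarith
      exact mul_left_cancel₀ (by norm_num) this
    generalize β ^ 2 = X at hβ4 hkey
    generalize γ ^ 2 = Y at hγ4 hkey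
    generalize e ^ 2 = E at he8 hkey
    rcases hs with rfl | rfl <;> rcases hg₀ with rfl | rfl <;> omega
  rcases hmem with h1 | h1 | h1 | h1 | h1 | h1 | h1 | h1 | h1 | h1
  · -- g = 1
    refine ⟨s, β, γ, by rcases hs with rfl | rfl <;> simp, ?_, ?_⟩
    · rw [hBβ, h1]; push_cast; linear_combination (β ^ 2) * hss
    · rw [hCγ, h1]; push_cast; linear_combination (γ ^ 2) * hss
  · -- g = 2
    exfalso
    have h2 : (2 : ℤ) ∣ (g : ℤ) := by rw [h1]; norm_num
    have := h8 h2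
    rw [h1] at this
    norm_num at this
  · -- g = 4
    refine ⟨s, 2 * β, 2 * γ, by rcases hs with rfl | rfl <;> simp, ?_, ?_⟩
    · rw [hBβ, h1]; push_cast; linear_combination (4 * β ^ 2) * hss
    · rw [hCγ, h1]; push_cast; linear_combination (4 * γ ^ 2) * hss
  · -- g = 5
    refine ⟨5 * s, 5 * β, 5 * γ, by rcases hs with rfl | rfl <;> simp, ?_, ?_⟩
    · rw [hBβ, h1]; push_cast; linear_combination (25 * β ^ 2) * hss
    · rw [hCγ, h1]; push_cast; linear_combination (25 * γ ^ 2) * hss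
  · -- g = 8
    exact (hbad 1 (Or.inl rfl) (by rw [h1]; norm_num)).elim
  · -- g = 10
    exfalso
    have h2 : (2 : ℤ) ∣ (g : ℤ) := by rw [h1]; norm_num
    have := h8 h2
    rw [h1] at this
    norm_num at this
  · -- g = 16
    refine ⟨s, 4 * β, 4 * γ, by rcases hs with rfl | rfl <;> simp, ?_, ?_⟩
    · rw [hBβ, h1]; push_cast; linear_combination (16 * β ^ 2) * hss
    · rw [hCγ, h1]; push_cast; linear_combination (16 * γ ^ 2) * hss
  · -- g = 20
    refine ⟨5 * s, 10 * β, 10 * γ, by rcases hs with rfl | rfl <;> simp, ?_, ?_⟩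
    · rw [hBβ, h1]; push_cast; linear_combination (100 * β ^ 2) * hss
    · rw [hCγ, h1]; push_cast; linear_combination (100 * γ ^ 2) * hss
  · -- g = 40
    exact (hbad 5 (Or.inr rfl) (by rw [h1]; norm_num)).elim
  · -- g = 80
    refine ⟨5 * s, 20 * β, 20 * γ, by rcases hs with rfl | rfl <;> simp, ?_, ?_⟩
    · rw [hBβ, h1]; push_cast; linear_combination (400 * β ^ 2) * hss
    · rw [hCγ, h1]; push_cast; linear_combination (400 * γ ^ 2) * hss

/-! ### The Selmer computation (rational form) -/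

theorem pos_of_sq_eq {x y : ℚ} (hy : y ≠ 0) (h : y ^ 2 = x * (x - 1) * (x - 81)) : 0 < x := by
  by_contra hx'
  have hx : x ≤ 0 := not_lt.mp hx'
  have hy2 : 0 < y ^ 2 := by positivity
  have h1 : 0 ≤ (x - 1) * (x - 81) := by nlinarith
  have h2 : x * ((x - 1) * (x - 81)) ≤ 0 := mul_nonpos_of_nonpos_of_nonneg hx h1
  nlinarith

/-- Integer form of a rational point with `y ≠ 0`. -/
theorem exists_int_form {x y : ℚ} (hy : y ≠ 0) (h : y ^ 2 = x * (x - 1) * (x - 81)) :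
    ∃ p e n : ℤ, 0 < p ∧ e ≠ 0 ∧ IsCoprime p e ∧ n ≠ 0 ∧ x = p / e ^ 2 ∧
      p * ((p - e ^ 2) * (p - 81 * e ^ 2)) = n ^ 2 := by
  have hx : 0 < x := pos_of_sq_eq hy h
  set p : ℤ := x.num with hp
  set q : ℤ := (x.den : ℤ) with hq
  have hp0 : 0 < p := Rat.num_pos.mpr hx
  have hq0 : 0 < q := by
    rw [hq]
    exact_mod_cast x.den_pos
  have hxpq : x = (p : ℚ) / (q : ℚ) := by
    rw [hp, hq]
    exact_mod_cast (Rat.num_div_den x).symm
  have hqQ : (q : ℚ) ≠ 0 := by exact_mod_cast hq0.ne'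
  have hcop : IsCoprime p q := by
    rw [Int.isCoprime_iff_gcd_eq_one]
    exact x.reduced
  set N : ℤ := p * ((p - q) * (p - 81 * q)) with hN
  have hkey : (y * q ^ 2) ^ 2 = ((q * N : ℤ) : ℚ) := by
    rw [mul_pow, h, hxpq, hN]
    push_cast
    field_simp
  have hsq : IsSquare (q * N) := by
    rw [← Rat.isSquare_intCast_iff, ← hkey]
    exact ⟨y * q ^ 2, by ring⟩
  obtain ⟨k, hk⟩ := hsq
  have hk' : q * N = k ^ 2 := by rw [hk]; ring
  have hcopN : IsCoprime q N := by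
    have h1 : IsCoprime q p := hcop.symm
    have h2 : IsCoprime q (p - q) := by
      have := h1.add_mul_left_right (-1)
      have e1 : p + q * -1 = p - q := by ring
      rwa [e1] at this
    have h3 : IsCoprime q (p - 81 * q) := by
      have := h1.add_mul_left_right (-81)
      have e1 : p + q * -81 = p - 81 * q := by ring
      rwa [e1] at this
    exact h1.mul_right (h2.mul_right h3)
  obtain ⟨e, he⟩ := Int.sq_of_isCoprime hcopN hk'
  have hqe : q = e ^ 2 := by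
    rcases he with he | he
    · exact he
    · exfalso
      have : 0 ≤ e ^ 2 := sq_nonneg e
      omega
  have he0 : e ≠ 0 := by
    rintro rfl
    rw [hqe] at hq0
    norm_num at hq0
  have hek : e ∣ k := by
    rw [← Int.pow_dvd_pow_iff two_ne_zero, ← hk', hqe]
    exact dvd_mul_right _ _
  obtain ⟨n, rfl⟩ := hek
  have hNn : N = n ^ 2 := by
    have : e ^ 2 * N = e ^ 2 * n ^ 2 := by
      have h1 := hk'
      rw [hqe] at h1
      linear_combination h1
    exact mul_left_cancel₀ (pow_ne_zero 2 he0) this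
  have hn0 : n ≠ 0 := by
    rintro rfl
    have h0 : (y * q ^ 2) ^ 2 = 0 := by
      rw [hkey, hk']
      simp
    have : y * (q : ℚ) ^ 2 = 0 := by
      exact pow_eq_zero_iff (two_ne_zero) |>.mp h0
    rcases mul_eq_zero.mp this with h1 | h1
    · exact hy h1
    · exact hqQ (pow_eq_zero_iff (two_ne_zero) |>.mp h1)
  refine ⟨p, e, n, hp0, he0, ?_, hn0, ?_, ?_⟩
  · rw [hqe] at hcop
    exact (IsCoprime.pow_right_iff (by norm_num)).mp hcop
  · rw [hxpq, hqe]
    push_cast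
    rfl
  · rw [← hNn, hN, hqe]

/-- **Selmer lemma** for `y² = x (x - 1) (x - 81)`: the class of a rational point with `y ≠ 0`
is one of the four classes of the 2-torsion points. -/
theorem selmer {x y : ℚ} (hy : y ≠ 0) (h : y ^ 2 = x * (x - 1) * (x - 81)) :
    ∃ d : ℚ, (d = 1 ∨ d = -1 ∨ d = 5 ∨ d = -5) ∧ IsSquare x ∧ IsSquare (d * (x - 1)) ∧
      IsSquare (d * (x - 81)) := by
  obtain ⟨p, e, n, hp0, he0, hcop, hn0, hx, hN⟩ := exists_int_form hy h
  obtain ⟨a, k, hpa, hM⟩ := num_isSquare hp0 hcop hn0 hN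
  have hk0 : k ≠ 0 := by
    rintro rfl
    rw [hM] at hN
    apply hn0
    have : n ^ 2 = 0 := by rw [← hN]; ring
    exact pow_eq_zero_iff (two_ne_zero) |>.mp this
  have hcopa : IsCoprime a e := by
    rw [hpa] at hcop
    exact (IsCoprime.pow_left_iff (by norm_num)).mp hcop
  rw [hpa] at hM
  obtain ⟨d, b, c, hd, hb, hc⟩ := class_of_sq hcopa hk0 hM
  have heQ : (e : ℚ) ≠ 0 := by exact_mod_cast he0
  have hbQ : (d : ℚ) * ((a : ℚ) ^ 2 - (e : ℚ) ^ 2) = (b : ℚ) ^ 2 := by exact_mod_cast hb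
  have hcQ : (d : ℚ) * ((a : ℚ) ^ 2 - 81 * (e : ℚ) ^ 2) = (c : ℚ) ^ 2 := by exact_mod_cast hc
  have hxa : x = (a : ℚ) ^ 2 / (e : ℚ) ^ 2 := by
    rw [hx, hpa]
    push_cast
    rfl
  refine ⟨(d : ℚ), ?_, ⟨a / e, ?_⟩, ⟨b / e, ?_⟩, ⟨c / e, ?_⟩⟩
  · rcases hd with rfl | rfl | rfl | rfl <;> simp
  · rw [hxa]; field_simp
  · rw [hxa]
    field_simp
    linear_combination hbQ
  · rw [hxa]
    field_simp
    linear_combination hcQ

/-! ### Translation by the 2-torsion points -/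

/-- Every rational point with `y ≠ 0` has a translate by a 2-torsion point whose three
coordinates `x', x' - 1, x' - 81` are squares. -/
theorem exists_translate {x y : ℚ} (hy : y ≠ 0) (h : y ^ 2 = x * (x - 1) * (x - 81)) :
    ∃ x' : ℚ, (x' = x ∨ x' = 81 / x ∨ x' = (x - 81) / (x - 1) ∨
        x' = 81 * (x - 1) / (x - 81)) ∧
      IsSquare x' ∧ IsSquare (x' - 1) ∧ IsSquare (x' - 81) := by
  have hy2 : y ^ 2 ≠ 0 := pow_ne_zero 2 hy
  have hx0 : x ≠ 0 := by
    rintro rfl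
    exact hy2 (by rw [h]; ring)
  have hx1 : x - 1 ≠ 0 := by
    intro h0
    exact hy2 (by rw [h, h0]; ring)
  have hx81 : x - 81 ≠ 0 := by
    intro h0
    exact hy2 (by rw [h, h0]; ring)
  obtain ⟨d, hd, ⟨u, hu⟩, ⟨v, hv⟩, ⟨w, hw⟩⟩ := selmer hy h
  have hu0 : u ≠ 0 := by
    rintro rfl
    exact hx0 (by rw [hu]; ring)
  rcases hd with rfl | rfl | rfl | rfl
  · -- class of `O`
    refine ⟨x, Or.inl rfl, ⟨u, hu⟩, ⟨v, ?_⟩, ⟨w, ?_⟩⟩
    · rw [← hv]; ring
    · rw [← hw]; ring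
  · -- class of `(0, 0)`
    refine ⟨81 / x, Or.inr (Or.inl rfl), ⟨9 / u, ?_⟩, ⟨w / u, ?_⟩, ⟨9 * v / u, ?_⟩⟩
    · rw [hu]; field_simp; norm_num
    · field_simp
      linear_combination x * hw - (81 - x) * hu
    · field_simp
      linear_combination (81 * x) * hv - (81 * (1 - x)) * hu
  · -- class of `(81, 0)`
    have hw0 : w ≠ 0 := by
      rintro rfl
      apply hx81
      have : 5 * (x - 81) = 0 := by rw [hw]; ring
      linarith
    refine ⟨81 * (x - 1) / (x - 81), Or.inr (Or.inr (Or.inr rfl)),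
      ⟨9 * v / w, ?_⟩, ⟨20 * u / w, ?_⟩, ⟨180 / w, ?_⟩⟩
    · rw [div_mul_div_comm, div_eq_div_iff hx81 (mul_ne_zero hw0 hw0)]
      linear_combination (-81 * (x - 1)) * hw + (81 * (x - 81)) * hv
    · rw [div_mul_div_comm, div_sub_one hx81, div_eq_div_iff hx81 (mul_ne_zero hw0 hw0)]
      linear_combination (-80 * x) * hw + (400 * (x - 81)) * hu
    · rw [div_mul_div_comm, div_sub' hx81, div_eq_div_iff hx81 (mul_ne_zero hw0 hw0)]
      linear_combination (-6480) * hw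
  · -- class of `(1, 0)`
    have hv0 : v ≠ 0 := by
      rintro rfl
      apply hx1
      have : -5 * (x - 1) = 0 := by rw [hv]; ring
      linarith
    refine ⟨(x - 81) / (x - 1), Or.inr (Or.inr (Or.inl rfl)),
      ⟨w / v, ?_⟩, ⟨20 / v, ?_⟩, ⟨20 * u / v, ?_⟩⟩
    · rw [div_mul_div_comm, div_eq_div_iff hx1 (mul_ne_zero hv0 hv0)]
      linear_combination (-(x - 81)) * hv + (x - 1) * hw
    · rw [div_mul_div_comm, div_sub_one hx1, div_eq_div_iff hx1 (mul_ne_zero hv0 hv0)]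
      linear_combination (80) * hv
    · rw [div_mul_div_comm, div_sub' hx1, div_eq_div_iff hx1 (mul_ne_zero hv0 hv0)]
      linear_combination (80 * x) * hv + (400 * (x - 1)) * hu

/-! ### From a point in the trivial class to an integer solution -/

/-- A rational `x'` with `x', x' - 1, x' - 81` squares gives natural numbers `r, e, a, b` with
`r² = a² + e²`, `r² = b² + 81 e²`, `e > 0`, and `r²` is the numerator of `x'`. -/
theorem exists_nat_solution {x' : ℚ} (h0 : IsSquare x') (h1 : IsSquare (x' - 1))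
    (h81 : IsSquare (x' - 81)) :
    ∃ r e a b : ℕ, 0 < e ∧ r ^ 2 = a ^ 2 + e ^ 2 ∧ r ^ 2 = b ^ 2 + 81 * e ^ 2 ∧
      ((r : ℤ) ^ 2 = x'.num) := by
  obtain ⟨⟨r0, hr0⟩, ⟨e, he⟩⟩ := Rat.isSquare_iff.mp h0
  have hepos : 0 < e := by
    rcases Nat.eq_zero_or_pos e with h | h
    · exfalso
      rw [h] at he
      exact x'.den_pos.ne' he
    · exact h
  have heQ : (e : ℚ) ≠ 0 := by exact_mod_cast hepos.ne'
  have hx : x' = (r0 : ℚ) ^ 2 / (e : ℚ) ^ 2 := by
    have h2 := (Rat.num_div_den x').symm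
    rw [hr0, he] at h2
    rw [h2]
    push_cast
    ring
  -- `r0² - e²` is a square
  have hA : IsSquare (r0 ^ 2 - (e : ℤ) ^ 2) := by
    rw [← Rat.isSquare_intCast_iff]
    obtain ⟨t, ht⟩ := h1
    refine ⟨e * t, ?_⟩
    push_cast
    have : (r0 : ℚ) ^ 2 - (e : ℚ) ^ 2 = (e : ℚ) ^ 2 * (x' - 1) := by
      rw [hx]; field_simp
    rw [this, ht]; ring
  have hB : IsSquare (r0 ^ 2 - 81 * (e : ℤ) ^ 2) := by
    rw [← Rat.isSquare_intCast_iff]
    obtain ⟨t, ht⟩ := h81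
    refine ⟨e * t, ?_⟩
    push_cast
    have : (r0 : ℚ) ^ 2 - 81 * (e : ℚ) ^ 2 = (e : ℚ) ^ 2 * (x' - 81) := by
      rw [hx]; field_simp
    rw [this, ht]; ring
  obtain ⟨a0, ha0⟩ := hA
  obtain ⟨b0, hb0⟩ := hB
  refine ⟨r0.natAbs, e, a0.natAbs, b0.natAbs, hepos, ?_, ?_, ?_⟩
  · have : ((r0.natAbs : ℤ)) ^ 2 = (a0.natAbs : ℤ) ^ 2 + (e : ℤ) ^ 2 := by
      rw [Int.natAbs_sq, Int.natAbs_sq]
      linear_combination ha0
    exact_mod_cast this
  · have : ((r0.natAbs : ℤ)) ^ 2 = (b0.natAbs : ℤ) ^ 2 + 81 * (e : ℤ) ^ 2 := by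
      rw [Int.natAbs_sq, Int.natAbs_sq]
      linear_combination hb0
    exact_mod_cast this
  · rw [Int.natAbs_sq, hr0]; ring

theorem num_div_le {N D : ℤ} (hN : 0 < N) (hD : D ≠ 0) : ((N : ℚ) / (D : ℚ)).num ≤ N := by
  have h := Rat.num_dvd N hD
  rw [Rat.divInt_eq_div] at h
  exact Int.le_of_dvd hN h

/-! ### The descent -/

/-- **Core lemma.**  There are no natural numbers `r, e, a, b` with `e > 0`,
`r² = a² + e²` and `r² = b² + 81 e²`. -/
theorem no_solution : ∀ r e a b : ℕ, 0 < e → r ^ 2 = a ^ 2 + e ^ 2 →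
    r ^ 2 = b ^ 2 + 81 * e ^ 2 → False := by
  intro r
  induction r using Nat.strong_induction_on with
  | _ r ih =>
    intro e a b he h1 h2
    -- basic inequalities
    have har : a < r := by
      by_contra hcon
      have : r ^ 2 ≤ a ^ 2 := Nat.pow_le_pow_left (not_lt.mp hcon) 2
      have : 0 < e ^ 2 := by positivity
      omega
    have hbr : b < r := by
      by_contra hcon
      have : r ^ 2 ≤ b ^ 2 := Nat.pow_le_pow_left (not_lt.mp hcon) 2
      have : 0 < e ^ 2 := by positivity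
      omega
    have hba : b < a := by
      by_contra hcon
      have : a ^ 2 ≤ b ^ 2 := Nat.pow_le_pow_left (not_lt.mp hcon) 2
      have : 0 < e ^ 2 := by positivity
      omega
    have hr2 : 2 ≤ r := by omega
    -- rational versions
    have hRA : (r : ℚ) ^ 2 = (a : ℚ) ^ 2 + (e : ℚ) ^ 2 := by exact_mod_cast h1
    have hRB : (r : ℚ) ^ 2 = (b : ℚ) ^ 2 + 81 * (e : ℚ) ^ 2 := by exact_mod_cast h2
    have heQ : (0 : ℚ) < e := by exact_mod_cast he
    have haQ : (a : ℚ) < r := by exact_mod_cast har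
    have hbQ : (b : ℚ) < r := by exact_mod_cast hbr
    have hbaQ : (b : ℚ) < a := by exact_mod_cast hba
    have hb0Q : (0 : ℚ) ≤ b := by positivity
    have hRpA : (0 : ℚ) < (r : ℚ) + a := by linarith
    have hRpB : (0 : ℚ) < (r : ℚ) + b := by linarith
    have hRmA : (0 : ℚ) < (r : ℚ) - a := by linarith
    have hRmB : (0 : ℚ) < (r : ℚ) - b := by linarith
    have hApB : (0 : ℚ) < (a : ℚ) + b := by linarith
    -- the half point
    set x₁ : ℚ := ((r : ℚ) + a) * ((r : ℚ) + b) / (e : ℚ) ^ 2 with hx₁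
    set y₁ : ℚ := ((r : ℚ) + a) * ((r : ℚ) + b) * ((a : ℚ) + b) / (e : ℚ) ^ 3 with hy₁
    have hy₁0 : y₁ ≠ 0 := by
      rw [hy₁]
      positivity
    have hE2 : (e : ℚ) ^ 2 ≠ 0 := pow_ne_zero 2 heQ.ne'
    have hx1 : x₁ - 1 = ((a : ℚ) + r) * ((a : ℚ) + b) / (e : ℚ) ^ 2 := by
      rw [hx₁, eq_div_iff hE2, sub_mul, div_mul_cancel₀ _ hE2]
      linear_combination hRA
    have hx81 : x₁ - 81 = ((b : ℚ) + r) * ((b : ℚ) + a) / (e : ℚ) ^ 2 := by
      rw [hx₁, eq_div_iff hE2, sub_mul, div_mul_cancel₀ _ hE2]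
      linear_combination hRB
    have hcurve : y₁ ^ 2 = x₁ * (x₁ - 1) * (x₁ - 81) := by
      rw [hx1, hx81, hx₁, hy₁]
      field_simp
      ring
    obtain ⟨x', hx', hs0, hs1, hs81⟩ := exists_translate hy₁0 hcurve
    have hP1 : ((a : ℚ) + r) * ((a : ℚ) + b) ≠ 0 :=
      (mul_pos (by linarith) (by linarith)).ne'
    have hP81 : ((b : ℚ) + r) * ((b : ℚ) + a) ≠ 0 :=
      (mul_pos (by linarith) (by linarith)).ne'
    have hP0 : ((r : ℚ) + a) * ((r : ℚ) + b) ≠ 0 :=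
      (mul_pos (by linarith) (by linarith)).ne'
    -- `x'` is a quotient of small integers
    have hform : ∃ N D : ℤ, 0 < N ∧ D ≠ 0 ∧ N < 2 * r ∧ x' = (N : ℚ) / (D : ℚ) := by
      rcases hx' with rfl | rfl | rfl | rfl
      · refine ⟨(r : ℤ) + b, (r : ℤ) - a, by omega, by omega, by omega, ?_⟩
        push_cast
        rw [hx₁, div_eq_div_iff hE2 hRmA.ne']
        linear_combination (((r : ℚ) + b)) * hRA
      · refine ⟨(r : ℤ) - b, (r : ℤ) + a, by omega, by omega, by omega, ?_⟩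
        push_cast
        rw [hx₁, div_div_eq_mul_div, div_eq_div_iff hP0 hRpA.ne']
        linear_combination (-((r : ℚ) + a)) * hRB
      · refine ⟨(r : ℤ) + b, (r : ℤ) + a, by omega, by omega, by omega, ?_⟩
        push_cast
        rw [hx81, hx1, div_div_div_cancel_right₀ hE2,
          div_eq_div_iff hP1 hRpA.ne']
        ring
      · refine ⟨(r : ℤ) - b, (r : ℤ) - a, by omega, by omega, by omega, ?_⟩
        push_cast
        rw [hx81, hx1, mul_div_assoc, div_div_div_cancel_right₀ hE2,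
          mul_div_assoc', div_eq_div_iff hP81 hRmA.ne']
        linear_combination (81 * ((a : ℚ) + b)) * hRA - ((a : ℚ) + b) * hRB
    obtain ⟨N, D, hN0, hD0, hN2r, hxND⟩ := hform
    obtain ⟨r₂, e₂, a₂, b₂, he₂, h1₂, h2₂, hnum⟩ := exists_nat_solution hs0 hs1 hs81
    have hle : x'.num ≤ N := by
      rw [hxND]
      exact num_div_le hN0 hD0
    have hr₂ : r₂ < r := by
      have h3 : (r₂ : ℤ) ^ 2 < 2 * r := by omega
      by_contra hcon
      have h4 : r ≤ r₂ := not_lt.mp hcon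
      have h5 : (r : ℤ) ≤ r₂ := by exact_mod_cast h4
      have h6 : (2 : ℤ) ≤ r := by exact_mod_cast hr2
      nlinarith
    exact ih r₂ hr₂ e₂ a₂ b₂ he₂ h1₂ h2₂

/-! ### The main theorems -/

/-- Rational points of `y² = x (x - 1) (x - 81)` (the curve `15a2`): all have `y = 0`. -/
theorem rational_points_15a2 (x y : ℚ) (h : y ^ 2 = x * (x - 1) * (x - 81)) : y = 0 := by
  by_contra hy
  obtain ⟨x', -, hs0, hs1, hs81⟩ := exists_translate hy h
  obtain ⟨r, e, a, b, he, h1, h2, -⟩ := exists_nat_solution hs0 hs1 hs81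
  exact no_solution r e a b he h1 h2

/-- Rational points of `y² = x (x - 1) (x - 81)`: `x ∈ {0, 1, 81}`. -/
theorem rational_points_15a2' (x y : ℚ) (h : y ^ 2 = x * (x - 1) * (x - 81)) :
    y = 0 ∧ (x = 0 ∨ x = 1 ∨ x = 81) := by
  have hy := rational_points_15a2 x y h
  refine ⟨hy, ?_⟩
  rw [hy] at h
  have h0 : x * (x - 1) * (x - 81) = 0 := by rw [← h]; ring
  rcases mul_eq_zero.mp h0 with h1 | h1
  · rcases mul_eq_zero.mp h1 with h2 | h2
    · exact Or.inl h2
    · exact Or.inr (Or.inl (by linarith))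
  · exact Or.inr (Or.inr (by linarith))

/-- The 2-isogeny from `y² = x (x + 9) (x - 16)` to `y² = x (x - 1) (x - 81)`, as an identity
(`Z = x - 16`, `t = y²`). -/
theorem isogeny_identity (Z t : ℚ) (hZ : Z ≠ 0) (ht : t = (Z + 16) * (Z + 25) * Z) :
    t * (400 - Z ^ 2) ^ 2 / Z ^ 4 = t / Z ^ 2 * (t / Z ^ 2 - 1) * (t / Z ^ 2 - 81) := by
  subst ht
  field_simp
  ring

/-- **Rational points of `y² = x (x + 9) (x - 16)`** (a model of `X₀(15)`):
`x ∈ {0, -9, 16, 36, -4}`. -/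
theorem rational_points (x y : ℚ) (h : y ^ 2 = x * (x + 9) * (x - 16)) :
    x = 0 ∨ x = -9 ∨ x = 16 ∨ x = 36 ∨ x = -4 := by
  by_cases h16 : x = 16
  · exact Or.inr (Or.inr (Or.inl h16))
  have hZ : x - 16 ≠ 0 := sub_ne_zero.mpr h16
  have hZ2 : (x - 16) ^ 2 ≠ 0 := pow_ne_zero 2 hZ
  have ht : y ^ 2 = (x - 16 + 16) * (x - 16 + 25) * (x - 16) := by
    rw [h]; ring
  have hid := isogeny_identity (x - 16) (y ^ 2) hZ ht
  have hcurve : (y * (400 - (x - 16) ^ 2) / (x - 16) ^ 2) ^ 2 =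
      y ^ 2 / (x - 16) ^ 2 * (y ^ 2 / (x - 16) ^ 2 - 1) * (y ^ 2 / (x - 16) ^ 2 - 81) := by
    rw [← hid, div_pow, mul_pow]
    congr 1
    ring
  have hY := rational_points_15a2 _ _ hcurve
  rw [div_eq_zero_iff] at hY
  rcases hY with hY | hY
  · rcases mul_eq_zero.mp hY with hy | hy
    · -- `y = 0`
      rw [hy] at h
      have h0 : x * (x + 9) * (x - 16) = 0 := by rw [← h]; ring
      rcases mul_eq_zero.mp h0 with h1 | h1
      · rcases mul_eq_zero.mp h1 with h2 | h2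
        · exact Or.inl h2
        · exact Or.inr (Or.inl (by linarith))
      · exact absurd h1 hZ
    · -- `(x - 16)² = 400`
      have h0 : (x - 36) * (x + 4) = 0 := by linear_combination -hy
      rcases mul_eq_zero.mp h0 with h1 | h1
      · exact Or.inr (Or.inr (Or.inr (Or.inl (by linarith))))
      · exact Or.inr (Or.inr (Or.inr (Or.inr (by linarith))))
  · exact absurd hY hZ2

/-- The seven affine rational points of `y² = x (x + 9) (x - 16)`. -/
theorem rational_points_pairs (x y : ℚ) (h : y ^ 2 = x * (x + 9) * (x - 16)) :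
    (x, y) ∈ ({(0, 0), (-9, 0), (16, 0), (36, 180), (36, -180), (-4, 20), (-4, -20)} :
      Set (ℚ × ℚ)) := by
  simp only [Set.mem_insert_iff, Set.mem_singleton_iff, Prod.mk.injEq]
  rcases rational_points x y h with rfl | rfl | rfl | rfl | rfl
  · have : y = 0 := by
      have : y ^ 2 = 0 := by rw [h]; ring
      exact pow_eq_zero_iff (two_ne_zero) |>.mp this
    simp [this]
  · have : y = 0 := by
      have : y ^ 2 = 0 := by rw [h]; ring
      exact pow_eq_zero_iff (two_ne_zero) |>.mp this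
    simp [this]
  · have : y = 0 := by
      have : y ^ 2 = 0 := by rw [h]; ring
      exact pow_eq_zero_iff (two_ne_zero) |>.mp this
    simp [this]
  · have h0 : (y - 180) * (y + 180) = 0 := by linear_combination h
    rcases mul_eq_zero.mp h0 with h1 | h1
    · have : y = 180 := by linarith
      simp [this]
    · have : y = -180 := by linarith
      simp [this]
  · have h0 : (y - 20) * (y + 20) = 0 := by linear_combination h
    rcases mul_eq_zero.mp h0 with h1 | h1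
    · have : y = 20 := by linarith
      simp [this]
    · have : y = -20 := by linarith
      simp [this]

end Fermat.Agent.S51.Descent
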