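import Mathlib
import Fermat.Prelude.Def_FLTPrelim_Modularity

/-!
# S51, arithmetic piece: the `j`-invariant of a semistable model avoids five explicit values
-/

namespace Fermat.Agent.S51.Arith

open WeierstrassCurve

theorem five_dvd_both (a b Δ c : ℤ) (ha5 : (5 : ℤ) ∣ a) (ha : ¬ (125 : ℤ) ∣ a)
    (hb : ¬ (5 : ℤ) ∣ b) (h : a * Δ = b * c ^ 3) : (5 : ℤ) ∣ Δ ∧ (5 : ℤ) ∣ c := by
  have p5 : Prime (5 : ℤ) := by
    have := Nat.prime_iff_prime_int.mp Nat.prime_five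
    simpa using this
  have hc : (5 : ℤ) ∣ c := by
    have h1 : (5 : ℤ) ∣ b * c ^ 3 := by
      rw [← h]; exact Dvd.dvd.mul_right ha5 _
    rcases p5.dvd_or_dvd h1 with h2 | h2
    · exact absurd h2 hb
    · exact p5.dvd_of_dvd_pow h2
  refine ⟨?_, hc⟩
  by_contra hΔ
  apply ha
  have h125 : (125 : ℤ) ∣ a * Δ := by
    rw [h]
    obtain ⟨k, rfl⟩ := hc
    exact ⟨b * k ^ 3, by ring⟩
  have hcop : IsCoprime (125 : ℤ) Δ := by
    have : IsCoprime (5 : ℤ) Δ := (Prime.coprime_iff_not_dvd p5).mpr hΔ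
    have := this.pow_left (m := 3)
    norm_num at this
    exact this
  exact hcop.dvd_of_dvd_mul_right h125

theorem not_five_case (W : WeierstrassCurve ℤ) (hW : W.IsSemistableModel) (a b : ℤ)
    (ha5 : (5 : ℤ) ∣ a) (ha : ¬ (125 : ℤ) ∣ a) (hb : ¬ (5 : ℤ) ∣ b)
    (h : a * W.Δ = b * W.c₄ ^ 3) : False := by
  obtain ⟨h1, h2⟩ := five_dvd_both a b W.Δ W.c₄ ha5 ha hb h
  exact hW 5 Nat.prime_five (by exact_mod_cast h1) (by exact_mod_cast h2)

theorem c₄_ne_zero (W : WeierstrassCurve ℤ) (_hΔ : W.Δ ≠ 0) (hW : W.IsSemistableModel) :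
    W.c₄ ≠ 0 := by
  intro hc
  -- no prime divides Δ
  have hunit : W.Δ.natAbs = 1 := by
    by_contra hne
    obtain ⟨p, hp, hpd⟩ := Nat.exists_prime_and_dvd hne
    have : (p : ℤ) ∣ W.Δ := Int.natCast_dvd.mpr hpd
    exact hW p hp this (by rw [hc]; exact dvd_zero _)
  have hrel := W.c_relation
  rw [hc] at hrel
  have h1 : W.Δ = 1 ∨ W.Δ = -1 := Int.natAbs_eq_natAbs_iff.mp (by simpa using hunit)
  rcases h1 with h1 | h1
  · rw [h1] at hrel
    nlinarith [sq_nonneg W.c₆]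
  · rw [h1] at hrel
    have h2 : W.c₆ ^ 2 = 1728 := by linarith
    have h3 : W.c₆.natAbs ^ 2 = 1728 := by
      have := congrArg Int.natAbs h2
      simpa [Int.natAbs_pow] using this
    have h4 : W.c₆.natAbs ≤ 42 := by nlinarith
    interval_cases W.c₆.natAbs <;> omega

theorem semistable_j_ne (W : WeierstrassCurve ℤ) (hΔ : W.Δ ≠ 0) (hW : W.IsSemistableModel)
    (j : ℚ) (hj : j * (W.Δ : ℚ) = (W.c₄ : ℚ) ^ 3) :
    j ≠ 0 ∧ j ≠ -25 / 2 ∧ j ≠ -349938025 / 8 ∧ j ≠ -121945 / 32 ∧ j ≠ 46969655 / 32768 := by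
  refine ⟨?_, ?_, ?_, ?_, ?_⟩
  · rintro rfl
    have h0 : (W.c₄ : ℚ) ^ 3 = 0 := by rw [← hj]; ring
    have : (W.c₄ : ℚ) = 0 := by simpa using h0
    exact c₄_ne_zero W hΔ hW (by exact_mod_cast this)
  · rintro rfl
    have h : (-25 : ℤ) * W.Δ = 2 * W.c₄ ^ 3 := by
      have : ((-25 : ℤ) : ℚ) * (W.Δ : ℚ) = (2 : ℤ) * (W.c₄ : ℚ) ^ 3 := by
        push_cast; linear_combination 2 * hj
      exact_mod_cast this
    exact not_five_case W hW _ _ (by norm_num) (by norm_num) (by norm_num) h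
  · rintro rfl
    have h : (-349938025 : ℤ) * W.Δ = 8 * W.c₄ ^ 3 := by
      have : ((-349938025 : ℤ) : ℚ) * (W.Δ : ℚ) = (8 : ℤ) * (W.c₄ : ℚ) ^ 3 := by
        push_cast; linear_combination 8 * hj
      exact_mod_cast this
    exact not_five_case W hW _ _ (by norm_num) (by norm_num) (by norm_num) h
  · rintro rfl
    have h : (-121945 : ℤ) * W.Δ = 32 * W.c₄ ^ 3 := by
      have : ((-121945 : ℤ) : ℚ) * (W.Δ : ℚ) = (32 : ℤ) * (W.c₄ : ℚ) ^ 3 := by
        push_cast; linear_combination 32 * hj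
      exact_mod_cast this
    exact not_five_case W hW _ _ (by norm_num) (by norm_num) (by norm_num) h
  · rintro rfl
    have h : (46969655 : ℤ) * W.Δ = 32768 * W.c₄ ^ 3 := by
      have : ((46969655 : ℤ) : ℚ) * (W.Δ : ℚ) = (32768 : ℤ) * (W.c₄ : ℚ) ^ 3 := by
        push_cast; linear_combination 32768 * hj
      exact_mod_cast this
    exact not_five_case W hW _ _ (by norm_num) (by norm_num) (by norm_num) h

end Fermat.Agent.S51.Arith
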