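import Mathlib

/-!
# S51: a set of points whose `x`-coordinates are roots of a nonzero polynomial of degree `d`
has at most `2 d + 1` elements
-/

namespace Fermat.Agent.S51.Card

open WeierstrassCurve WeierstrassCurve.Affine Polynomial

variable {F : Type*} [Field F] [DecidableEq F] (W : Affine F)

/-- the polynomial in `Y` whose roots are the `y` with `(x, y)` on the curve -/
noncomputable def yPoly (x : F) : F[X] :=
  X ^ 2 + C (W.a₁ * x + W.a₃) * X - C (x ^ 3 + W.a₂ * x ^ 2 + W.a₄ * x + W.a₆)

omit [DecidableEq F] in
lemma yPoly_eq (x : F) :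
    yPoly W x = X ^ 2 + (C (W.a₁ * x + W.a₃) * X + C (-(x ^ 3 + W.a₂ * x ^ 2 + W.a₄ * x + W.a₆))) := by
  rw [yPoly, C_neg]; ring

omit [DecidableEq F] in
lemma natDegree_yPoly (x : F) : (yPoly W x).natDegree = 2 := by
  rw [yPoly_eq]
  have h1 : (C (W.a₁ * x + W.a₃) * X + C (-(x ^ 3 + W.a₂ * x ^ 2 + W.a₄ * x + W.a₆)) : F[X]).degree
      < ((X : F[X]) ^ 2).degree := by
    rw [degree_X_pow]
    exact lt_of_le_of_lt (degree_linear_le) (by norm_num)
  rw [natDegree_add_eq_left_of_degree_lt h1, natDegree_X_pow]

omit [DecidableEq F] in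
lemma yPoly_ne_zero (x : F) : yPoly W x ≠ 0 := by
  intro h
  have := natDegree_yPoly W x
  rw [h, natDegree_zero] at this
  exact absurd this (by norm_num)

omit [DecidableEq F] in
lemma eval_yPoly_eq_zero_iff (x y : F) : (yPoly W x).eval y = 0 ↔ W.Equation x y := by
  rw [equation_iff, yPoly]
  simp only [eval_sub, eval_add, eval_pow, eval_X, eval_mul, eval_C]
  constructor <;> intro h <;> linear_combination h

/-- the finite set of pairs `(x, y)` on the curve with `g(x) = 0` -/
noncomputable def ptsFinset (g : F[X]) : Finset (F × F) :=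
  g.roots.toFinset.biUnion (fun x => (yPoly W x).roots.toFinset.image (Prod.mk x))

lemma card_ptsFinset_le (g : F[X]) : (ptsFinset W g).card ≤ 2 * g.natDegree := by
  unfold ptsFinset
  refine le_trans Finset.card_biUnion_le ?_
  have h1 : ∀ x ∈ g.roots.toFinset,
      ((yPoly W x).roots.toFinset.image (Prod.mk x)).card ≤ 2 := by
    intro x _
    refine le_trans Finset.card_image_le ?_
    refine le_trans (Multiset.toFinset_card_le _) ?_
    refine le_trans (card_roots' _) ?_
    rw [natDegree_yPoly]
  refine le_trans (Finset.sum_le_card_nsmul _ _ 2 h1) ?_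
  rw [smul_eq_mul, mul_comm]
  exact Nat.mul_le_mul_left 2 (le_trans (Multiset.toFinset_card_le _) (card_roots' _))

lemma mem_ptsFinset {g : F[X]} (hg : g ≠ 0) {x y : F} (hx : g.eval x = 0)
    (hxy : W.Equation x y) : (x, y) ∈ ptsFinset W g := by
  unfold ptsFinset
  rw [Finset.mem_biUnion]
  refine ⟨x, ?_, ?_⟩
  · rw [Multiset.mem_toFinset, mem_roots hg]; exact hx
  · rw [Finset.mem_image]
    refine ⟨y, ?_, rfl⟩
    rw [Multiset.mem_toFinset, mem_roots (yPoly_ne_zero W x)]
    exact (eval_yPoly_eq_zero_iff W x y).mpr hxy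

variable {W}

/-- coordinates of a point -/
def coords : W.Point → Option (F × F)
  | .zero => none
  | .some x y _ => some (x, y)

omit [DecidableEq F] in
lemma coords_injective : Function.Injective (coords (W := W)) := by
  intro P Q h
  cases P with
  | zero =>
    cases Q with
    | zero => rfl
    | some x y hxy => simp [coords] at h
  | some x y hxy =>
    cases Q with
    | zero => simp [coords] at h
    | some x' y' hxy' =>
      simp only [coords, Option.some.injEq, Prod.mk.injEq] at h
      obtain ⟨rfl, rfl⟩ := h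
      rfl

theorem finite_and_ncard_le (T : Set W.Point) (g : F[X]) (hg : g ≠ 0)
    (hT : ∀ (x y : F) (h : W.Nonsingular x y), Point.some x y h ∈ T → g.eval x = 0) :
    T.Finite ∧ T.ncard ≤ 2 * g.natDegree + 1 := by
  classical
  set S : Finset (Option (F × F)) := insert none ((ptsFinset W g).image some) with hS
  have hsub : coords '' T ⊆ (S : Set (Option (F × F))) := by
    rintro _ ⟨P, hP, rfl⟩
    cases P with
    | zero => simp [coords, hS]
    | some x y hxy =>
      have := mem_ptsFinset W hg (hT x y hxy hP) hxy.1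
      simp only [coords, hS, Finset.coe_insert, Finset.coe_image, Set.mem_insert_iff,
        Set.mem_image, Finset.mem_coe]
      right
      exact ⟨(x, y), this, rfl⟩
  have hfin : (coords '' T).Finite := S.finite_toSet.subset hsub
  have hTfin : T.Finite := hfin.of_finite_image (coords_injective.injOn)
  refine ⟨hTfin, ?_⟩
  have h1 : T.ncard = (coords '' T).ncard := (Set.ncard_image_of_injective T coords_injective).symm
  rw [h1]
  have h2 : (coords '' T).ncard ≤ (S : Set (Option (F × F))).ncard :=
    Set.ncard_le_ncard hsub S.finite_toSet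
  rw [Set.ncard_coe_finset] at h2
  refine le_trans h2 ?_
  rw [hS]
  refine le_trans (Finset.card_insert_le _ _) ?_
  have := le_trans (Finset.card_image_le (f := some) (s := ptsFinset W g)) (card_ptsFinset_le W g)
  omega

end Fermat.Agent.S51.Card
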