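import Mathlib

/-!
# S51: explicit division polynomials `ψ₂², ψ₃, ψ₄/ψ₂, ψ₅` of a Weierstrass curve (pure algebra)

`dD = ψ₂²`, `p3 = ψ₃`, `q4 = ψ₄/ψ₂`, `p5 = ψ₅` as functions `F → F`, the doubling map
`x ↦ x - ψ₃/ψ₂²` on `x`-coordinates, and the invariants
`t = Δ/ψ₂⁴` of a point of order `3` and `s = Δ ψ₂¹²/ψ₃⁶` of a point of order `5`, which satisfy
`c₄³ t = (t+27)(t+3)³ Δ` and `c₄³ s = (s²+10s+5)³ Δ`.
-/

namespace Fermat.Agent.S51.DivPoly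

open Polynomial

variable {F : Type*} [Field F] (W : WeierstrassCurve F)

/-- `ψ₂²` as a function of `x` -/
def dD (x : F) : F := 4 * x ^ 3 + W.b₂ * x ^ 2 + 2 * W.b₄ * x + W.b₆

/-- `ψ₃` as a function of `x` -/
def p3 (x : F) : F := 3 * x ^ 4 + W.b₂ * x ^ 3 + 3 * W.b₄ * x ^ 2 + 3 * W.b₆ * x + W.b₈

/-- half the derivative of `ψ₂²` -/
def e4 (x : F) : F := 6 * x ^ 2 + W.b₂ * x + W.b₄

/-- `ψ₄/ψ₂` as a function of `x` -/
def q4 (x : F) : F := e4 W x * p3 W x - dD W x ^ 2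

/-- `ψ₅` as a function of `x` -/
def p5 (x : F) : F := q4 W x * dD W x ^ 2 - p3 W x ^ 3

lemma eval_Ψ₂Sq (x : F) : W.Ψ₂Sq.eval x = dD W x := by
  simp [WeierstrassCurve.Ψ₂Sq, dD]

lemma eval_Ψ₃ (x : F) : W.Ψ₃.eval x = p3 W x := by
  simp [WeierstrassCurve.Ψ₃, p3]

lemma eval_preΨ₄ (x : F) : W.preΨ₄.eval x = q4 W x := by
  simp only [WeierstrassCurve.preΨ₄, q4, e4, p3, dD, eval_add, eval_mul, eval_pow, eval_X, eval_C,
    eval_ofNat]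
  linear_combination (x ^ 2) * W.b_relation

lemma preΨ'_five : W.preΨ' 5 = W.preΨ₄ * (W.Ψ₂Sq ^ 2) - W.Ψ₃ ^ 3 := by
  have h := W.preΨ'_odd 0
  simp only [zero_add, show (2 : ℕ) * 2 + 1 = 5 from rfl, Even.zero, if_true,
    WeierstrassCurve.preΨ'_four, WeierstrassCurve.preΨ'_two, WeierstrassCurve.preΨ'_one,
    WeierstrassCurve.preΨ'_three, one_pow, mul_one, one_mul] at h
  exact h

lemma eval_preΨ'_five (x : F) : (W.preΨ' 5).eval x = p5 W x := by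
  rw [preΨ'_five]
  simp only [eval_sub, eval_mul, eval_pow, eval_preΨ₄, eval_Ψ₂Sq, eval_Ψ₃, p5]

/-! ### translation to `x = 0` -/

lemma c₄_eq (x : F) : W.c₄ = (12 * x + W.b₂) ^ 2 - 24 * e4 W x := by
  simp only [WeierstrassCurve.c₄, e4]; ring

lemma rel_eq (x : F) : 4 * p3 W x = (12 * x + W.b₂) * dD W x - e4 W x ^ 2 := by
  simp only [p3, dD, e4]
  linear_combination W.b_relation

lemma Δ_eq (x : F) : W.Δ = -(12 * x + W.b₂) ^ 2 * p3 W x - 8 * e4 W x ^ 3 - 27 * dD W x ^ 2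
    + 9 * (12 * x + W.b₂) * e4 W x * dD W x := by
  simp only [WeierstrassCurve.Δ, p3, dD, e4]
  linear_combination (36 * x ^ 2 + 6 * W.b₂ * x) * W.b_relation

/-! ### points of order 3 -/

theorem dD_ne_zero_of_p3 (hΔ : W.Δ ≠ 0) {x : F} (h : p3 W x = 0) : dD W x ≠ 0 := by
  intro hD
  have h1 := rel_eq W x
  rw [h, hD] at h1
  have h2 : e4 W x = 0 := by
    have : e4 W x ^ 2 = 0 := by linear_combination h1
    exact pow_eq_zero_iff (two_ne_zero) |>.mp this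
  apply hΔ
  rw [Δ_eq W x, h, hD, h2]; ring

theorem inv3 (hΔ : W.Δ ≠ 0) {x : F} (h : p3 W x = 0) :
    W.Δ / dD W x ^ 2 ≠ 0 ∧
      W.c₄ ^ 3 * (W.Δ / dD W x ^ 2)
        = (W.Δ / dD W x ^ 2 + 27) * (W.Δ / dD W x ^ 2 + 3) ^ 3 * W.Δ := by
  have hD := dD_ne_zero_of_p3 W hΔ h
  refine ⟨div_ne_zero hΔ (pow_ne_zero 2 hD), ?_⟩
  have h1 := rel_eq W x
  rw [h] at h1
  have h2 : 12 * x + W.b₂ = e4 W x ^ 2 / dD W x := by
    field_simp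
    linear_combination -h1
  have h3 := Δ_eq W x
  rw [h, h2] at h3
  rw [c₄_eq W x, h2]
  generalize W.Δ = d at *
  generalize e4 W x = e at *
  generalize dD W x = D at *
  subst h3
  field_simp
  ring

/-! ### points of order 5 -/

theorem dD_ne_zero_of_p5 (hΔ : W.Δ ≠ 0) {x : F} (h : p5 W x = 0) : dD W x ≠ 0 := by
  intro hD
  have h8 : p3 W x = 0 := by
    have : p3 W x ^ 3 = 0 := by
      have := h; rw [p5, hD] at this; linear_combination -this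
    exact pow_eq_zero_iff (three_ne_zero) |>.mp this
  exact dD_ne_zero_of_p3 W hΔ h8 hD

theorem p3_ne_zero_of_p5 (hΔ : W.Δ ≠ 0) {x : F} (h : p5 W x = 0) : p3 W x ≠ 0 := by
  intro h8
  have hD : dD W x = 0 := by
    have : dD W x ^ 4 = 0 := by
      have := h; rw [p5, q4, h8] at this; linear_combination -this
    exact pow_eq_zero_iff (by norm_num) |>.mp this
  exact dD_ne_zero_of_p3 W hΔ h8 hD

theorem q4_ne_zero_of_p5 (hΔ : W.Δ ≠ 0) {x : F} (h : p5 W x = 0) : q4 W x ≠ 0 := by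
  intro hq
  apply p3_ne_zero_of_p5 W hΔ h
  have : p3 W x ^ 3 = 0 := by
    have := h; rw [p5, hq] at this; linear_combination -this
  exact pow_eq_zero_iff (three_ne_zero) |>.mp this

theorem inv5_aux (b2 b4 b6 b8 : F) (h6 : b6 ≠ 0) (h8 : b8 ≠ 0)
    (hrel : 4 * b8 = b2 * b6 - b4 ^ 2) (h5 : (b4 * b8 - b6 ^ 2) * b6 ^ 2 - b8 ^ 3 = 0) :
    (b2 ^ 2 - 24 * b4) ^ 3 *
        ((-b2 ^ 2 * b8 - 8 * b4 ^ 3 - 27 * b6 ^ 2 + 9 * b2 * b4 * b6) * b6 ^ 6 / b8 ^ 6)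
      = (((-b2 ^ 2 * b8 - 8 * b4 ^ 3 - 27 * b6 ^ 2 + 9 * b2 * b4 * b6) * b6 ^ 6 / b8 ^ 6) ^ 2
          + 10 * ((-b2 ^ 2 * b8 - 8 * b4 ^ 3 - 27 * b6 ^ 2 + 9 * b2 * b4 * b6) * b6 ^ 6 / b8 ^ 6)
          + 5) ^ 3
        * (-b2 ^ 2 * b8 - 8 * b4 ^ 3 - 27 * b6 ^ 2 + 9 * b2 * b4 * b6) := by
  -- parametrise by `τ = -b8³/b6⁴`, `v = b6³/b8²`
  obtain ⟨τ, hτ⟩ : ∃ τ : F, τ = -b8 ^ 3 / b6 ^ 4 := ⟨_, rfl⟩
  obtain ⟨v, hv⟩ : ∃ v : F, v = b6 ^ 3 / b8 ^ 2 := ⟨_, rfl⟩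
  have hτ0 : τ ≠ 0 := by
    rw [hτ]; exact div_ne_zero (neg_ne_zero.mpr (pow_ne_zero 3 h8)) (pow_ne_zero 4 h6)
  have hv0 : v ≠ 0 := by
    rw [hv]; exact div_ne_zero (pow_ne_zero 3 h6) (pow_ne_zero 2 h8)
  have e6 : b6 = τ ^ 2 * v ^ 3 := by
    rw [hτ, hv]; field_simp
  have e8 : b8 = -τ ^ 3 * v ^ 4 := by
    rw [hτ, hv]; field_simp
  have e4 : b4 = -τ * (1 - τ) * v ^ 2 := by
    have h5' := h5
    rw [e6, e8] at h5'
    have hne : τ ^ 7 * v ^ 10 ≠ 0 := mul_ne_zero (pow_ne_zero 7 hτ0) (pow_ne_zero 10 hv0)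
    apply mul_left_cancel₀ hne
    linear_combination -h5'
  have e2 : b2 = (τ ^ 2 - 6 * τ + 1) * v := by
    have hrel' := hrel
    rw [e6, e8, e4] at hrel'
    have hne : τ ^ 2 * v ^ 3 ≠ 0 := mul_ne_zero (pow_ne_zero 2 hτ0) (pow_ne_zero 3 hv0)
    apply mul_left_cancel₀ hne
    linear_combination -hrel'
  rw [e2, e4, e6, e8]
  field_simp
  ring

theorem inv5 (hΔ : W.Δ ≠ 0) {x : F} (h : p5 W x = 0) :
    W.Δ * dD W x ^ 6 / p3 W x ^ 6 ≠ 0 ∧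
      W.c₄ ^ 3 * (W.Δ * dD W x ^ 6 / p3 W x ^ 6)
        = ((W.Δ * dD W x ^ 6 / p3 W x ^ 6) ^ 2 + 10 * (W.Δ * dD W x ^ 6 / p3 W x ^ 6) + 5) ^ 3
          * W.Δ := by
  have hD := dD_ne_zero_of_p5 W hΔ h
  have h3 := p3_ne_zero_of_p5 W hΔ h
  refine ⟨div_ne_zero (mul_ne_zero hΔ (pow_ne_zero 6 hD)) (pow_ne_zero 6 h3), ?_⟩
  have := inv5_aux (12 * x + W.b₂) (e4 W x) (dD W x) (p3 W x) hD h3 (rel_eq W x)
    (by have := h; rw [p5, q4] at this; linear_combination this)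
  rw [← Δ_eq W x, ← c₄_eq W x] at this
  exact this

/-! ### the doubling map on `x`-coordinates -/

/-- if `x₂ ψ₂²(x) = x ψ₂²(x) - ψ₃(x)` then `ψ₂²(x₂) ψ₂²(x)³ = (ψ₄/ψ₂)(x)²` -/
theorem dD_dbl {x x₂ : F} (h : x₂ * dD W x = x * dD W x - p3 W x) :
    dD W x₂ * dD W x ^ 3 = q4 W x ^ 2 := by
  have key : dD W x₂ * dD W x ^ 3
      = 4 * (x₂ * dD W x) ^ 3 + W.b₂ * (x₂ * dD W x) ^ 2 * dD W x
        + 2 * W.b₄ * (x₂ * dD W x) * dD W x ^ 2 + W.b₆ * dD W x ^ 3 := by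
    simp only [dD]; ring
  rw [key, h]
  simp only [q4, e4, p3, dD]
  linear_combination
    (-(3 * x ^ 4 + W.b₂ * x ^ 3 + 3 * W.b₄ * x ^ 2 + 3 * W.b₆ * x + W.b₈) ^ 2) * W.b_relation

/-- the `x`-coordinate of `4P` minus that of `P`, up to denominators -/
theorem dbl_dbl {x x₂ x₄ : F} (h : x₂ * dD W x = x * dD W x - p3 W x)
    (h' : x₄ * dD W x₂ = x₂ * dD W x₂ - p3 W x₂) :
    (x₄ - x) * (q4 W x ^ 2 * dD W x) = -(p3 W x * p5 W x) := by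
  have hD := dD_dbl W h
  have key : (x₂ * dD W x₂ - p3 W x₂) * dD W x ^ 4
      = (x₂ * dD W x) ^ 4 - W.b₄ * (x₂ * dD W x) ^ 2 * dD W x ^ 2
        - 2 * W.b₆ * (x₂ * dD W x) * dD W x ^ 3 - W.b₈ * dD W x ^ 4 := by
    simp only [dD, p3]; ring
  have key2 : dD W x₂ * dD W x ^ 3
      = 4 * (x₂ * dD W x) ^ 3 + W.b₂ * (x₂ * dD W x) ^ 2 * dD W x
        + 2 * W.b₄ * (x₂ * dD W x) * dD W x ^ 2 + W.b₆ * dD W x ^ 3 := by
    simp only [dD]; ring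
  have e1 : x₄ * (q4 W x ^ 2 * dD W x) = (x₂ * dD W x₂ - p3 W x₂) * dD W x ^ 4 := by
    rw [← h', ← hD]; ring
  have e2 : x * (q4 W x ^ 2 * dD W x) = x * (dD W x₂ * dD W x ^ 3) * dD W x := by
    rw [hD]; ring
  rw [sub_mul, e1, e2, key, key2, h]
  simp only [p5, q4, e4, p3, dD]
  ring

end Fermat.Agent.S51.DivPoly
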