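import Mathlib
import Fermat.Agent.S51.DivPoly

/-!
# S51: points of order 3 and 5 on a Weierstrass curve in terms of division polynomials
-/

namespace Fermat.Agent.S51.Doubling

open WeierstrassCurve WeierstrassCurve.Affine Fermat.Agent.S51.DivPoly

variable {F : Type*} [Field F] [DecidableEq F] {W : Affine F}

omit [DecidableEq F] in
lemma dD_eq_sq {x y : F} (h : W.Equation x y) : dD W x = (y - W.negY x y) ^ 2 := by
  rw [equation_iff] at h
  simp only [dD, negY, WeierstrassCurve.b₂, WeierstrassCurve.b₄, WeierstrassCurve.b₆]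
  linear_combination (-4 : F) * h

omit [DecidableEq F] in
lemma dD_eq_zero_iff {x y : F} (h : W.Equation x y) : dD W x = 0 ↔ y = W.negY x y := by
  rw [dD_eq_sq h, sq_eq_zero_iff, sub_eq_zero]

/-- doubling a point with `ψ₂ = 0` -/
lemma add_self_of_dD_eq_zero {x y : F} (h : W.Nonsingular x y) (hD : dD W x = 0) :
    Point.some x y h + Point.some x y h = 0 :=
  Point.add_self_of_Y_eq ((dD_eq_zero_iff h.1).mp hD)

/-- doubling a point with `ψ₂ ≠ 0`: the `x`-coordinate -/
lemma add_self_of_dD_ne_zero {x y : F} (h : W.Nonsingular x y) (hD : dD W x ≠ 0) :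
    ∃ (x₂ y₂ : F) (h₂ : W.Nonsingular x₂ y₂),
      Point.some x y h + Point.some x y h = Point.some x₂ y₂ h₂ ∧
        x₂ * dD W x = x * dD W x - p3 W x := by
  have hy : y ≠ W.negY x y := fun hy => hD ((dD_eq_zero_iff h.1).mpr hy)
  refine ⟨_, _, _, Point.add_of_Y_ne hy, ?_⟩
  rw [slope_of_Y_ne rfl hy, dD_eq_sq h.1]
  have hne : y - W.negY x y ≠ 0 := sub_ne_zero.mpr hy
  have heq := (equation_iff ..).mp h.1
  simp only [addX]
  field_simp
  simp only [p3, negY, WeierstrassCurve.b₂, WeierstrassCurve.b₄, WeierstrassCurve.b₆,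
    WeierstrassCurve.b₈]
  linear_combination (-(W.a₁ ^ 2) - 4 * W.a₂ - 12 * x) * heq

lemma some_add_self_eq_zero_iff {x y : F} (h : W.Nonsingular x y) :
    Point.some x y h + Point.some x y h = 0 ↔ dD W x = 0 := by
  constructor
  · intro h0
    by_contra hD
    obtain ⟨x₂, y₂, h₂, e, -⟩ := add_self_of_dD_ne_zero h hD
    rw [e] at h0
    exact Point.some_ne_zero h₂ h0
  · exact add_self_of_dD_eq_zero h

/-- points of order dividing three -/
theorem three_torsion_iff (hΔ : W.Δ ≠ 0) {x y : F} (h : W.Nonsingular x y) :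
    Point.some x y h + Point.some x y h = -Point.some x y h ↔ p3 W x = 0 := by
  constructor
  · intro h3
    have hD : dD W x ≠ 0 := by
      intro hD
      rw [add_self_of_dD_eq_zero h hD] at h3
      exact Point.some_ne_zero _ (neg_eq_zero.mp h3.symm)
    obtain ⟨x₂, y₂, h₂, e, hx⟩ := add_self_of_dD_ne_zero h hD
    rw [e, Point.neg_some] at h3
    have hx2 : x₂ = x := by injection h3
    rw [hx2] at hx
    linear_combination hx
  · intro h3
    have hD := dD_ne_zero_of_p3 W hΔ h3
    obtain ⟨x₂, y₂, h₂, e, hx⟩ := add_self_of_dD_ne_zero h hD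
    have hx2 : x₂ = x := by
      apply mul_right_cancel₀ hD
      rw [hx, h3]; ring
    rcases (Point.X_eq_iff (h₁ := h₂) (h₂ := h)).mp hx2 with h1 | h1
    · exfalso
      rw [← e] at h1
      have : Point.some x y h = 0 :=
        add_left_cancel (a := Point.some x y h) (by rw [h1, add_zero])
      exact Point.some_ne_zero h this
    · rw [e, h1]

/-- points of order dividing five (and not one) -/
theorem five_torsion_iff (hΔ : W.Δ ≠ 0) {x y : F} (h : W.Nonsingular x y) :
    (Point.some x y h + Point.some x y h) + (Point.some x y h + Point.some x y h)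
      = -Point.some x y h ↔ p5 W x = 0 := by
  set P := Point.some x y h with hP
  have hP0 : P ≠ 0 := Point.some_ne_zero h
  constructor
  · intro h5
    have hD : dD W x ≠ 0 := by
      intro hD
      rw [add_self_of_dD_eq_zero h hD, add_zero] at h5
      exact hP0 (neg_eq_zero.mp h5.symm)
    obtain ⟨x₂, y₂, h₂, e, hx⟩ := add_self_of_dD_ne_zero h hD
    have hD₂ : dD W x₂ ≠ 0 := by
      intro hD₂
      rw [e, add_self_of_dD_eq_zero h₂ hD₂] at h5
      exact hP0 (neg_eq_zero.mp h5.symm)
    obtain ⟨x₄, y₄, h₄, e', hx'⟩ := add_self_of_dD_ne_zero h₂ hD₂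
    have hx4 : x₄ = x := by
      have h5' := h5
      rw [e, e', hP, Point.neg_some] at h5'
      injection h5'
    have key := dbl_dbl W hx hx'
    rw [hx4, sub_self, zero_mul] at key
    have h3 : p3 W x ≠ 0 := by
      intro h3
      have h3' : P + P = -P := (three_torsion_iff hΔ h).mpr h3
      -- then 2P = -P and 4P = -P give P = 0
      rw [h3'] at h5
      have : -P = 0 := add_left_cancel (a := -P) (by rw [h5, add_zero])
      exact hP0 (neg_eq_zero.mp this)
    have : p3 W x * p5 W x = 0 := by linear_combination key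
    rcases mul_eq_zero.mp this with h0 | h0
    · exact absurd h0 h3
    · exact h0
  · intro h5
    have hD := dD_ne_zero_of_p5 W hΔ h5
    have h3 := p3_ne_zero_of_p5 W hΔ h5
    have hq := q4_ne_zero_of_p5 W hΔ h5
    obtain ⟨x₂, y₂, h₂, e, hx⟩ := add_self_of_dD_ne_zero h hD
    have hD₂ : dD W x₂ ≠ 0 := by
      intro hD₂
      have := dD_dbl W hx
      rw [hD₂, zero_mul] at this
      exact hq (pow_eq_zero_iff (two_ne_zero) |>.mp this.symm)
    obtain ⟨x₄, y₄, h₄, e', hx'⟩ := add_self_of_dD_ne_zero h₂ hD₂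
    have key := dbl_dbl W hx hx'
    rw [h5, mul_zero, neg_zero] at key
    have hx4 : x₄ = x := by
      have hne : q4 W x ^ 2 * dD W x ≠ 0 := mul_ne_zero (pow_ne_zero 2 hq) hD
      have := (mul_eq_zero.mp key).resolve_right hne
      exact sub_eq_zero.mp this
    rcases (Point.X_eq_iff (h₁ := h₄) (h₂ := h)).mp hx4 with h1 | h1
    · exfalso
      -- 4P = P gives 3P = 0, so ψ₃ = 0
      apply h3
      apply (three_torsion_iff hΔ h).mp
      have e4 : (P + P) + (P + P) = P := by rw [e, e']; exact h1
      have e3 : (P + P + P) + P = 0 + P := by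
        rw [zero_add]
        calc (P + P + P) + P = (P + P) + (P + P) := by abel
          _ = P := e4
      exact eq_neg_of_add_eq_zero_left (add_right_cancel e3)
    · rw [e, e']; exact h1

end Fermat.Agent.S51.Doubling
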