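import Mathlib

/-!
# S51: a proper nonzero subspace of an `𝔽_p`-vector space with at most `p²` elements is a line
-/

namespace Fermat.Agent.S51.Line

theorem exists_generator {p : ℕ} [Fact p.Prime] {V : Type*} [AddCommGroup V]
    [Module (ZMod p) V] [Finite V] (hcard : Nat.card V ≤ p ^ 2)
    (N : Submodule (ZMod p) V) (h0 : N ≠ ⊥) (h1 : N ≠ ⊤) :
    ∃ P ∈ N, P ≠ 0 ∧ ∀ Q ∈ N, ∃ k : ℕ, Q = k • P := by
  have hp : 1 < p := (Fact.out : p.Prime).one_lt
  have hfin : Module.Finite (ZMod p) V := Module.Finite.of_finite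
  have hV : Module.finrank (ZMod p) V ≤ 2 := by
    have h := Module.natCard_eq_pow_finrank (K := ZMod p) (V := V)
    rw [Nat.card_zmod] at h
    rw [h] at hcard
    exact (Nat.pow_le_pow_iff_right hp).mp hcard
  have hN2 : Module.finrank (ZMod p) N < 2 := lt_of_lt_of_le (Submodule.finrank_lt h1) hV
  have hN0 : Module.finrank (ZMod p) N ≠ 0 := by
    intro h
    exact h0 (Submodule.finrank_eq_zero.mp h)
  have hN1 : Module.finrank (ZMod p) N = 1 := by omega
  obtain ⟨v, hv, hspan⟩ := finrank_eq_one_iff'.mp hN1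
  refine ⟨v, v.2, fun h => hv (Subtype.ext h), fun Q hQ => ?_⟩
  obtain ⟨c, hc⟩ := hspan ⟨Q, hQ⟩
  refine ⟨c.val, ?_⟩
  have h2 : (c • v : N) = (c.val : ℕ) • v := by
    conv_lhs => rw [← ZMod.natCast_zmod_val c]
    exact Nat.cast_smul_eq_nsmul (ZMod p) c.val v
  have h3 := congrArg (Subtype.val) hc
  rw [h2] at h3
  simpa using h3.symm

end Fermat.Agent.S51.Line
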