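import Mathlib

/-!
# S51, pieces (B), (C), (E): the rational points of `X₀(3) ×_{X(1)} X₀(5)`

For rational `s, t ≠ 0` with `(t+27)(t+3)³/t = (s²+10s+5)³/s =: j` we show that `j` is one of
`0, -25/2, -349938025/8, -121945/32, 46969655/32768`, *assuming* the list of rational points of
`y² = x(x+9)(x-16)` (the elliptic curve `X₀(15)`), which is proved elsewhere.
-/

namespace Fermat.Agent.S51.X015

/-- numerator of the modular unit `w = (η₁η₅/(η₃η₁₅))²` of `X₀(15)` as a function of `(s, t)` -/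
def wNum (s t : ℚ) : ℚ :=
  (9 * t ^ 4 + 126 * t ^ 3 + 45 * t ^ 2 - 2430 * t - 177147)
    + (18 * t ^ 4 + 2241 * t ^ 3 + 55530 * t ^ 2 + 382482 * t) * s
    + (234 * t ^ 3 + 13752 * t ^ 2 + 315900 * t) * s ^ 2
    + (9 * t ^ 3 + 1332 * t ^ 2 + 76545 * t) * s ^ 3
    + (45 * t ^ 2 + 7290 * t) * s ^ 4 + 243 * t * s ^ 5

/-- denominator of `w` -/
def wDen (t : ℚ) : ℚ := t * (t + 3) ^ 2 * (t ^ 2 + 18 * t - 27)

theorem cert_Hs (s t : ℚ)
    (hF : s * (t + 27) * (t + 3) ^ 3 - t * (s ^ 2 + 10 * s + 5) ^ 3 = 0) :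
    wNum s t ^ 3 * wDen t * s ^ 2
      - (wNum s t ^ 4 - 4 * wNum s t ^ 3 * wDen t + 135 * wNum s t ^ 2 * wDen t ^ 2
          + 486 * wNum s t * wDen t ^ 3 + 729 * wDen t ^ 4) * s
      + 125 * wNum s t ^ 3 * wDen t = 0 := by
  unfold wNum wDen
  linear_combination
    (-729 * s ^ 5 * t ^ 13 - 10935 * s ^ 6 * t ^ 12 - 107163 * s ^ 7 * t ^ 11 - 550395 * s ^ 8 * t ^
      10 - 1377810 * s ^ 9 * t ^ 9 + 5937705 * s ^ 10 * t ^ 8 + 71593632 * s ^ 11 * t ^ 7 +
      375551640 * s ^ 12 * t ^ 6 + 1234006002 * s ^ 13 * t ^ 5 + 2582803260 * s ^ 14 * t ^ 4 +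
      3486784401 * s ^ 15 * t ^ 3 - 4374 * s ^ 3 * t ^ 14 - 81648 * s ^ 4 * t ^ 13 - 918540 * s
      ^ 5 * t ^ 12 - 6714090 * s ^ 6 * t ^ 11 - 28463076 * s ^ 7 * t ^ 10 - 21056436 * s ^ 8 * t
      ^ 9 + 785889702 * s ^ 9 * t ^ 8 + 6707900790 * s ^ 10 * t ^ 7 + 33119403120 * s ^ 11 * t ^
      6 + 108420341292 * s ^ 12 * t ^ 5 + 231419172096 * s ^ 13 * t ^ 4 + 313810596090 * s ^ 14
      * t ^ 3 - 729 * t ^ 16 - 8748 * s * t ^ 15 - 157464 * s ^ 2 * t ^ 14 - 2161485 * s ^ 3 * t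
      ^ 13 - 23416209 * s ^ 4 * t ^ 12 - 158559687 * s ^ 5 * t ^ 11 - 532915767 * s ^ 6 * t ^ 10
      + 1674529038 * s ^ 7 * t ^ 9 + 37274431932 * s ^ 8 * t ^ 8 + 273421368774 * s ^ 9 * t ^ 7
      + 1306345219479 * s ^ 10 * t ^ 6 + 4290782358024 * s ^ 11 * t ^ 5 + 9328052253816 * s ^ 12
      * t ^ 4 + 12709329141645 * s ^ 13 * t ^ 3 - 48114 * t ^ 15 - 1447794 * s * t ^ 14 -
      22941630 * s ^ 2 * t ^ 13 - 265611150 * s ^ 3 * t ^ 12 - 1768434444 * s ^ 4 * t ^ 11 -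
      3150834228 * s ^ 5 * t ^ 10 + 70247205450 * s ^ 6 * t ^ 9 + 922655846520 * s ^ 7 * t ^ 8 +
      6363789671952 * s ^ 8 * t ^ 7 + 30201127374456 * s ^ 9 * t ^ 6 + 100497276615996 * s ^ 10
      * t ^ 5 + 223045723927080 * s ^ 11 * t ^ 4 + 305442313527600 * s ^ 12 * t ^ 3 - 1240029 *
      t ^ 14 - 76594572 * s * t ^ 13 - 1312880157 * s ^ 2 * t ^ 12 - 9240606441 * s ^ 3 * t ^ 11
      + 25552298556 * s ^ 4 * t ^ 10 + 1194670455975 * s ^ 5 * t ^ 9 + 13545633652938 * s ^ 6 *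
      t ^ 8 + 93190584297672 * s ^ 7 * t ^ 7 + 450819035918991 * s ^ 8 * t ^ 6 +
      1539346323496644 * s ^ 9 * t ^ 5 + 3509374244012775 * s ^ 10 * t ^ 4 + 4835810825393697 *
      s ^ 11 * t ^ 3 - 15021774 * t ^ 13 - 1678010742 * s * t ^ 12 - 16196852016 * s ^ 2 * t ^
      11 + 437989166136 * s ^ 3 * t ^ 10 + 10746666075096 * s ^ 4 * t ^ 9 + 122712824558052 * s
      ^ 5 * t ^ 8 + 888686222345046 * s ^ 6 * t ^ 7 + 4512699037672344 * s ^ 7 * t ^ 6 +
      16083116875745676 * s ^ 8 * t ^ 5 + 38051910696631374 * s ^ 9 * t ^ 4 + 52931270070756540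
      * s ^ 10 * t ^ 3 - 23188761 * t ^ 12 - 1182919869 * s * t ^ 11 + 1814908906233 * s ^ 2 * t
      ^ 10 + 51127361359533 * s ^ 3 * t ^ 9 + 673880255228772 * s ^ 4 * t ^ 8 + 5491914554213388
      * s ^ 5 * t ^ 7 + 30433931582771790 * s ^ 6 * t ^ 6 + 115965357582402306 * s ^ 7 * t ^ 5 +
      289091861218509462 * s ^ 8 * t ^ 4 + 408852162351839655 * s ^ 9 * t ^ 3 - 7625597484987 *
      s ^ 10 * t ^ 2 + 2556358056 * t ^ 11 + 791492206968 * s * t ^ 10 + 104798416689126 * s ^ 2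
      * t ^ 9 + 2053029634197516 * s ^ 3 * t ^ 8 + 21009611432765754 * s ^ 4 * t ^ 7 +
      134929413883907136 * s ^ 5 * t ^ 6 + 570303995678733582 * s ^ 6 * t ^ 5 +
      1531568836287960408 * s ^ 7 * t ^ 4 + 2233251349930471032 * s ^ 8 * t ^ 3 -
      457535849099220 * s ^ 9 * t ^ 2 + 45890423154 * t ^ 10 + 19166031301914 * s * t ^ 9 +
      2654699290832277 * s ^ 2 * t ^ 8 + 44340274915451568 * s ^ 3 * t ^ 7 + 369144742683176640
      * s ^ 4 * t ^ 6 + 1841210789853422853 * s ^ 5 * t ^ 5 + 5514290432930967777 * s ^ 6 * t ^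
      4 + 8504492365443460590 * s ^ 7 * t ^ 3 - 11667164152030110 * s ^ 8 * t ^ 2 + 311316029532
      * t ^ 9 + 210394748155410 * s * t ^ 8 + 37607290471788912 * s ^ 2 * t ^ 7 +
      543806629783257114 * s ^ 3 * t ^ 6 + 3602233633104053802 * s ^ 4 * t ^ 5 +
      12793317074851225104 * s ^ 5 * t ^ 4 + 21824381793458679570 * s ^ 6 * t ^ 3 -
      163950345927220500 * s ^ 7 * t ^ 2 - 861680969946 * t ^ 8 + 825067928765034 * s * t ^ 7 +
      302639594224699647 * s ^ 2 * t ^ 6 + 3614134283316488727 * s ^ 3 * t ^ 5 +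
      17290566411445742121 * s ^ 4 * t ^ 4 + 35238811405572796410 * s ^ 5 * t ^ 3 -
      1375451895159560151 * s ^ 6 * t ^ 2 - 42174045985428 * t ^ 7 - 8072386596894258 * s * t ^
      6 + 1200321733782622824 * s ^ 2 * t ^ 5 + 10832780277067034538 * s ^ 3 * t ^ 4 +
      30232886450206304754 * s ^ 4 * t ^ 3 - 6965373254736825540 * s ^ 5 * t ^ 2 -
      395888373880326 * t ^ 6 - 147567915299615994 * s * t ^ 5 + 585584241531913224 * s ^ 2 * t
      ^ 4 + 4885020246006275724 * s ^ 3 * t ^ 3 - 20443006761652549080 * s ^ 4 * t ^ 2 +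
      5559060566555523 * s ^ 5 * t - 869621822254080 * t ^ 5 - 956725406300080152 * s * t ^ 4 -
      9339154784632073034 * s ^ 2 * t ^ 3 - 31118324700005369964 * s ^ 3 * t ^ 2 +
      166771816996665690 * s ^ 4 * t + 11235544021701567 * t ^ 4 - 2028894437840106042 * s * t ^
      3 - 18274500353651825916 * s ^ 2 * t ^ 2 + 1751104078464989745 * s ^ 3 * t +
      156913798825369638 * t ^ 3 + 1933851522192703200 * s * t ^ 2 + 7226778736522179900 * s ^ 2
      * t + 500582346901971615 * t ^ 2 + 8749961331758393202 * s * t - 55590605665555230 * t -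
      1350851717672992089) * hF

theorem not_sq_three (r : ℚ) : r ^ 2 ≠ 3 := by
  intro h
  have h1 : IsSquare ((3 : ℕ) : ℚ) := ⟨r, by rw [← sq, h]; norm_num⟩
  rw [Rat.isSquare_natCast_iff] at h1
  obtain ⟨k, hk⟩ := h1
  have : k ≤ 2 := by nlinarith
  interval_cases k <;> omega

theorem not_sq_five (r : ℚ) : r ^ 2 ≠ 5 := by
  intro h
  have h1 : IsSquare ((5 : ℕ) : ℚ) := ⟨r, by rw [← sq, h]; norm_num⟩
  rw [Rat.isSquare_natCast_iff] at h1
  obtain ⟨k, hk⟩ := h1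
  have : k ≤ 3 := by nlinarith
  interval_cases k <;> omega

theorem wDen_ne_zero (t : ℚ) (ht : t ≠ 0) (ht3 : t ≠ -3) : wDen t ≠ 0 := by
  unfold wDen
  have h1 : t + 3 ≠ 0 := fun h => ht3 (by linarith)
  have h2 : t ^ 2 + 18 * t - 27 ≠ 0 := by
    intro h
    exact not_sq_three ((t + 9) / 6) (by linear_combination h / 36)
  exact mul_ne_zero (mul_ne_zero ht (pow_ne_zero 2 h1)) h2

/-- the relation between `s` and `w` on `X₀(15)` -/
theorem rel_s_w (s t : ℚ) (ht : t ≠ 0) (ht3 : t ≠ -3)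
    (hF : s * (t + 27) * (t + 3) ^ 3 - t * (s ^ 2 + 10 * s + 5) ^ 3 = 0) :
    ∃ w : ℚ, w ^ 3 * s ^ 2 - (w ^ 4 - 4 * w ^ 3 + 135 * w ^ 2 + 486 * w + 729) * s
      + 125 * w ^ 3 = 0 := by
  have hq := wDen_ne_zero t ht ht3
  refine ⟨wNum s t / wDen t, ?_⟩
  have hc := cert_Hs s t hF
  field_simp
  linear_combination hc

/-- from a point of the `(s, w)`-curve to a point of `y² = x(x+9)(x-16)` -/
theorem w_mem (hD : ∀ x y : ℚ, y ^ 2 = x * (x + 9) * (x - 16) →
      x = 0 ∨ x = -9 ∨ x = 16 ∨ x = 36 ∨ x = -4)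
    (s w : ℚ) (hs : s ≠ 0)
    (h : w ^ 3 * s ^ 2 - (w ^ 4 - 4 * w ^ 3 + 135 * w ^ 2 + 486 * w + 729) * s
      + 125 * w ^ 3 = 0) :
    w = -2 ∨ w = -9 / 2 := by
  have hw : w ≠ 0 := by
    rintro rfl
    apply hs
    linear_combination -h / 729
  have hg : w ^ 2 - 9 * w - 81 ≠ 0 := by
    intro hg
    exact not_sq_five ((2 * w - 9) / 9) (by linear_combination 4 * hg / 81)
  obtain ⟨v, hv⟩ : ∃ v : ℚ, v * (w ^ 2 - 9 * w - 81)
      = 2 * w ^ 3 * s - (w ^ 4 - 4 * w ^ 3 + 135 * w ^ 2 + 486 * w + 729) :=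
    ⟨_, div_mul_cancel₀ _ hg⟩
  have hv2 : v ^ 2 = (w ^ 2 + 5 * w + 9) ^ 2 + 4 * w ^ 2 := by
    apply mul_left_cancel₀ (pow_ne_zero 2 hg)
    linear_combination (v * (w ^ 2 - 9 * w - 81)
      + (2 * w ^ 3 * s - (w ^ 4 - 4 * w ^ 3 + 135 * w ^ 2 + 486 * w + 729))) * hv
      + 4 * w ^ 3 * h
  have key : (2 * ((w ^ 2 + 5 * w + 9) + v)) ^ 2
      - 4 * (2 * ((w ^ 2 + 5 * w + 9) + v)) * (w ^ 2 + 5 * w + 9) - 16 * w ^ 2 = 0 := by
    linear_combination 4 * hv2
  set x : ℚ := 2 * ((w ^ 2 + 5 * w + 9) + v) with hx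
  have hy : (-2 * w * (x + 4) - 5 * x) ^ 2 = x * (x + 9) * (x - 16) := by
    linear_combination (-(x + 4)) * key
  rcases hD x _ hy with h0 | h0 | h0 | h0 | h0
  · rw [h0] at key
    exfalso
    apply hw
    have : w ^ 2 = 0 := by linear_combination -key / 16
    exact pow_eq_zero_iff (two_ne_zero) |>.mp this
  · rw [h0] at key
    right
    have : (2 * w + 9) ^ 2 = 0 := by linear_combination key / 5
    have := pow_eq_zero_iff (two_ne_zero) |>.mp this
    linarith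
  · rw [h0] at key
    left
    have : (w + 2) ^ 2 = 0 := by linear_combination -key / 80
    have := pow_eq_zero_iff (two_ne_zero) |>.mp this
    linarith
  · rw [h0] at key
    right
    have : w * (2 * w + 9) = 0 := by linear_combination -key / 80
    rcases mul_eq_zero.mp this with h1 | h1
    · exact absurd h1 hw
    · linarith
  · rw [h0] at key
    left
    linear_combination key / 80

theorem main (hD : ∀ x y : ℚ, y ^ 2 = x * (x + 9) * (x - 16) →
      x = 0 ∨ x = -9 ∨ x = 16 ∨ x = 36 ∨ x = -4)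
    (j s t : ℚ) (hs : s ≠ 0) (ht : t ≠ 0)
    (h3 : j * t = (t + 27) * (t + 3) ^ 3) (h5 : j * s = (s ^ 2 + 10 * s + 5) ^ 3) :
    j = 0 ∨ j = -25 / 2 ∨ j = -349938025 / 8 ∨ j = -121945 / 32 ∨ j = 46969655 / 32768 := by
  by_cases ht3 : t = -3
  · left
    subst ht3
    have : j * (-3) = 0 := by rw [h3]; norm_num
    rcases mul_eq_zero.mp this with h | h
    · exact h
    · norm_num at h
  right
  have hF : s * (t + 27) * (t + 3) ^ 3 - t * (s ^ 2 + 10 * s + 5) ^ 3 = 0 := by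
    linear_combination (-s) * h3 + t * h5
  obtain ⟨w, hw⟩ := rel_s_w s t ht ht3 hF
  rcases w_mem hD s w hs hw with rfl | rfl
  · -- w = -2 : (8 s + 25) (s + 40) = 0
    have h1 : (8 * s + 25) * (s + 40) = 0 := by linear_combination -hw
    rcases mul_eq_zero.mp h1 with h2 | h2
    · have hs' : s = -25 / 8 := by linarith
      subst hs'
      right; right; right
      have : j * (-25 / 8) = (46969655 / 32768) * (-25 / 8) := by rw [h5]; norm_num
      exact mul_right_cancel₀ (by norm_num) this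
    · have hs' : s = -40 := by linarith
      subst hs'
      right; left
      have : j * (-40) = (-349938025 / 8) * (-40) := by rw [h5]; norm_num
      exact mul_right_cancel₀ (by norm_num) this
  · -- w = -9/2 : (2 s + 25) (s + 10) = 0
    have h1 : (2 * s + 25) * (s + 10) = 0 := by linear_combination (-16 / 729) * hw
    rcases mul_eq_zero.mp h1 with h2 | h2
    · have hs' : s = -25 / 2 := by linarith
      subst hs'
      right; right; left
      have : j * (-25 / 2) = (-121945 / 32) * (-25 / 2) := by rw [h5]; norm_num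
      exact mul_right_cancel₀ (by norm_num) this
    · have hs' : s = -10 := by linarith
      subst hs'
      left
      have : j * (-10) = (-25 / 2) * (-10) := by rw [h5]; norm_num
      exact mul_right_cancel₀ (by norm_num) this

end Fermat.Agent.S51.X015
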