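import Mathlib
import Fermat.Prelude.Def_FLTPrelim_ModularRep
import Fermat.Agent.S51.DivPoly
import Fermat.Agent.S51.Doubling
import Fermat.Agent.S51.Card
import Fermat.Agent.S51.Line
import Fermat.Agent.S51.Fixed
import Fermat.Agent.S51.Arith
import Fermat.Agent.S51.X015

/-!
# S51: a semistable curve has irreducible `E[3]` or irreducible `E[5]`

Assembly: Galois-stable lines in `E[3]`, `E[5]` give rational numbers `t`, `s` with
`j = (t+27)(t+3)³/t = (s²+10s+5)³/s`, i.e. a rational point of `X₀(15)`.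
-/

namespace Fermat.Agent.S51.Main

open WeierstrassCurve WeierstrassCurve.Affine Fermat.Agent.S51.DivPoly Polynomial

/-- the base field -/
abbrev KK : Type := AlgebraicClosure ℚ

/-- the curve over `ℚ` -/
abbrev WQ (W : WeierstrassCurve ℤ) : Affine ℚ := W.map (Int.castRingHom ℚ)

/-- the curve over `ℚ̄` -/
noncomputable abbrev EE (W : WeierstrassCurve ℤ) : Affine KK := (WQ W)⁄KK

variable (W : WeierstrassCurve ℤ)

lemma EE_eq : EE W = (WQ W).map (algebraMap ℚ KK) := rfl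

lemma Δ_WQ : (WQ W).Δ = (W.Δ : ℚ) := by
  show (WeierstrassCurve.map W (Int.castRingHom ℚ)).Δ = _
  rw [WeierstrassCurve.map_Δ]; rfl

lemma c₄_WQ : (WQ W).c₄ = (W.c₄ : ℚ) := by
  show (WeierstrassCurve.map W (Int.castRingHom ℚ)).c₄ = _
  rw [WeierstrassCurve.map_c₄]; rfl

lemma Δ_EE : (EE W).Δ = algebraMap ℚ KK (WQ W).Δ := by
  rw [EE_eq, WeierstrassCurve.map_Δ]

lemma c₄_EE : (EE W).c₄ = algebraMap ℚ KK (WQ W).c₄ := by
  rw [EE_eq, WeierstrassCurve.map_c₄]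

lemma Δ_EE_ne_zero (hΔ : W.Δ ≠ 0) : (EE W).Δ ≠ 0 := by
  rw [Δ_EE, Δ_WQ]
  simpa using hΔ

lemma dD_EE (x : ℚ) : dD (EE W) (algebraMap ℚ KK x) = algebraMap ℚ KK (dD (WQ W) x) := by
  simp only [dD, EE_eq, WeierstrassCurve.map_b₂, WeierstrassCurve.map_b₄, WeierstrassCurve.map_b₆]
  simp only [map_add, map_mul, map_pow, map_ofNat]

lemma p3_EE (x : ℚ) : p3 (EE W) (algebraMap ℚ KK x) = algebraMap ℚ KK (p3 (WQ W) x) := by
  simp only [p3, EE_eq, WeierstrassCurve.map_b₂, WeierstrassCurve.map_b₄, WeierstrassCurve.map_b₆,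
    WeierstrassCurve.map_b₈]
  simp only [map_add, map_mul, map_pow, map_ofNat]

/-- Galois conjugation commutes with `ψ₂²` -/
lemma dD_conj (σ : KK ≃ₐ[ℚ] KK) (x : KK) : dD (EE W) (σ x) = σ (dD (EE W) x) := by
  simp only [dD, EE_eq, WeierstrassCurve.map_b₂, WeierstrassCurve.map_b₄, WeierstrassCurve.map_b₆]
  simp only [map_add, map_mul, map_pow, map_ofNat, AlgEquiv.commutes]

lemma p3_conj (σ : KK ≃ₐ[ℚ] KK) (x : KK) : p3 (EE W) (σ x) = σ (p3 (EE W) x) := by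
  simp only [p3, EE_eq, WeierstrassCurve.map_b₂, WeierstrassCurve.map_b₄, WeierstrassCurve.map_b₆,
    WeierstrassCurve.map_b₈]
  simp only [map_add, map_mul, map_pow, map_ofNat, AlgEquiv.commutes]

lemma Δ_conj (σ : KK ≃ₐ[ℚ] KK) : σ (EE W).Δ = (EE W).Δ := by
  rw [Δ_EE, AlgEquiv.commutes]


/-- the action of Galois on coordinates -/
lemma smul_some (σ : KK ≃ₐ[ℚ] KK) {x y : KK} (h : (EE W).Nonsingular x y) :
    ∃ h' : (EE W).Nonsingular (σ x) (σ y),
      (σ • (Point.some x y h : (EE W).Point)) = Point.some (σ x) (σ y) h' :=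
  ⟨_, rfl⟩

/-! ### torsion points -/

section Group

variable {A : Type*} [AddCommGroup A]

lemma three_zsmul_eq_zero_iff (P : A) : ((3 : ℕ) : ℤ) • P = 0 ↔ P + P = -P := by
  have : ((3 : ℕ) : ℤ) • P = P + P + P := by
    push_cast
    rw [show (3 : ℤ) = 1 + 1 + 1 by norm_num, add_smul, add_smul, one_smul]
  rw [this, eq_neg_iff_add_eq_zero]

lemma five_zsmul_eq_zero_iff (P : A) : ((5 : ℕ) : ℤ) • P = 0 ↔ (P + P) + (P + P) = -P := by
  have : ((5 : ℕ) : ℤ) • P = (P + P) + (P + P) + P := by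
    push_cast
    rw [show (5 : ℤ) = 1 + 1 + 1 + 1 + 1 by norm_num, add_smul, add_smul, add_smul, add_smul,
      one_smul]
    abel
  rw [this, eq_neg_iff_add_eq_zero]

lemma nsmul_eq_mod_nsmul {p : ℕ} {P : A} (hP : p • P = 0) (k : ℕ) : k • P = (k % p) • P := by
  conv_lhs => rw [← Nat.mod_add_div k p]
  rw [add_smul, mul_comm, mul_smul, hP, smul_zero, add_zero]

end Group

lemma mem_torsion_three {P : (EE W).Point} :
    P ∈ Submodule.torsionBy ℤ (EE W).Point (3 : ℕ) ↔ P + P = -P := by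
  rw [Submodule.mem_torsionBy_iff, three_zsmul_eq_zero_iff]

lemma mem_torsion_five {P : (EE W).Point} :
    P ∈ Submodule.torsionBy ℤ (EE W).Point (5 : ℕ) ↔ (P + P) + (P + P) = -P := by
  rw [Submodule.mem_torsionBy_iff, five_zsmul_eq_zero_iff]

lemma three_ne_zero_KK : (3 : KK) ≠ 0 := by norm_num

lemma five_ne_zero_KK : ((5 : ℕ) : KK) ≠ 0 := by norm_num

theorem card_torsion_three (hΔ : W.Δ ≠ 0) :
    Finite (Submodule.torsionBy ℤ (EE W).Point (3 : ℕ)) ∧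
      Nat.card (Submodule.torsionBy ℤ (EE W).Point (3 : ℕ)) ≤ 3 ^ 2 := by
  have hΔ' := Δ_EE_ne_zero W hΔ
  obtain ⟨h1, h2⟩ := Card.finite_and_ncard_le
    (Submodule.torsionBy ℤ (EE W).Point (3 : ℕ) : Set (EE W).Point) (EE W).Ψ₃
    ((EE W).Ψ₃_ne_zero three_ne_zero_KK)
    (fun x y h hmem => by
      rw [eval_Ψ₃]
      exact (Doubling.three_torsion_iff hΔ' h).mp ((mem_torsion_three W).mp hmem))
  refine ⟨h1.to_subtype, ?_⟩
  have hcard : Nat.card (Submodule.torsionBy ℤ (EE W).Point (3 : ℕ)) = _ :=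
    Nat.card_coe_set_eq _
  rw [hcard]
  have := (EE W).natDegree_Ψ₃_le
  omega

theorem card_torsion_five (hΔ : W.Δ ≠ 0) :
    Finite (Submodule.torsionBy ℤ (EE W).Point (5 : ℕ)) ∧
      Nat.card (Submodule.torsionBy ℤ (EE W).Point (5 : ℕ)) ≤ 5 ^ 2 := by
  have hΔ' := Δ_EE_ne_zero W hΔ
  obtain ⟨h1, h2⟩ := Card.finite_and_ncard_le
    (Submodule.torsionBy ℤ (EE W).Point (5 : ℕ) : Set (EE W).Point) ((EE W).preΨ' 5)
    ((EE W).preΨ'_ne_zero five_ne_zero_KK)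
    (fun x y h hmem => by
      rw [eval_preΨ'_five]
      exact (Doubling.five_torsion_iff hΔ' h).mp ((mem_torsion_five W).mp hmem))
  refine ⟨h1.to_subtype, ?_⟩
  have hcard : Nat.card (Submodule.torsionBy ℤ (EE W).Point (5 : ℕ)) = _ :=
    Nat.card_coe_set_eq _
  rw [hcard]
  have := (EE W).natDegree_preΨ'_le 5
  have h5 : (5 ^ 2 - if Even 5 then 4 else 1) / 2 = 12 := by decide
  rw [h5] at this
  omega

/-- existence of a point with prescribed `x`-coordinate over the algebraically closed field -/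
lemma exists_point (hΔ : W.Δ ≠ 0) (x : KK) : ∃ (y : KK), (EE W).Nonsingular x y := by
  have hdeg : (Card.yPoly (EE W) x).degree ≠ 0 := by
    rw [degree_eq_natDegree (Card.yPoly_ne_zero (EE W) x), Card.natDegree_yPoly]
    norm_num
  obtain ⟨y, hy⟩ := IsAlgClosed.exists_root (Card.yPoly (EE W) x) hdeg
  exact ⟨y, (equation_iff_nonsingular_of_Δ_ne_zero (Δ_EE_ne_zero W hΔ)).mp
    ((Card.eval_yPoly_eq_zero_iff (EE W) x y).mp hy)⟩

theorem nontrivial_torsion_three (hΔ : W.Δ ≠ 0) :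
    Nontrivial (Submodule.torsionBy ℤ (EE W).Point (3 : ℕ)) := by
  have hΔ' := Δ_EE_ne_zero W hΔ
  have hdeg : (EE W).Ψ₃.degree ≠ 0 := by
    rw [degree_eq_natDegree ((EE W).Ψ₃_ne_zero three_ne_zero_KK),
      (EE W).natDegree_Ψ₃ three_ne_zero_KK]
    norm_num
  obtain ⟨x, hx⟩ := IsAlgClosed.exists_root (EE W).Ψ₃ hdeg
  obtain ⟨y, hy⟩ := exists_point W hΔ x
  rw [IsRoot.def, eval_Ψ₃] at hx
  have hmem : Point.some x y hy ∈ Submodule.torsionBy ℤ (EE W).Point (3 : ℕ) :=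
    (mem_torsion_three W).mpr ((Doubling.three_torsion_iff hΔ' hy).mpr hx)
  refine ⟨⟨⟨_, hmem⟩, 0, ?_⟩⟩
  intro h
  exact Point.some_ne_zero hy (congrArg Subtype.val h)

theorem nontrivial_torsion_five (hΔ : W.Δ ≠ 0) :
    Nontrivial (Submodule.torsionBy ℤ (EE W).Point (5 : ℕ)) := by
  have hΔ' := Δ_EE_ne_zero W hΔ
  have hdeg : ((EE W).preΨ' 5).degree ≠ 0 := by
    rw [degree_eq_natDegree ((EE W).preΨ'_ne_zero five_ne_zero_KK),
      (EE W).natDegree_preΨ' five_ne_zero_KK]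
    have h5 : (5 ^ 2 - if Even 5 then 4 else 1) / 2 = 12 := by decide
    rw [h5]
    norm_num
  obtain ⟨x, hx⟩ := IsAlgClosed.exists_root ((EE W).preΨ' 5) hdeg
  obtain ⟨y, hy⟩ := exists_point W hΔ x
  rw [IsRoot.def, eval_preΨ'_five] at hx
  have hmem : Point.some x y hy ∈ Submodule.torsionBy ℤ (EE W).Point (5 : ℕ) :=
    (mem_torsion_five W).mpr ((Doubling.five_torsion_iff hΔ' hy).mpr hx)
  refine ⟨⟨⟨_, hmem⟩, 0, ?_⟩⟩
  intro h
  exact Point.some_ne_zero hy (congrArg Subtype.val h)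


/-! ### the invariant of a Galois-stable line in `E[3]` -/

lemma algebraMap_injective_KK : Function.Injective (algebraMap ℚ KK) :=
  (algebraMap ℚ KK).injective

theorem exists_t (hΔ : W.Δ ≠ 0) (h : ¬ W.ModRepIsIrreducible 3) :
    ∃ t : ℚ, t ≠ 0 ∧ (W.c₄ : ℚ) ^ 3 * t = (t + 27) * (t + 3) ^ 3 * (W.Δ : ℚ) := by
  have hΔ' := Δ_EE_ne_zero W hΔ
  have hΔQ : (WQ W).Δ ≠ 0 := by rw [Δ_WQ]; exact_mod_cast hΔ
  have h' : ¬ (Nontrivial (Submodule.torsionBy ℤ (EE W).Point (3 : ℕ)) ∧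
      ∀ N : Submodule (ZMod 3) (Submodule.torsionBy ℤ (EE W).Point (3 : ℕ)),
        Affine.Point.IsGaloisStable ℚ N → N = ⊥ ∨ N = ⊤) := h
  rw [not_and] at h'
  have h'' := h' (nontrivial_torsion_three W hΔ)
  push Not at h''
  obtain ⟨N, hN, hN0, hN1⟩ := h''
  obtain ⟨hfin, hcard⟩ := card_torsion_three W hΔ
  have := hfin
  have : Fact (Nat.Prime 3) := ⟨Nat.prime_three⟩
  obtain ⟨P, hPN, hP0, hgen⟩ := Line.exists_generator hcard N hN0 hN1
  obtain ⟨P, hPt⟩ := P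
  cases P with
  | zero => exact absurd rfl hP0
  | some x y hxy =>
    have hPt' := (mem_torsion_three W).mp hPt
    have hp3 : p3 (EE W) x = 0 := (Doubling.three_torsion_iff hΔ' hxy).mp hPt'
    have h3 : (3 : ℕ) • (Point.some x y hxy : (EE W).Point) = 0 := by
      have := (Submodule.mem_torsionBy_iff _ _).mp hPt
      rwa [Nat.cast_smul_eq_nsmul] at this
    have hfix : ∀ σ : KK ≃ₐ[ℚ] KK, σ x = x := by
      intro σ
      obtain ⟨k, hk⟩ := hgen _ (hN σ _ hPN)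
      obtain ⟨hσ, hσe⟩ := smul_some W σ hxy
      have hk' : (Point.some (σ x) (σ y) hσ : (EE W).Point) = k • Point.some x y hxy := by
        rw [← hσe]
        exact congrArg Subtype.val hk
      rw [nsmul_eq_mod_nsmul h3 k] at hk'
      have hlt : k % 3 < 3 := Nat.mod_lt _ (by norm_num)
      interval_cases (k % 3)
      · rw [zero_nsmul] at hk'
        exact absurd hk' (Point.some_ne_zero hσ)
      · rw [one_nsmul] at hk'
        injection hk'
      · rw [two_nsmul, hPt', Point.neg_some] at hk'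
        injection hk'
    obtain ⟨x₀, hx₀⟩ := Fixed.mem_range_of_fixed x hfix
    have hp3Q : p3 (WQ W) x₀ = 0 := by
      apply algebraMap_injective_KK
      rw [← p3_EE, hx₀, hp3, map_zero]
    obtain ⟨ht0, ht⟩ := inv3 (WQ W) hΔQ hp3Q
    refine ⟨(WQ W).Δ / dD (WQ W) x₀ ^ 2, ht0, ?_⟩
    rw [c₄_WQ, Δ_WQ] at ht
    rw [Δ_WQ]
    exact ht

/-! ### the invariant of a Galois-stable line in `E[5]` -/

/-- the invariant `Δ ψ₂¹² / ψ₃⁶` as a function of the `x`-coordinate -/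
noncomputable def sInv (x : KK) : KK := (EE W).Δ * dD (EE W) x ^ 6 / p3 (EE W) x ^ 6

lemma sInv_conj (σ : KK ≃ₐ[ℚ] KK) (x : KK) : σ (sInv W x) = sInv W (σ x) := by
  simp only [sInv, map_div₀, map_mul, map_pow, Δ_conj, dD_conj, p3_conj]

/-- the invariant takes the same value at `x(P)` and `x(2P)` -/
lemma sInv_eq_of_dbl {x₁ x₂ : KK} (hD₁ : dD (EE W) x₁ ≠ 0) (hD₂ : dD (EE W) x₂ ≠ 0)
    (h12 : x₁ ≠ x₂)
    (hx : x₂ * dD (EE W) x₁ = x₁ * dD (EE W) x₁ - p3 (EE W) x₁)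
    (hx' : x₁ * dD (EE W) x₂ = x₂ * dD (EE W) x₂ - p3 (EE W) x₂) :
    sInv W x₂ = sInv W x₁ := by
  have e1 : p3 (EE W) x₁ = (x₁ - x₂) * dD (EE W) x₁ := by linear_combination hx
  have e2 : p3 (EE W) x₂ = (x₂ - x₁) * dD (EE W) x₂ := by linear_combination hx'
  have hne : x₁ - x₂ ≠ 0 := sub_ne_zero.mpr h12
  have hne' : x₂ - x₁ ≠ 0 := sub_ne_zero.mpr (Ne.symm h12)
  simp only [sInv, e1, e2]
  field_simp
  ring

theorem exists_s (hΔ : W.Δ ≠ 0) (h : ¬ W.ModRepIsIrreducible 5) :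
    ∃ s : ℚ, s ≠ 0 ∧ (W.c₄ : ℚ) ^ 3 * s = (s ^ 2 + 10 * s + 5) ^ 3 * (W.Δ : ℚ) := by
  have hΔ' := Δ_EE_ne_zero W hΔ
  have h' : ¬ (Nontrivial (Submodule.torsionBy ℤ (EE W).Point (5 : ℕ)) ∧
      ∀ N : Submodule (ZMod 5) (Submodule.torsionBy ℤ (EE W).Point (5 : ℕ)),
        Affine.Point.IsGaloisStable ℚ N → N = ⊥ ∨ N = ⊤) := h
  rw [not_and] at h'
  have h'' := h' (nontrivial_torsion_five W hΔ)
  push Not at h''
  obtain ⟨N, hN, hN0, hN1⟩ := h''
  obtain ⟨hfin, hcard⟩ := card_torsion_five W hΔ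
  have := hfin
  have : Fact (Nat.Prime 5) := ⟨Nat.prime_five⟩
  obtain ⟨P, hPN, hP0, hgen⟩ := Line.exists_generator hcard N hN0 hN1
  obtain ⟨P, hPt⟩ := P
  cases P with
  | zero => exact absurd rfl hP0
  | some x₁ y₁ h₁ =>
    have hPt' := (mem_torsion_five W).mp hPt
    have hp5 : p5 (EE W) x₁ = 0 := (Doubling.five_torsion_iff hΔ' h₁).mp hPt'
    have h5 : (5 : ℕ) • (Point.some x₁ y₁ h₁ : (EE W).Point) = 0 := by
      have := (Submodule.mem_torsionBy_iff _ _).mp hPt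
      rwa [Nat.cast_smul_eq_nsmul] at this
    have hD₁ := dD_ne_zero_of_p5 (EE W) hΔ' hp5
    have hp3₁ := p3_ne_zero_of_p5 (EE W) hΔ' hp5
    have hq₁ := q4_ne_zero_of_p5 (EE W) hΔ' hp5
    obtain ⟨x₂, y₂, h₂, e2, hx⟩ := Doubling.add_self_of_dD_ne_zero h₁ hD₁
    have hD₂ : dD (EE W) x₂ ≠ 0 := by
      intro hD₂
      have := dD_dbl (EE W) hx
      rw [hD₂, zero_mul] at this
      exact hq₁ (pow_eq_zero_iff (two_ne_zero) |>.mp this.symm)
    obtain ⟨x₄, y₄, h₄, e4, hx'⟩ := Doubling.add_self_of_dD_ne_zero h₂ hD₂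
    have hx4 : x₄ = x₁ := by
      have := hPt'
      rw [e2, e4, Point.neg_some] at this
      injection this
    rw [hx4] at hx'
    have h12 : x₁ ≠ x₂ := by
      intro h12
      apply hp3₁
      rw [← h12] at hx
      linear_combination hx
    have hfix : ∀ σ : KK ≃ₐ[ℚ] KK, σ (sInv W x₁) = sInv W x₁ := by
      intro σ
      rw [sInv_conj]
      obtain ⟨k, hk⟩ := hgen _ (hN σ _ hPN)
      obtain ⟨hσ, hσe⟩ := smul_some W σ h₁
      have hk' : (Point.some (σ x₁) (σ y₁) hσ : (EE W).Point) = k • Point.some x₁ y₁ h₁ := by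
        rw [← hσe]
        exact congrArg Subtype.val hk
      rw [nsmul_eq_mod_nsmul h5 k] at hk'
      have hlt : k % 5 < 5 := Nat.mod_lt _ (by norm_num)
      have key : σ x₁ = x₁ ∨ σ x₁ = x₂ := by
        interval_cases (k % 5)
        · rw [zero_nsmul] at hk'
          exact absurd hk' (Point.some_ne_zero hσ)
        · rw [one_nsmul] at hk'
          left; injection hk'
        · rw [two_nsmul, e2] at hk'
          right; injection hk'
        · -- 3P = -(2P)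
          have e3 : (3 : ℕ) • (Point.some x₁ y₁ h₁ : (EE W).Point) = -Point.some x₂ y₂ h₂ := by
            rw [← e2]
            have : (3 : ℕ) • (Point.some x₁ y₁ h₁ : (EE W).Point)
                + (Point.some x₁ y₁ h₁ + Point.some x₁ y₁ h₁) = 0 := by
              rw [← h5, show (5 : ℕ) = 3 + 2 from rfl, add_smul, two_nsmul]
            exact eq_neg_of_add_eq_zero_left this
          rw [e3, Point.neg_some] at hk'
          right; injection hk'
        · -- 4P = -P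
          have e4' : (4 : ℕ) • (Point.some x₁ y₁ h₁ : (EE W).Point) = -Point.some x₁ y₁ h₁ := by
            have : (4 : ℕ) • (Point.some x₁ y₁ h₁ : (EE W).Point) + Point.some x₁ y₁ h₁ = 0 := by
              rw [← h5, show (5 : ℕ) = 4 + 1 from rfl, add_smul, one_smul]
            exact eq_neg_of_add_eq_zero_left this
          rw [e4', Point.neg_some] at hk'
          left; injection hk'
      rcases key with hk1 | hk2
      · rw [hk1]
      · rw [hk2]
        exact sInv_eq_of_dbl W hD₁ hD₂ h12 hx hx'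
    obtain ⟨s₀, hs₀⟩ := Fixed.mem_range_of_fixed (sInv W x₁) hfix
    obtain ⟨hs0, hs⟩ := inv5 (EE W) hΔ' hp5
    refine ⟨s₀, ?_, ?_⟩
    · rintro rfl
      apply hs0
      have : sInv W x₁ = 0 := by rw [← hs₀, map_zero]
      exact this
    · apply algebraMap_injective_KK
      have hs' : (EE W).c₄ ^ 3 * sInv W x₁
          = (sInv W x₁ ^ 2 + 10 * sInv W x₁ + 5) ^ 3 * (EE W).Δ := hs
      rw [← hs₀, c₄_EE, Δ_EE, c₄_WQ, Δ_WQ] at hs'
      simp only [map_mul, map_pow, map_add, map_ofNat]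
      exact hs'


/-! ### assembly -/

theorem result_of_descent
    (hD : ∀ x y : ℚ, y ^ 2 = x * (x + 9) * (x - 16) →
      x = 0 ∨ x = -9 ∨ x = 16 ∨ x = 36 ∨ x = -4)
    (W : WeierstrassCurve ℤ) (hΔ : W.Δ ≠ 0) (hW : W.IsSemistableModel) :
    W.ModRepIsIrreducible 3 ∨ W.ModRepIsIrreducible 5 := by
  by_contra hcon
  rw [not_or] at hcon
  obtain ⟨h3, h5⟩ := hcon
  obtain ⟨t, ht0, ht⟩ := exists_t W hΔ h3
  obtain ⟨s, hs0, hs⟩ := exists_s W hΔ h5
  have hΔQ : (W.Δ : ℚ) ≠ 0 := by exact_mod_cast hΔ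
  obtain ⟨j, hj⟩ : ∃ j : ℚ, j * (W.Δ : ℚ) = (W.c₄ : ℚ) ^ 3 := ⟨_, div_mul_cancel₀ _ hΔQ⟩
  have h3' : j * t = (t + 27) * (t + 3) ^ 3 := by
    apply mul_right_cancel₀ hΔQ
    linear_combination t * hj + ht
  have h5' : j * s = (s ^ 2 + 10 * s + 5) ^ 3 := by
    apply mul_right_cancel₀ hΔQ
    linear_combination s * hj + hs
  have hne := Arith.semistable_j_ne W hΔ hW j hj
  rcases X015.main hD j s t hs0 ht0 h3' h5' with h | h | h | h | h
  · exact hne.1 h
  · exact hne.2.1 h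
  · exact hne.2.2.1 h
  · exact hne.2.2.2.1 h
  · exact hne.2.2.2.2 h

end Fermat.Agent.S51.Main
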