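import Mathlib

/-!
# Points of order three on a Weierstrass curve

For a Weierstrass curve `W` over a field `F` we prove, by explicit computations with the group
law, that a nonzero point `P = (x, y)` satisfies `3 • P = 0` if and only if `x` is a root of the
`3`-division polynomial `ψ₃ = 3x⁴ + b₂x³ + 3b₄x² + 3b₆x + b₈`, that there are at most nine points
killed by `3`, that such a point exists over an algebraically closed field, and the identity
`c₄³ D⁶ = (Δ + 27 D²)(Δ + 3 D²)³` for `D = 4x³ + b₂x² + 2b₄x + b₆`.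
-/

set_option autoImplicit false

namespace Fermat.Agent.S51.Torsion3

open WeierstrassCurve WeierstrassCurve.Affine

variable {F : Type*} [Field F] (W : WeierstrassCurve F)

/-- The `3`-division polynomial, as a function. -/
def psi3 (x : F) : F := 3 * x ^ 4 + W.b₂ * x ^ 3 + 3 * W.b₄ * x ^ 2 + 3 * W.b₆ * x + W.b₈

/-- The square of the `2`-division polynomial, as a function. -/
def psi2sq (x : F) : F := 4 * x ^ 3 + W.b₂ * x ^ 2 + 2 * W.b₄ * x + W.b₆

theorem eval_Ψ₃ (x : F) : W.Ψ₃.eval x = psi3 W x := by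
  simp [Ψ₃, psi3]

theorem eval_Ψ₂Sq (x : F) : W.Ψ₂Sq.eval x = psi2sq W x := by
  simp [Ψ₂Sq, psi2sq]

theorem psi2sq_eq {x y : F} (h : W.toAffine.Equation x y) :
    psi2sq W x = (y - W.toAffine.negY x y) ^ 2 := by
  rw [equation_iff] at h
  simp only [psi2sq, negY, b₂, b₄, b₆]
  linear_combination (-4) * h

theorem psi2sq_ne_zero {x y : F} (h : W.toAffine.Equation x y) (hy : y ≠ W.toAffine.negY x y) :
    psi2sq W x ≠ 0 := by
  rw [psi2sq_eq W h]
  exact pow_ne_zero 2 (sub_ne_zero.mpr hy)

/-- The key identity relating the duplication formula and the `3`-division polynomial. -/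
theorem key_identity {x y : F} (h : W.toAffine.Equation x y) :
    (3 * x ^ 2 + 2 * W.a₂ * x + W.a₄ - W.a₁ * y) ^ 2 +
      W.a₁ * (3 * x ^ 2 + 2 * W.a₂ * x + W.a₄ - W.a₁ * y) * (y - W.toAffine.negY x y) -
      (W.a₂ + 3 * x) * (y - W.toAffine.negY x y) ^ 2 = -psi3 W x := by
  rw [equation_iff] at h
  simp only [psi3, negY, b₂, b₄, b₆, b₈]
  linear_combination (-(W.a₁ ^ 2 + 4 * W.a₂ + 12 * x)) * h

variable [DecidableEq F]

theorem addX_self_sub {x y : F} (h : W.toAffine.Equation x y) (hy : y ≠ W.toAffine.negY x y) :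
    W.toAffine.addX x x (W.toAffine.slope x x y y) - x =
      -psi3 W x / (y - W.toAffine.negY x y) ^ 2 := by
  have hd : y - W.toAffine.negY x y ≠ 0 := sub_ne_zero.mpr hy
  rw [slope_of_Y_ne rfl hy, ← key_identity W h, addX]
  field_simp
  ring

theorem addX_self_eq_iff {x y : F} (h : W.toAffine.Equation x y) (hy : y ≠ W.toAffine.negY x y) :
    W.toAffine.addX x x (W.toAffine.slope x x y y) = x ↔ psi3 W x = 0 := by
  have hd : (y - W.toAffine.negY x y) ^ 2 ≠ 0 := pow_ne_zero 2 (sub_ne_zero.mpr hy)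
  rw [← sub_eq_zero, addX_self_sub W h hy, div_eq_zero_iff, neg_eq_zero]
  constructor
  · rintro (h0 | h0)
    · exact h0
    · exact absurd h0 hd
  · exact fun h0 => Or.inl h0

/-- A nonzero point killed by `3` is not a `2`-torsion point and its `x`-coordinate is a root of
the `3`-division polynomial. -/
theorem psi3_eq_zero_of_three_nsmul {x y : F} (h : W.toAffine.Nonsingular x y)
    (h3 : 3 • (Point.some x y h) = 0) :
    psi3 W x = 0 ∧ y ≠ W.toAffine.negY x y := by
  rw [three_nsmul] at h3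
  have h2 : Point.some x y h + Point.some x y h = -Point.some x y h :=
    (neg_eq_of_add_eq_zero_right h3).symm
  by_cases hy : y = W.toAffine.negY x y
  · rw [Point.add_self_of_Y_eq hy] at h2
    have h4 : Point.some x y h = 0 := by
      rw [← neg_neg (Point.some x y h), ← h2, neg_zero]
    exact absurd h4 (Point.some_ne_zero h)
  · refine ⟨?_, hy⟩
    rw [Point.add_self_of_Y_ne hy, Point.neg_some, Point.some.injEq] at h2
    exact (addX_self_eq_iff W h.1 hy).mp h2.1

/-- If `x` is a root of the `3`-division polynomial then a point `(x, y)` of the curve is killed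
by `3`. -/
theorem three_nsmul_of_psi3_eq_zero {x y : F} (h : W.toAffine.Nonsingular x y)
    (h3 : psi3 W x = 0) : 3 • (Point.some x y h) = 0 := by
  have hy : y ≠ W.toAffine.negY x y := by
    intro hy
    have hk := key_identity W h.1
    rw [h3, ← hy, sub_self] at hk
    have hN : 3 * x ^ 2 + 2 * W.a₂ * x + W.a₄ - W.a₁ * y = 0 := by
      have : (3 * x ^ 2 + 2 * W.a₂ * x + W.a₄ - W.a₁ * y) ^ 2 = 0 := by
        linear_combination hk
      exact pow_eq_zero_iff (two_ne_zero) |>.mp this
    have hns := (nonsingular_iff x y).mp h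
    rcases hns.2 with h1 | h1
    · exact h1 (by linear_combination -hN)
    · apply h1
      simp only [negY] at hy
      exact hy
  have hx := (addX_self_eq_iff W h.1 hy).mpr h3
  rw [three_nsmul, Point.add_self_of_Y_ne hy]
  apply Point.add_of_Y_eq hx.symm
  -- the `y`-coordinate of `2P` is `y` or `negY`; it cannot be `y`
  have hns := nonsingular_add h h fun hxy => hy hxy.right
  rcases Y_eq_of_X_eq h.1 hns.1 hx.symm with h5 | h5
  · exfalso
    have h6 : Point.some x y h + Point.some x y h = Point.some x y h := by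
      rw [Point.add_self_of_Y_ne hy, Point.some.injEq]
      exact ⟨hx, h5.symm⟩
    have h7 : Point.some x y h = 0 := by
      have h8 := congrArg (fun P => P - Point.some x y h) h6
      simp only [add_sub_cancel_right, sub_self] at h8
      exact h8
    exact Point.some_ne_zero h h7
  · exact h5

omit [DecidableEq F] in
/-- The invariant identity for a root of the `3`-division polynomial. -/
theorem invariant_identity {x : F} (h3 : psi3 W x = 0) :
    W.c₄ ^ 3 * (psi2sq W x) ^ 6 =
      (W.Δ + 27 * (psi2sq W x) ^ 2) * (W.Δ + 3 * (psi2sq W x) ^ 2) ^ 3 := by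
  set B2 : F := W.b₂ + 12 * x with hB2
  set B4 : F := W.b₄ + W.b₂ * x + 6 * x ^ 2 with hB4
  set B6 : F := psi2sq W x with hB6
  have hrel : B2 * B6 = B4 ^ 2 := by
    have hb := W.b_relation
    simp only [psi3] at h3
    simp only [hB2, hB4, hB6, psi2sq]
    linear_combination 4 * h3 - hb
  have hc4 : W.c₄ = B2 ^ 2 - 24 * B4 := by
    simp only [hB2, hB4, c₄]
    ring
  have hΔ : W.Δ = -B2 ^ 2 * psi3 W x - 8 * B4 ^ 3 - 27 * B6 ^ 2 + 9 * B2 * B4 * B6 := by
    simp only [hB2, hB4, hB6, psi2sq, psi3, Δ, b₂, b₄, b₆, b₈]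
    ring
  have hΔ' : W.Δ = B4 ^ 3 - 27 * B6 ^ 2 := by
    rw [hΔ, h3]
    linear_combination 9 * B4 * hrel
  have hc : W.c₄ * B6 ^ 2 = B4 * (B4 ^ 3 - 24 * B6 ^ 2) := by
    rw [hc4]
    linear_combination (B2 * B6 + B4 ^ 2) * hrel
  have e1 : W.Δ + 27 * B6 ^ 2 = B4 ^ 3 := by rw [hΔ']; ring
  have e2 : W.Δ + 3 * B6 ^ 2 = B4 ^ 3 - 24 * B6 ^ 2 := by rw [hΔ']; ring
  rw [e1, e2]
  calc W.c₄ ^ 3 * B6 ^ 6 = (W.c₄ * B6 ^ 2) ^ 3 := by ring
    _ = (B4 * (B4 ^ 3 - 24 * B6 ^ 2)) ^ 3 := by rw [hc]
    _ = B4 ^ 3 * (B4 ^ 3 - 24 * B6 ^ 2) ^ 3 := by ring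

omit [DecidableEq F] in
/-- The invariant `t = Δ / D²` of a root of the `3`-division polynomial satisfies
`c₄³ t = Δ (t + 27) (t + 3)³`. -/
theorem invariant_identity' {x : F} (h3 : psi3 W x = 0) (hD : psi2sq W x ≠ 0) :
    W.c₄ ^ 3 * (W.Δ / (psi2sq W x) ^ 2) =
      W.Δ * ((W.Δ / (psi2sq W x) ^ 2 + 27) * (W.Δ / (psi2sq W x) ^ 2 + 3) ^ 3) := by
  have h := invariant_identity W h3
  field_simp
  linear_combination W.Δ * h

/-- Existence of a nonzero point killed by `3` over an algebraically closed field. -/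
theorem exists_three_torsion [IsAlgClosed F] (h3 : (3 : F) ≠ 0) (hΔ : W.Δ ≠ 0) :
    ∃ P : W.toAffine.Point, P ≠ 0 ∧ 3 • P = 0 := by
  have hdeg : W.Ψ₃.degree ≠ 0 := by
    rw [Polynomial.degree_eq_natDegree (W.Ψ₃_ne_zero h3), W.natDegree_Ψ₃ h3]
    norm_num
  obtain ⟨x, hx⟩ := IsAlgClosed.exists_root W.Ψ₃ hdeg
  rw [Polynomial.IsRoot.def, eval_Ψ₃] at hx
  obtain ⟨y, hy⟩ : ∃ y : F, W.toAffine.Equation x y := by
    let q : Polynomial F := Polynomial.X ^ 2 + Polynomial.C (W.a₁ * x + W.a₃) * Polynomial.X -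
      Polynomial.C (x ^ 3 + W.a₂ * x ^ 2 + W.a₄ * x + W.a₆)
    have hq : q.degree = 2 := by
      simp only [q]
      compute_degree!
    obtain ⟨y, hy⟩ := IsAlgClosed.exists_root q (by rw [hq]; norm_num)
    refine ⟨y, ?_⟩
    rw [equation_iff]
    simp only [q, Polynomial.IsRoot.def, Polynomial.eval_sub, Polynomial.eval_add,
      Polynomial.eval_pow, Polynomial.eval_X, Polynomial.eval_mul, Polynomial.eval_C] at hy
    linear_combination hy
  have hns : W.toAffine.Nonsingular x y := (equation_iff_nonsingular_of_Δ_ne_zero hΔ).mp hy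
  exact ⟨Point.some x y hns, Point.some_ne_zero hns, three_nsmul_of_psi3_eq_zero W hns hx⟩

/-- The points killed by `3` are contained in a finite set with at most nine elements. -/
theorem exists_finset_three_torsion (h3 : (3 : F) ≠ 0) :
    ∃ s : Finset W.toAffine.Point, s.card ≤ 9 ∧ ∀ P : W.toAffine.Point, 3 • P = 0 → P ∈ s := by
  classical
  let pt : F → W.toAffine.Point := fun x =>
    if h : ∃ y : F, W.toAffine.Nonsingular x y then Point.some x h.choose h.choose_spec else 0
  have hpt : ∀ {x y : F} (hns : W.toAffine.Nonsingular x y),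
      Point.some x y hns = pt x ∨ Point.some x y hns = -pt x := by
    intro x y hns
    have h : ∃ y : F, W.toAffine.Nonsingular x y := ⟨y, hns⟩
    simp only [pt, dif_pos h]
    exact (Point.X_eq_iff).mp rfl
  let R : Finset F := W.Ψ₃.roots.toFinset
  have hR : R.card ≤ 4 :=
    (Multiset.toFinset_card_le _).trans ((Polynomial.card_roots' _).trans W.natDegree_Ψ₃_le)
  refine ⟨insert 0 (R.image pt ∪ R.image (fun x => -pt x)), ?_, ?_⟩
  · calc (insert 0 (R.image pt ∪ R.image (fun x => -pt x))).card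
        ≤ (R.image pt ∪ R.image (fun x => -pt x)).card + 1 := Finset.card_insert_le _ _
      _ ≤ ((R.image pt).card + (R.image (fun x => -pt x)).card) + 1 :=
          Nat.add_le_add_right (Finset.card_union_le _ _) 1
      _ ≤ (R.card + R.card) + 1 :=
          Nat.add_le_add_right (Nat.add_le_add Finset.card_image_le Finset.card_image_le) 1
      _ ≤ 9 := by omega
  · rintro (_ | ⟨x, y, hns⟩) hP
    · exact Finset.mem_insert_self _ _
    · have hx : x ∈ R := by
        rw [Multiset.mem_toFinset, Polynomial.mem_roots (W.Ψ₃_ne_zero h3), Polynomial.IsRoot.def,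
          eval_Ψ₃]
        exact (psi3_eq_zero_of_three_nsmul W hns hP).1
      apply Finset.mem_insert_of_mem
      rcases hpt hns with h | h
      · exact Finset.mem_union_left _ (Finset.mem_image.mpr ⟨x, hx, h.symm⟩)
      · exact Finset.mem_union_right _ (Finset.mem_image.mpr ⟨x, hx, h.symm⟩)

/-- The set of points killed by `3` is finite. -/
theorem finite_three_torsion (h3 : (3 : F) ≠ 0) :
    {P : W.toAffine.Point | 3 • P = 0}.Finite := by
  obtain ⟨s, -, hs⟩ := exists_finset_three_torsion W h3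
  exact s.finite_toSet.subset fun P hP => hs P hP

/-- There are at most nine points killed by `3`. -/
theorem ncard_three_torsion_le (h3 : (3 : F) ≠ 0) :
    {P : W.toAffine.Point | 3 • P = 0}.ncard ≤ 9 := by
  obtain ⟨s, hcard, hs⟩ := exists_finset_three_torsion W h3
  calc {P : W.toAffine.Point | 3 • P = 0}.ncard ≤ (s : Set W.toAffine.Point).ncard :=
        Set.ncard_le_ncard (fun P hP => hs P hP) s.finite_toSet
    _ = s.card := Set.ncard_coe_finset s
    _ ≤ 9 := hcard

end Fermat.Agent.S51.Torsion3
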