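import Mathlib
import Fermat.Prelude.Def_FLTPrelim_GaloisRep
import Fermat.Prelude.Def_FLTPrelim_ModularRep
import Fermat.Agent.S51.Torsion3
import Fermat.Agent.S51.GalLine

/-!
# Reducibility of the mod `3` representation gives a rational point of `X₀(3)`

If the `3`-torsion of an elliptic curve over `ℚ` has a Galois-stable line, then there is a
rational number `t ≠ 0` with `c₄³ t = Δ (t + 27) (t + 3)³`.
-/

set_option autoImplicit false

namespace Fermat.Agent.S51.Torsion3Q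

open WeierstrassCurve WeierstrassCurve.Affine WeierstrassCurve.Affine.Point
open Fermat.Agent.S51

section Generic

universe r s v

variable {R : Type r} {S : Type s} {K : Type v} [CommRing R] [CommRing S] [Field K]
  [DecidableEq K] {W' : Affine R} [Algebra R S] [Algebra R K] [Algebra S K]
  [IsScalarTower R S K]

omit [DecidableEq K] in
theorem psi3_baseChange (x : R) :
    Torsion3.psi3 (W'.baseChange K) (algebraMap R K x) =
      algebraMap R K (3 * x ^ 4 + W'.b₂ * x ^ 3 + 3 * W'.b₄ * x ^ 2 + 3 * W'.b₆ * x + W'.b₈) := by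
  simp only [Torsion3.psi3, WeierstrassCurve.baseChange, map_b₂, map_b₄, map_b₆, map_b₈,
    map_add, map_mul, map_pow, map_ofNat]

omit [DecidableEq K] in
theorem psi2sq_baseChange (x : R) :
    Torsion3.psi2sq (W'.baseChange K) (algebraMap R K x) =
      algebraMap R K (4 * x ^ 3 + W'.b₂ * x ^ 2 + 2 * W'.b₄ * x + W'.b₆) := by
  simp only [Torsion3.psi2sq, WeierstrassCurve.baseChange, map_b₂, map_b₄, map_b₆,
    map_add, map_mul, map_pow, map_ofNat]

/-- A Galois-stable line in the `3`-torsion gives a root of the `3`-division polynomial in the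
base ring which is not a root of the `2`-division polynomial. -/
theorem exists_root_of_stable (h3 : (3 : K) ≠ 0)
    (hfix : ∀ x : K, (∀ σ : K ≃ₐ[S] K, σ x = x) → ∃ r : R, algebraMap R K r = x)
    (N : Submodule (ZMod 3) (Submodule.torsionBy ℤ (W'⁄K).Point ((3 : ℕ) : ℤ)))
    (hN : IsGaloisStable S N) (h0 : N ≠ ⊥) (h1 : N ≠ ⊤) :
    ∃ x : R, algebraMap R K (3 * x ^ 4 + W'.b₂ * x ^ 3 + 3 * W'.b₄ * x ^ 2 + 3 * W'.b₆ * x +
        W'.b₈) = 0 ∧
      algebraMap R K (4 * x ^ 3 + W'.b₂ * x ^ 2 + 2 * W'.b₄ * x + W'.b₆) ≠ 0 := by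
  have : Fact (Nat.Prime 3) := ⟨Nat.prime_three⟩
  obtain ⟨P, hP0, hP3, hσ⟩ := GalLine.exists_point_of_stable
    (Torsion3.finite_three_torsion (W'.baseChange K) h3)
    (lt_of_le_of_lt (Torsion3.ncard_three_torsion_le (W'.baseChange K) h3) (by norm_num))
    N hN h0 h1
  rcases P with _ | ⟨x, y, hns⟩
  · exact absurd rfl hP0
  obtain ⟨hpsi, hy⟩ := Torsion3.psi3_eq_zero_of_three_nsmul (W'.baseChange K) hns hP3
  have hfixed : ∀ σ : K ≃ₐ[S] K, σ x = x := by
    intro σ
    obtain ⟨m, hm0, hm3, hm⟩ := hσ σ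
    obtain ⟨h', hs⟩ := GalLine.galois_smul_some (W' := W') σ hns
    rw [hs] at hm
    have hm12 : m = 1 ∨ m = 2 := by omega
    rcases hm12 with rfl | rfl
    · rw [one_smul, Point.some.injEq] at hm
      exact hm.1
    · have h2 : (2 : ℕ) • (Point.some x y hns : (W'⁄K).Point) = -Point.some x y hns := by
        have h4 : (3 : ℕ) • (Point.some x y hns : (W'⁄K).Point) =
            2 • Point.some x y hns + Point.some x y hns := succ_nsmul _ 2
        rw [h4] at hP3
        exact eq_neg_of_add_eq_zero_left hP3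
      rw [h2, Point.neg_some, Point.some.injEq] at hm
      exact hm.1
  obtain ⟨r, hr⟩ := hfix x hfixed
  refine ⟨r, ?_, ?_⟩
  · rw [← psi3_baseChange (W' := W') (K := K), hr]
    exact hpsi
  · rw [← psi2sq_baseChange (W' := W') (K := K), hr]
    exact Torsion3.psi2sq_ne_zero (W'.baseChange K) hns.1 hy

end Generic

section Rat

theorem isGalois_algebraicClosure : IsGalois ℚ (AlgebraicClosure ℚ) := by
  have h1 : Algebra.IsAlgebraic ℚ (AlgebraicClosure ℚ) := AlgebraicClosure.isAlgebraic ℚ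
  have h2 : IsAlgClosure ℚ (AlgebraicClosure ℚ) := ⟨inferInstance, inferInstance⟩
  have h3 : Normal ℚ (AlgebraicClosure ℚ) := IsAlgClosure.normal ℚ _
  exact ⟨⟩

/-- An element of the algebraic closure of `ℚ` fixed by all automorphisms is rational. -/
theorem fixed_rational {A : Type*} [Field A] [Algebra ℚ A] [IsGalois ℚ A] (x : A)
    (h : ∀ σ : A ≃ₐ[ℚ] A, σ x = x) : ∃ r : ℚ, algebraMap ℚ A r = x := by
  have hx : x ∈ IntermediateField.fixedField (⊤ : Subgroup (A ≃ₐ[ℚ] A)) := by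
    rw [IntermediateField.mem_fixedField_iff]
    exact fun σ _ => h σ
  rw [InfiniteGalois.fixedField_bot, IntermediateField.mem_bot] at hx
  exact hx

/-- Either the mod `3` representation of an integral Weierstrass curve with nonzero discriminant
is irreducible, or there is a rational `t ≠ 0` with `c₄³ t = Δ (t + 27) (t + 3)³`. -/
theorem irreducible_or_exists_t (W : WeierstrassCurve ℤ) (hΔ : W.Δ ≠ 0) :
    W.ModRepIsIrreducible 3 ∨
      ∃ t : ℚ, t ≠ 0 ∧ (W.c₄ : ℚ) ^ 3 * t = (W.Δ : ℚ) * ((t + 27) * (t + 3) ^ 3) := by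
  set WQ : WeierstrassCurve ℚ := W.map (Int.castRingHom ℚ) with hWQ
  have hΔQ : WQ.Δ = (W.Δ : ℚ) := by rw [hWQ, map_Δ]; rfl
  have hc₄Q : WQ.c₄ = (W.c₄ : ℚ) := by rw [hWQ, map_c₄]; rfl
  have hΔQ0 : WQ.Δ ≠ 0 := by rw [hΔQ]; exact_mod_cast hΔ
  have h3 : (3 : AlgebraicClosure ℚ) ≠ 0 := by norm_num
  by_cases hex : ∃ N : Submodule (ZMod 3)
      (Submodule.torsionBy ℤ (WQ.toAffine⁄(AlgebraicClosure ℚ)).Point ((3 : ℕ) : ℤ)),
      IsGaloisStable ℚ N ∧ N ≠ ⊥ ∧ N ≠ ⊤
  · right
    obtain ⟨N, hN, h0, h1⟩ := hex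
    have hgal : IsGalois ℚ (AlgebraicClosure ℚ) := isGalois_algebraicClosure
    obtain ⟨x, hx3, hx2⟩ := exists_root_of_stable (W' := WQ.toAffine) h3
      (fun x hx => fixed_rational x hx) N hN h0 h1
    have hx3' : Torsion3.psi3 WQ x = 0 := by
      have hinj := (algebraMap ℚ (AlgebraicClosure ℚ)).injective
      apply hinj
      rw [_root_.map_zero]
      exact hx3
    have hx2' : Torsion3.psi2sq WQ x ≠ 0 := by
      intro h
      apply hx2
      have : (4 * x ^ 3 + WQ.b₂ * x ^ 2 + 2 * WQ.b₄ * x + WQ.b₆ : ℚ) = 0 := h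
      rw [this, _root_.map_zero]
    refine ⟨WQ.Δ / (Torsion3.psi2sq WQ x) ^ 2, div_ne_zero hΔQ0 (pow_ne_zero 2 hx2'), ?_⟩
    have := Torsion3.invariant_identity' WQ hx3' hx2'
    rw [hc₄Q, hΔQ] at this
    rw [hΔQ]
    exact this
  · left
    refine ⟨?_, fun N hN => ?_⟩
    · have hΔK : (WQ.baseChange (AlgebraicClosure ℚ)).Δ ≠ 0 := by
        rw [WeierstrassCurve.baseChange, map_Δ]
        exact (map_ne_zero _).mpr hΔQ0
      obtain ⟨P, hP0, hP3⟩ := Torsion3.exists_three_torsion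
        (WQ.baseChange (AlgebraicClosure ℚ)) h3 hΔK
      refine ⟨⟨⟨P, (GalLine.mem_torsionBy_iff_nsmul 3 P).mpr hP3⟩, 0, ?_⟩⟩
      intro h
      exact hP0 (congrArg Subtype.val h)
    · by_contra hcon
      rw [not_or] at hcon
      exact hex ⟨N, hN, hcon.1, hcon.2⟩

end Rat

end Fermat.Agent.S51.Torsion3Q
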