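import Mathlib
import Fermat.Agent.S51.PointMap
import Fermat.Agent.S51.Torsion3

/-!
# Points of order five on a Weierstrass curve

For a Weierstrass curve `W` over a field `F` and a nonzero point `P` with `5 • P = 0` we prove,
by reduction to the normal form `y² + a₁xy + a₃y = x³ + a₂x²` (in which `P = (0, 0)`), the identity
`c₄ D¹⁰ = Δ² + 10 Δ D⁶ + 5 D¹²` for `D = x(2P) - x(P)`.  We deduce that there are less than `125`
points killed by `5`, and we prove that a nonzero point killed by `5` exists over an algebraically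
closed field of characteristic zero.
-/

set_option autoImplicit false

namespace Fermat.Agent.S51.Torsion5

open WeierstrassCurve WeierstrassCurve.Affine
open Fermat.Agent.S51

variable {F : Type*} [Field F] (W : WeierstrassCurve F)

section NormalForm

/-- The relation expressing that `(0, 0)` has order five on `y² + a₁xy + a₃y = x³ + a₂x²`. -/
def rel5 : F := W.a₃ ^ 2 - W.a₁ * W.a₂ * W.a₃ + W.a₂ ^ 3

/-- The invariant identity in normal form. -/
theorem nf_invariant (h4 : W.a₄ = 0) (h6 : W.a₆ = 0) (hr : rel5 W = 0) :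
    W.c₄ * W.a₂ ^ 10 = W.Δ ^ 2 + 10 * W.Δ * W.a₂ ^ 6 + 5 * W.a₂ ^ 12 := by
  simp only [rel5] at hr
  simp only [c₄, Δ, b₂, b₄, b₆, b₈, h4, h6]
  linear_combination (W.a₁ ^ 7 * W.a₂ * W.a₃ ^ 3 + W.a₁ ^ 6 * W.a₂ ^ 3 * W.a₃ ^ 2 -
    W.a₁ ^ 6 * W.a₃ ^ 4 + W.a₁ ^ 5 * W.a₂ ^ 5 * W.a₃ + 16 * W.a₁ ^ 5 * W.a₂ ^ 2 * W.a₃ ^ 3 +
    W.a₁ ^ 4 * W.a₂ ^ 7 + 17 * W.a₁ ^ 4 * W.a₂ ^ 4 * W.a₃ ^ 2 - 72 * W.a₁ ^ 4 * W.a₂ * W.a₃ ^ 4 +
    8 * W.a₁ ^ 3 * W.a₂ ^ 6 * W.a₃ + 41 * W.a₁ ^ 3 * W.a₂ ^ 3 * W.a₃ ^ 3 +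
    54 * W.a₁ ^ 3 * W.a₃ ^ 5 + 8 * W.a₁ ^ 2 * W.a₂ ^ 8 + 59 * W.a₁ ^ 2 * W.a₂ ^ 5 * W.a₃ ^ 2 -
    513 * W.a₁ ^ 2 * W.a₂ ^ 2 * W.a₃ ^ 4 - 13 * W.a₁ * W.a₂ ^ 7 * W.a₃ -
    198 * W.a₁ * W.a₂ ^ 4 * W.a₃ ^ 3 + 1215 * W.a₁ * W.a₂ * W.a₃ ^ 5 + 11 * W.a₂ ^ 9 +
    149 * W.a₂ ^ 6 * W.a₃ ^ 2 - 135 * W.a₂ ^ 3 * W.a₃ ^ 4 - 729 * W.a₃ ^ 6) * hr

variable [DecidableEq F]

omit [DecidableEq F] in
/-- Two points with equal coordinates are equal. -/
theorem some_congr {x y x' y' : F} (h : W.toAffine.Nonsingular x y)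
    (h' : W.toAffine.Nonsingular x' y') (hx : x = x') (hy : y = y') :
    (Point.some x y h : W.toAffine.Point) = Point.some x' y' h' := by
  subst hx
  subst hy
  rfl

/-- The double of `(0, 0)` in normal form. -/
theorem nf_double (h4 : W.a₄ = 0) (h3 : W.a₃ ≠ 0) (h0 : W.toAffine.Nonsingular 0 0) :
    ∃ h2 : W.toAffine.Nonsingular (-W.a₂) (W.a₁ * W.a₂ - W.a₃),
      (Point.some 0 0 h0 : W.toAffine.Point) + Point.some 0 0 h0 = Point.some _ _ h2 := by
  have hneg : W.toAffine.negY 0 0 = -W.a₃ := by simp [negY]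
  have hy : (0 : F) ≠ W.toAffine.negY 0 0 := by
    rw [hneg]
    exact fun h => h3 (neg_eq_zero.mp h.symm)
  have hs : W.toAffine.slope 0 0 0 0 = 0 := by
    rw [slope_of_Y_ne rfl hy, hneg]
    simp [h4]
  have hx : W.toAffine.addX 0 0 (W.toAffine.slope 0 0 0 0) = -W.a₂ := by
    rw [hs]
    simp [addX]
  have hy2 : W.toAffine.addY 0 0 0 (W.toAffine.slope 0 0 0 0) = W.a₁ * W.a₂ - W.a₃ := by
    rw [hs]
    simp [addY, negAddY, negY, addX]
  have hns := nonsingular_add h0 h0 fun hxy => hy hxy.right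
  have h2 : W.toAffine.Nonsingular (-W.a₂) (W.a₁ * W.a₂ - W.a₃) := by
    rw [← hx, ← hy2]
    exact hns
  refine ⟨h2, ?_⟩
  rw [Point.add_self_of_Y_ne hy]
  exact some_congr W _ _ hx hy2

theorem five_nsmul_eq (P : W.toAffine.Point) : 5 • P = P + (P + P) + (P + P) := by
  abel

/-- The `x`-coordinate of `P + 2P` in normal form, for `P = (0, 0)`. -/
theorem nf_addX (h2 : W.a₂ ≠ 0) :
    W.toAffine.addX 0 (-W.a₂) (W.toAffine.slope 0 (-W.a₂) 0 (W.a₁ * W.a₂ - W.a₃)) + W.a₂ =
      rel5 W / W.a₂ ^ 2 := by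
  have hx : (0 : F) ≠ -W.a₂ := fun h => h2 (neg_eq_zero.mp h.symm)
  rw [slope_of_X_ne hx, addX, rel5]
  field_simp
  ring

/-- If `(0, 0)` is killed by `5` on a curve in normal form, then `a₂ ≠ 0` and the relation
`a₃² - a₁a₂a₃ + a₂³ = 0` holds. -/
theorem nf_rel5_of_five_nsmul (h4 : W.a₄ = 0) (h3 : W.a₃ ≠ 0)
    (h0 : W.toAffine.Nonsingular 0 0) (h5 : 5 • (Point.some 0 0 h0 : W.toAffine.Point) = 0) :
    W.a₂ ≠ 0 ∧ rel5 W = 0 := by
  obtain ⟨hq, hPP⟩ := nf_double W h4 h3 h0
  rw [five_nsmul_eq, hPP] at h5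
  have hPQ : (Point.some 0 0 h0 : W.toAffine.Point) + Point.some _ _ hq = -Point.some _ _ hq :=
    eq_neg_of_add_eq_zero_left h5
  have h2 : W.a₂ ≠ 0 := by
    intro h2
    have hQ : (Point.some _ _ hq : W.toAffine.Point) = -Point.some 0 0 h0 := by
      rw [Point.neg_some]
      apply some_congr
      · rw [h2, neg_zero]
      · rw [h2]
        simp [negY]
    rw [hQ, add_neg_cancel, neg_neg] at hPQ
    exact Point.some_ne_zero h0 hPQ.symm
  refine ⟨h2, ?_⟩
  have hx : (0 : F) ≠ -W.a₂ := fun h => h2 (neg_eq_zero.mp h.symm)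
  rw [Point.add_of_X_ne hx, Point.neg_some, Point.some.injEq] at hPQ
  have h7 := nf_addX W h2
  rw [hPQ.1, neg_add_cancel] at h7
  have h8 : rel5 W / W.a₂ ^ 2 = 0 := h7.symm
  rcases div_eq_zero_iff.mp h8 with h | h
  · exact h
  · exact absurd h (pow_ne_zero 2 h2)

/-- Conversely, the relation `a₃² - a₁a₂a₃ + a₂³ = 0` implies that `(0, 0)` is killed by `5`. -/
theorem nf_five_nsmul_of_rel5 (h4 : W.a₄ = 0) (h3 : W.a₃ ≠ 0)
    (h0 : W.toAffine.Nonsingular 0 0) (hr : rel5 W = 0) :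
    5 • (Point.some 0 0 h0 : W.toAffine.Point) = 0 := by
  obtain ⟨hq, hPP⟩ := nf_double W h4 h3 h0
  rw [five_nsmul_eq, hPP]
  have h2 : W.a₂ ≠ 0 := by
    intro h2
    simp only [rel5, h2] at hr
    apply h3
    have : W.a₃ ^ 2 = 0 := by linear_combination hr
    exact pow_eq_zero_iff (two_ne_zero) |>.mp this
  have hx : (0 : F) ≠ -W.a₂ := fun h => h2 (neg_eq_zero.mp h.symm)
  have h7 := nf_addX W h2
  rw [hr, zero_div] at h7
  have hX : W.toAffine.addX 0 (-W.a₂) (W.toAffine.slope 0 (-W.a₂) 0 (W.a₁ * W.a₂ - W.a₃)) =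
      -W.a₂ := by linear_combination h7
  have hns := nonsingular_add h0 hq fun hxy => hx hxy.left
  have hPQ : (Point.some 0 0 h0 : W.toAffine.Point) + Point.some _ _ hq = -Point.some _ _ hq := by
    rw [Point.add_of_X_ne hx, Point.neg_some]
    rcases Y_eq_of_X_eq hns.1 hq.1 hX with h5 | h5
    · exfalso
      have h6 : (Point.some 0 0 h0 : W.toAffine.Point) + Point.some _ _ hq = Point.some _ _ hq := by
        rw [Point.add_of_X_ne hx]
        exact some_congr W _ _ hX h5
      have h8 : (Point.some 0 0 h0 : W.toAffine.Point) = 0 := by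
        have h9 := congrArg (fun P => P - Point.some _ _ hq) h6
        simp only [add_sub_cancel_right, sub_self] at h9
        exact h9
      exact Point.some_ne_zero h0 h8
    · exact some_congr W _ _ hX h5
  rw [hPQ, neg_add_cancel]

end NormalForm

section General

variable [DecidableEq F]

/-- The difference `x(2P) - x(P)` for `P = (x, y)`. -/
noncomputable def dbl (x y : F) : F := W.toAffine.addX x x (W.toAffine.slope x x y y) - x

/-- The change of variables moving `(x, y)` to `(0, 0)` and its tangent to the line `y = 0`. -/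
noncomputable def toNF (x y : F) : VariableChange F := ⟨1, x, W.toAffine.slope x x y y, y⟩

theorem y_ne_negY_of_five_nsmul {x y : F} (h : W.toAffine.Nonsingular x y)
    (h5 : 5 • (Point.some x y h : W.toAffine.Point) = 0) : y ≠ W.toAffine.negY x y := by
  intro hy
  rw [five_nsmul_eq, Point.add_self_of_Y_eq hy, add_zero, add_zero] at h5
  exact Point.some_ne_zero h h5

theorem toNF_a₆ {x y : F} (h : W.toAffine.Equation x y) : (toNF W x y • W).a₆ = 0 := by
  rw [equation_iff] at h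
  simp only [variableChange_a₆, toNF, inv_one, Units.val_one, one_pow, one_mul]
  linear_combination -h

theorem toNF_a₃ (x y : F) : (toNF W x y • W).a₃ = y - W.toAffine.negY x y := by
  simp only [variableChange_a₃, toNF, inv_one, Units.val_one, one_pow, one_mul, negY]
  ring

theorem toNF_a₄ {x y : F} (hy : y ≠ W.toAffine.negY x y) : (toNF W x y • W).a₄ = 0 := by
  have hd : y - W.toAffine.negY x y ≠ 0 := sub_ne_zero.mpr hy
  have hM : y - W.toAffine.negY x y = 2 * y + W.a₁ * x + W.a₃ := by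
    simp only [negY]
    ring
  have key : ∀ s : F, W.a₄ - s * W.a₃ + 2 * x * W.a₂ - (y + x * s) * W.a₁ + 3 * x ^ 2 -
      2 * s * y = (3 * x ^ 2 + 2 * W.a₂ * x + W.a₄ - W.a₁ * y) -
        s * (2 * y + W.a₁ * x + W.a₃) := by
    intro s
    ring
  simp only [variableChange_a₄, toNF, inv_one, Units.val_one, one_pow, one_mul]
  rw [key, slope_of_Y_ne rfl hy, ← hM, div_mul_cancel₀ _ hd, sub_self]

theorem toNF_a₂ (x y : F) : (toNF W x y • W).a₂ = -dbl W x y := by
  simp only [variableChange_a₂, toNF, inv_one, Units.val_one, one_pow, one_mul, dbl, addX]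
  ring

theorem toNF_c₄ (x y : F) : (toNF W x y • W).c₄ = W.c₄ := by
  simp only [variableChange_c₄, toNF, inv_one, Units.val_one, one_pow, one_mul]

theorem toNF_Δ (x y : F) : (toNF W x y • W).Δ = W.Δ := by
  simp only [variableChange_Δ, toNF, inv_one, Units.val_one, one_pow, one_mul]

theorem toNF_vcX (x y : F) : PointMap.vcX (toNF W x y) 0 = x := by
  simp [PointMap.vcX, toNF]

theorem toNF_vcY (x y : F) : PointMap.vcY (toNF W x y) 0 0 = y := by
  simp [PointMap.vcY, toNF]

theorem toNF_nonsingular {x y : F} (h : W.toAffine.Nonsingular x y) :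
    (toNF W x y • W).toAffine.Nonsingular 0 0 := by
  rw [PointMap.nonsingular_vc, toNF_vcX, toNF_vcY]
  exact h

theorem toNF_pointEquiv {x y : F} (h : W.toAffine.Nonsingular x y) :
    PointMap.pointEquiv W (toNF W x y) (Point.some 0 0 (toNF_nonsingular W h)) =
      Point.some x y h := by
  rw [PointMap.pointEquiv_some]
  exact some_congr W _ _ (toNF_vcX W x y) (toNF_vcY W x y)

/-- The invariant identity for a point killed by `5`. -/
theorem five_torsion_invariant {x y : F} (h : W.toAffine.Nonsingular x y)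
    (h5 : 5 • (Point.some x y h : W.toAffine.Point) = 0) :
    dbl W x y ≠ 0 ∧
      W.c₄ * (dbl W x y) ^ 10 = W.Δ ^ 2 + 10 * W.Δ * (dbl W x y) ^ 6 + 5 * (dbl W x y) ^ 12 := by
  have hy := y_ne_negY_of_five_nsmul W h h5
  have h5' : 5 • (Point.some 0 0 (toNF_nonsingular W h) : (toNF W x y • W).toAffine.Point) = 0 := by
    rw [← PointMap.pointEquiv_nsmul_eq_zero_iff W (toNF W x y), toNF_pointEquiv]
    exact h5
  have h3' : (toNF W x y • W).a₃ ≠ 0 := by
    rw [toNF_a₃]
    exact sub_ne_zero.mpr hy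
  obtain ⟨h2, hr⟩ := nf_rel5_of_five_nsmul (toNF W x y • W) (toNF_a₄ W hy) h3'
    (toNF_nonsingular W h) h5'
  have hinv := nf_invariant (toNF W x y • W) (toNF_a₄ W hy) (toNF_a₆ W h.1) hr
  rw [toNF_a₂] at h2
  rw [toNF_a₂, toNF_c₄, toNF_Δ] at hinv
  refine ⟨neg_ne_zero.mp h2, ?_⟩
  linear_combination hinv

/-- The difference `x(2P) - x(P)` in terms of division polynomials. -/
theorem dbl_eq {x y : F} (h : W.toAffine.Equation x y) (hy : y ≠ W.toAffine.negY x y) :
    dbl W x y = -Torsion3.psi3 W x / Torsion3.psi2sq W x := by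
  rw [dbl, Torsion3.addX_self_sub W h hy, Torsion3.psi2sq_eq W h]

end General

section Count

open Polynomial

variable [DecidableEq F]

/-- If the `x`-coordinates of the nonzero points of a set `T` are roots of a nonzero polynomial
`G`, then `T` is contained in a finite set with at most `2 deg G + 1` elements. -/
theorem exists_finset_of_isRoot (G : F[X]) (hG : G ≠ 0) (T : Set W.toAffine.Point)
    (hT : ∀ (x y : F) (h : W.toAffine.Nonsingular x y), Point.some x y h ∈ T → G.IsRoot x) :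
    ∃ s : Finset W.toAffine.Point, s.card ≤ 2 * G.natDegree + 1 ∧ ∀ P ∈ T, P ∈ s := by
  classical
  let pt : F → W.toAffine.Point := fun x =>
    if h : ∃ y : F, W.toAffine.Nonsingular x y then Point.some x h.choose h.choose_spec else 0
  have hpt : ∀ {x y : F} (hns : W.toAffine.Nonsingular x y),
      Point.some x y hns = pt x ∨ Point.some x y hns = -pt x := by
    intro x y hns
    have h : ∃ y : F, W.toAffine.Nonsingular x y := ⟨y, hns⟩
    simp only [pt, dif_pos h]
    exact (Point.X_eq_iff).mp rfl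
  let R : Finset F := G.roots.toFinset
  have hR : R.card ≤ G.natDegree :=
    (Multiset.toFinset_card_le _).trans (Polynomial.card_roots' _)
  refine ⟨insert 0 (R.image pt ∪ R.image (fun x => -pt x)), ?_, ?_⟩
  · calc (insert 0 (R.image pt ∪ R.image (fun x => -pt x))).card
        ≤ (R.image pt ∪ R.image (fun x => -pt x)).card + 1 := Finset.card_insert_le _ _
      _ ≤ ((R.image pt).card + (R.image (fun x => -pt x)).card) + 1 :=
          Nat.add_le_add_right (Finset.card_union_le _ _) 1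
      _ ≤ (R.card + R.card) + 1 :=
          Nat.add_le_add_right (Nat.add_le_add Finset.card_image_le Finset.card_image_le) 1
      _ ≤ 2 * G.natDegree + 1 := by omega
  · rintro (_ | ⟨x, y, hns⟩) hP
    · exact Finset.mem_insert_self _ _
    · have hx : x ∈ R := by
        rw [Multiset.mem_toFinset, Polynomial.mem_roots hG]
        exact hT x y hns hP
      apply Finset.mem_insert_of_mem
      rcases hpt hns with h | h
      · exact Finset.mem_union_left _ (Finset.mem_image.mpr ⟨x, hx, h.symm⟩)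
      · exact Finset.mem_union_right _ (Finset.mem_image.mpr ⟨x, hx, h.symm⟩)

/-- A polynomial of degree `48` vanishing at the `x`-coordinates of the points of order `5`. -/
noncomputable def G5 : F[X] :=
  5 * W.Ψ₃ ^ 12 + 10 * C W.Δ * W.Ψ₃ ^ 6 * W.Ψ₂Sq ^ 6 + C (W.Δ ^ 2) * W.Ψ₂Sq ^ 12 -
    C W.c₄ * W.Ψ₃ ^ 10 * W.Ψ₂Sq ^ 2

omit [DecidableEq F] in
theorem natDegree_G5 [CharZero F] : (G5 W).natDegree = 48 := by
  unfold G5 Ψ₃ Ψ₂Sq
  compute_degree!

omit [DecidableEq F] in
theorem G5_ne_zero [CharZero F] : G5 W ≠ 0 := by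
  apply ne_zero_of_natDegree_gt (n := 0)
  rw [natDegree_G5]
  norm_num

theorem G5_isRoot {x y : F} (h : W.toAffine.Nonsingular x y)
    (h5 : 5 • (Point.some x y h : W.toAffine.Point) = 0) : (G5 W).IsRoot x := by
  have hy := y_ne_negY_of_five_nsmul W h h5
  obtain ⟨-, hinv⟩ := five_torsion_invariant W h h5
  rw [dbl_eq W h.1 hy] at hinv
  have hp2 : Torsion3.psi2sq W x ≠ 0 := Torsion3.psi2sq_ne_zero W h.1 hy
  rw [IsRoot.def]
  simp only [G5, eval_sub, eval_add, eval_mul, eval_pow, eval_C, eval_ofNat,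
    Torsion3.eval_Ψ₃, Torsion3.eval_Ψ₂Sq]
  field_simp at hinv
  linear_combination -hinv

/-- The points killed by `5` are contained in a finite set with at most `97` elements. -/
theorem exists_finset_five_torsion [CharZero F] :
    ∃ s : Finset W.toAffine.Point, s.card ≤ 97 ∧ ∀ P : W.toAffine.Point, 5 • P = 0 → P ∈ s := by
  obtain ⟨s, hs, hmem⟩ := exists_finset_of_isRoot W (G5 W) (G5_ne_zero W)
    {P : W.toAffine.Point | 5 • P = 0} (fun x y h hP => G5_isRoot W h hP)
  rw [natDegree_G5] at hs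
  exact ⟨s, hs, fun P hP => hmem P hP⟩

/-- The set of points killed by `5` is finite. -/
theorem finite_five_torsion [CharZero F] : {P : W.toAffine.Point | 5 • P = 0}.Finite := by
  obtain ⟨s, -, hs⟩ := exists_finset_five_torsion W
  exact s.finite_toSet.subset fun P hP => hs P hP

/-- There are at most `97` points killed by `5`. -/
theorem ncard_five_torsion_le [CharZero F] : {P : W.toAffine.Point | 5 • P = 0}.ncard ≤ 97 := by
  obtain ⟨s, hcard, hs⟩ := exists_finset_five_torsion W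
  calc {P : W.toAffine.Point | 5 • P = 0}.ncard ≤ (s : Set W.toAffine.Point).ncard :=
        Set.ncard_le_ncard (fun P hP => hs P hP) s.finite_toSet
    _ = s.card := Set.ncard_coe_finset s
    _ ≤ 97 := hcard

end Count

section Points

variable [DecidableEq F]

/-- The `x`-coordinate of a point (`0` for the point at infinity). -/
def xc : W.toAffine.Point → F
  | .zero => 0
  | .some x _ _ => x

omit [DecidableEq F] in
theorem xc_some {x y : F} (h : W.toAffine.Nonsingular x y) : xc W (Point.some x y h) = x := rfl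

omit [DecidableEq F] in
theorem xc_neg (P : W.toAffine.Point) : xc W (-P) = xc W P := by
  rcases P with _ | ⟨x, y, h⟩
  · rfl
  · rfl

/-- The difference `x(2P) - x(P)`. -/
def dd (P : W.toAffine.Point) : F := xc W (2 • P) - xc W P

theorem dd_neg (P : W.toAffine.Point) : dd W (-P) = dd W P := by
  rw [dd, dd, smul_neg, xc_neg, xc_neg]

theorem dd_some {x y : F} (h : W.toAffine.Nonsingular x y) (hy : y ≠ W.toAffine.negY x y) :
    dd W (Point.some x y h) = dbl W x y := by
  rw [dd, two_nsmul, Point.add_self_of_Y_ne hy, xc_some, xc_some, dbl]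

theorem dd_two_nsmul {P : W.toAffine.Point} (h5 : 5 • P = 0) : dd W (2 • P) = -dd W P := by
  have h4 : (2 • (2 • P) : W.toAffine.Point) = -P := by
    have : (2 • (2 • P) : W.toAffine.Point) + P = 5 • P := by
      rw [← mul_nsmul, ← succ_nsmul]
    rw [h5] at this
    exact eq_neg_of_add_eq_zero_left this
  rw [dd, h4, xc_neg, dd]
  ring

/-- The square of `x(2Q) - x(Q)` is the same for all nonzero multiples `Q` of a point killed
by `5`. -/
theorem dd_nsmul_sq {P : W.toAffine.Point} (h5 : 5 • P = 0) {m : ℕ} (hm : 0 < m) (hm5 : m < 5) :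
    dd W (m • P) ^ 2 = dd W P ^ 2 := by
  have h3 : (3 • P : W.toAffine.Point) = -((2 • P : W.toAffine.Point)) := by
    have : (3 • P : W.toAffine.Point) + 2 • P = 5 • P := by
      rw [← add_nsmul]
    rw [h5] at this
    exact eq_neg_of_add_eq_zero_left this
  have h4 : (4 • P : W.toAffine.Point) = -P := by
    have : (4 • P : W.toAffine.Point) + P = 5 • P := by
      rw [← succ_nsmul]
    rw [h5] at this
    exact eq_neg_of_add_eq_zero_left this
  have hcases : m = 1 ∨ m = 2 ∨ m = 3 ∨ m = 4 := by omega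
  rcases hcases with rfl | rfl | rfl | rfl
  · rw [one_nsmul]
  · rw [dd_two_nsmul W h5, neg_sq]
  · rw [h3, dd_neg, dd_two_nsmul W h5, neg_sq]
  · rw [h4, dd_neg]

/-- The invariant identity for a nonzero point killed by `5`. -/
theorem dd_invariant {P : W.toAffine.Point} (hP : P ≠ 0) (h5 : 5 • P = 0) :
    dd W P ≠ 0 ∧
      W.c₄ * (dd W P) ^ 10 = W.Δ ^ 2 + 10 * W.Δ * (dd W P) ^ 6 + 5 * (dd W P) ^ 12 := by
  rcases P with _ | ⟨x, y, h⟩
  · exact absurd rfl hP
  · rw [dd_some W h (y_ne_negY_of_five_nsmul W h h5)]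
    exact five_torsion_invariant W h h5

end Points

section Existence

variable [DecidableEq F]

/-- The Tate normal form of a curve with a point of order five. -/
def tate (τ : F) : WeierstrassCurve F := ⟨1 - τ, -τ, -τ, 0, 0⟩

omit [DecidableEq F] in
theorem tate_Δ (τ : F) : (tate τ).Δ = τ ^ 5 * (τ ^ 2 - 11 * τ - 1) := by
  simp only [tate, Δ, b₂, b₄, b₆, b₈]
  ring

omit [DecidableEq F] in
theorem tate_c₄ (τ : F) : (tate τ).c₄ = τ ^ 4 - 12 * τ ^ 3 + 14 * τ ^ 2 + 12 * τ + 1 := by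
  simp only [tate, c₄, b₂, b₄]
  ring

omit [DecidableEq F] in
theorem tate_rel5 (τ : F) : rel5 (tate τ) = 0 := by
  simp only [tate, rel5]
  ring

omit [DecidableEq F] in
theorem tate_nonsingular {τ : F} (hτ : τ ≠ 0) : (tate τ).toAffine.Nonsingular 0 0 := by
  rw [nonsingular_iff, equation_iff]
  refine ⟨by simp [tate], Or.inr ?_⟩
  simp only [tate, mul_zero, sub_zero, neg_zero, zero_sub, neg_neg]
  exact hτ.symm

theorem tate_five_nsmul {τ : F} (hτ : τ ≠ 0) :
    5 • (Point.some 0 0 (tate_nonsingular hτ) : (tate τ).toAffine.Point) = 0 :=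
  nf_five_nsmul_of_rel5 (tate τ) rfl (neg_ne_zero.mpr hτ) (tate_nonsingular hτ) (tate_rel5 τ)

omit [DecidableEq F] in
/-- Every `j`-invariant is the `j`-invariant of a Tate normal form. -/
theorem exists_tate [IsAlgClosed F] [CharZero F] (j₀ : F) :
    ∃ τ : F, τ ≠ 0 ∧ (tate τ).Δ ≠ 0 ∧ (tate τ).c₄ ^ 3 = j₀ * (tate τ).Δ := by
  open Polynomial in
  let q : F[X] := (X ^ 4 - 12 * X ^ 3 + 14 * X ^ 2 + 12 * X + 1) ^ 3 -
    C j₀ * (X ^ 5 * (X ^ 2 - 11 * X - 1))
  have hq : q.natDegree = 12 := by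
    simp only [q]
    compute_degree!
  have hq0 : q ≠ 0 := by
    apply Polynomial.ne_zero_of_natDegree_gt (n := 0)
    rw [hq]
    norm_num
  have hdeg : q.degree ≠ 0 := by
    rw [Polynomial.degree_eq_natDegree hq0, hq]
    norm_num
  obtain ⟨τ, hτ⟩ := IsAlgClosed.exists_root q hdeg
  simp only [q, Polynomial.IsRoot.def, Polynomial.eval_sub, Polynomial.eval_add,
    Polynomial.eval_pow, Polynomial.eval_X, Polynomial.eval_mul, Polynomial.eval_C,
    Polynomial.eval_ofNat, Polynomial.eval_one] at hτ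
  have hτ0 : τ ≠ 0 := by
    rintro rfl
    norm_num at hτ
  have hΔ : τ ^ 2 - 11 * τ - 1 ≠ 0 := by
    intro h
    have hc : (τ ^ 4 - 12 * τ ^ 3 + 14 * τ ^ 2 + 12 * τ + 1) ^ 3 = 0 := by
      linear_combination hτ + j₀ * τ ^ 5 * h
    have hc' : τ ^ 4 - 12 * τ ^ 3 + 14 * τ ^ 2 + 12 * τ + 1 = 0 :=
      pow_eq_zero_iff (three_ne_zero) |>.mp hc
    have h5 : (5 : F) * (11 * τ + 1) = 0 := by
      linear_combination hc' - (τ ^ 2 - τ + 4) * h
    have h11 : 11 * τ + 1 = 0 := by
      rcases mul_eq_zero.mp h5 with h | h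
      · exact absurd h (by norm_num)
      · exact h
    have h1 : (1 : F) = 0 := by
      linear_combination 121 * h - (11 * τ - 122) * h11
    exact one_ne_zero h1
  refine ⟨τ, hτ0, ?_, ?_⟩
  · rw [tate_Δ]
    exact mul_ne_zero (pow_ne_zero 5 hτ0) hΔ
  · rw [tate_Δ, tate_c₄]
    linear_combination hτ

/-- Existence of a nonzero point killed by `5` over an algebraically closed field of
characteristic zero. -/
theorem exists_five_torsion [IsAlgClosed F] [CharZero F] (hΔ : W.Δ ≠ 0) :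
    ∃ P : W.toAffine.Point, P ≠ 0 ∧ 5 • P = 0 := by
  have : W.IsElliptic := ⟨isUnit_iff_ne_zero.mpr hΔ⟩
  obtain ⟨τ, hτ0, hτΔ, hτj⟩ := exists_tate W.j
  have : (tate τ).IsElliptic := ⟨isUnit_iff_ne_zero.mpr hτΔ⟩
  have hj : (tate τ).j = W.j := by
    have h1 : (tate τ).j = ((tate τ).Δ)⁻¹ * (tate τ).c₄ ^ 3 := by
      rw [WeierstrassCurve.j, Units.val_inv_eq_inv_val, coe_Δ']
    rw [h1, hτj]
    field_simp
  obtain ⟨C, hC⟩ := exists_variableChange_of_j_eq (tate τ) W hj
  subst hC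
  refine ⟨(PointMap.pointEquiv (tate τ) C).symm (Point.some 0 0 (tate_nonsingular hτ0)), ?_, ?_⟩
  · intro h
    have h2 := congrArg (PointMap.pointEquiv (tate τ) C) h
    rw [AddEquiv.apply_symm_apply, map_zero] at h2
    exact Point.some_ne_zero _ h2
  · rw [← PointMap.pointEquiv_nsmul_eq_zero_iff (tate τ) C, AddEquiv.apply_symm_apply]
    exact tate_five_nsmul hτ0

end Existence

end Fermat.Agent.S51.Torsion5
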